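/-
P-IGUSA subtask IG-D2b (helper74): elements of `k(j)` that are integral over `k[j]` are
polynomials in `j`, and a nonzero polynomial in `j` has a nonzero coefficient in degree `≤ 0`.
Here `j = jqModC k = t⁻¹ + …` is the formal `j`-invariant in `k((t))`.
-/
import Mathlib
import Fermat.Prelude.Def_ModularCurve_X0ModL

set_option autoImplicit false

noncomputable section

open ModularCurve Polynomial

namespace Fermat.Agent.H74

/-- Coefficients of a scalar multiple, for the `k`-algebra structure on `k((t))` that
`Polynomial.aeval` uses. -/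
theorem coeff_algebraMap_mul_laurent (k : Type*) [Field k] (c : k) (x : LaurentSeries k)
    (n : ℤ) : (algebraMap k (LaurentSeries k) c * x).coeff n = c * x.coeff n := by
  rw [HahnSeries.algebraMap_apply', PowerSeries.algebraMap_apply, Algebra.algebraMap_self,
    RingHom.id_apply, HahnSeries.ofPowerSeries_C, HahnSeries.C_mul_eq_smul,
    HahnSeries.coeff_smul]
  rfl

/-- The coefficient of `t^(-deg P)` in `P(j)` is the leading coefficient of `P`. -/
theorem coeff_aeval_jq_neg_natDegree (k : Type*) [Field k] (P : Polynomial k) :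
    (Polynomial.aeval (jqModC k) P).coeff (-(P.natDegree : ℤ)) = P.leadingCoeff := by
  rw [Polynomial.aeval_def, Polynomial.eval₂_eq_sum_range]
  have hcoe : ∀ (s : Finset ℕ) (f : ℕ → LaurentSeries k) (n : ℤ),
      (∑ i ∈ s, f i).coeff n = ∑ i ∈ s, (f i).coeff n := by
    intro s f n
    induction s using Finset.induction_on with
    | empty => simp
    | insert a s ha ih => rw [Finset.sum_insert ha, Finset.sum_insert ha, HahnSeries.coeff_add, ih]
  rw [hcoe, Finset.sum_eq_single P.natDegree]
  · rw [coeff_algebraMap_mul_laurent, coeff_jqModC_pow_self, mul_one]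
    rfl
  · intro i hi hne
    have hlt : i < P.natDegree := by
      have := Finset.mem_range.mp hi
      omega
    rw [coeff_algebraMap_mul_laurent,
      coeff_jqModC_pow_of_lt k (b := i) (m := -(P.natDegree : ℤ)) (by omega), mul_zero]
  · intro h
    exact absurd (Finset.mem_range.mpr (Nat.lt_succ_self _)) h

/-- **IG-D2b (second part).** A nonzero polynomial in `j` has a nonzero coefficient in some
degree `≤ 0`. -/
theorem exists_coeff_aeval_jq_ne_zero (k : Type*) [Field k] (P : Polynomial k) (hP : P ≠ 0) :
    ∃ n : ℤ, n ≤ 0 ∧ (Polynomial.aeval (jqModC k) P).coeff n ≠ 0 := by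
  refine ⟨-(P.natDegree : ℤ), by omega, ?_⟩
  rw [coeff_aeval_jq_neg_natDegree]
  exact Polynomial.leadingCoeff_ne_zero.mpr hP

/-- Evaluation at `j` is injective on polynomials: `j` is transcendental over `k`. -/
theorem aeval_jq_injective (k : Type*) [Field k] :
    Function.Injective (Polynomial.aeval (R := k) (jqModC k)) := by
  rw [injective_iff_map_eq_zero]
  intro P hP
  by_contra hne
  obtain ⟨n, -, hn⟩ := exists_coeff_aeval_jq_ne_zero k P hne
  exact hn (by rw [hP]; rfl)

theorem transcendental_jq (k : Type*) [Field k] : Transcendental k (jqModC k) := by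
  rw [transcendental_iff_injective]
  exact aeval_jq_injective k

/-- **IG-D2b (first part).** An element of `k(j)` integral over `k[j]` is a polynomial in `j`. -/
theorem exists_poly_of_integral (k : Type*) [Field k] (x : LaurentSeries k)
    (hx : x ∈ IntermediateField.adjoin k {jqModC k})
    (hint : IsIntegral (Algebra.adjoin k {jqModC k}) x) :
    ∃ P : Polynomial k, x = Polynomial.aeval (jqModC k) P := by
  classical
  -- the extension of `aeval j` to rational functions
  have hinj : Function.Injective
      ((Polynomial.aeval (R := k) (jqModC k) : Polynomial k →ₐ[k] LaurentSeries k) :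
        Polynomial k →+* LaurentSeries k) := aeval_jq_injective k
  let φ : RatFunc k →+* LaurentSeries k := IsFractionRing.lift hinj
  have hφ : ∀ p : Polynomial k, φ (algebraMap (Polynomial k) (RatFunc k) p)
      = Polynomial.aeval (jqModC k) p := fun p => IsFractionRing.lift_algebraMap hinj p
  -- `x` is in the image of `φ`
  obtain ⟨r, s, hrs⟩ := (IntermediateField.mem_adjoin_simple_iff k x).mp hx
  set w : RatFunc k := algebraMap (Polynomial k) (RatFunc k) r /
    algebraMap (Polynomial k) (RatFunc k) s with hw
  have hxw : φ w = x := by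
    rw [hw, map_div₀, hφ, hφ, hrs]
  -- lift the integrality equation
  obtain ⟨p, hpm, hpx⟩ := hint
  let f : Polynomial k →+* Algebra.adjoin k {jqModC k} :=
    ((Polynomial.aeval (R := k) (jqModC k)).codRestrict (Algebra.adjoin k {jqModC k})
      (fun q => by
        rw [Algebra.adjoin_singleton_eq_range_aeval]
        exact ⟨q, rfl⟩) : Polynomial k →ₐ[k] Algebra.adjoin k {jqModC k})
  have hf : Function.Surjective f := by
    rintro ⟨y, hy⟩
    rw [Algebra.adjoin_singleton_eq_range_aeval] at hy
    obtain ⟨q, hq⟩ := hy
    exact ⟨q, Subtype.ext hq⟩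
  have hfval : ∀ q : Polynomial k,
      algebraMap (Algebra.adjoin k {jqModC k}) (LaurentSeries k) (f q)
        = Polynomial.aeval (jqModC k) q := fun q => rfl
  obtain ⟨q, hqmap, -, hqm⟩ :=
    Polynomial.lifts_and_natDegree_eq_and_monic
      ((Polynomial.mem_lifts p).mpr (Polynomial.map_surjective f hf p)) hpm
  have hcomp : (algebraMap (Algebra.adjoin k {jqModC k}) (LaurentSeries k)).comp f
      = φ.comp (algebraMap (Polynomial k) (RatFunc k)) := by
    refine RingHom.ext fun a => ?_
    rw [RingHom.comp_apply, RingHom.comp_apply, hφ, hfval]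
  have hw_int : IsIntegral (Polynomial k) w := by
    refine ⟨q, hqm, ?_⟩
    have h1 : φ (Polynomial.eval₂ (algebraMap (Polynomial k) (RatFunc k)) w q) = 0 := by
      rw [Polynomial.hom_eval₂, hxw, ← hcomp, ← Polynomial.eval₂_map, hqmap]
      exact hpx
    exact (map_eq_zero_iff φ φ.injective).mp h1
  obtain ⟨P, hP⟩ := IsIntegrallyClosed.isIntegral_iff.mp hw_int
  exact ⟨P, by rw [← hxw, ← hP, hφ]⟩

end Fermat.Agent.H74

end
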