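import Fermat.Agent.H74.RatFuncHeight

/-!
# P-S52 / WP-B : interface statements between the pure `RatFunc` blocks and the
elliptic-curve assembly (helper74)

Everything here is a `Prop`-valued definition about `Fermat.Agent.H74.hdeg`
(`hdeg r = max (natDegree r.num) (natDegree r.denom)`).  The elliptic curve is
`E : y² = x³ + a x + b`; `ξ` denotes the (untwisted) `x`-coordinate of a point of the quadratic
twist of `E` by `f(t) = t³ + a t + b` over `RatFunc k`.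

* `ParaGenericStatement a b` (B2a): exact parallelogram law, generic case.
* `ParaDoubleStatement a b` (B2b): exact duplication law `h(2P) = 4 h(P)`.
* `CubicStatement a b` (B4 for the cubic): `hdeg (ξ³ + aξ + b) = 3 hdeg ξ`.
* `FrobSubStatement ℓ a b` (B4 + B5, Manin's count): `h(Frob P - P) = #E(𝔽_ℓ) h(P)`.
-/

set_option autoImplicit false

namespace Fermat.Agent.H74

open Polynomial

/-- **B2a.** Exact parallelogram law for the heights of `x`-coordinates, generic case: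
if `ξ₃, ξ₄` are the `x`-coordinates of `P ± Q` (given by the sum and product formulas), then
`h ξ₃ + h ξ₄ = 2 h ξ₁ + 2 h ξ₂`. -/
def ParaGenericStatement {k : Type*} [Field k] (a b : k) : Prop :=
  ∀ ξ₁ ξ₂ ξ₃ ξ₄ : RatFunc k, ξ₁ ≠ ξ₂ →
    (ξ₃ + ξ₄) * (ξ₁ - ξ₂) ^ 2 =
      2 * (ξ₁ * ξ₂ + RatFunc.C a) * (ξ₁ + ξ₂) + 4 * RatFunc.C b →
    ξ₃ * ξ₄ * (ξ₁ - ξ₂) ^ 2 = (ξ₁ * ξ₂ - RatFunc.C a) ^ 2 - 4 * RatFunc.C b * (ξ₁ + ξ₂) →
    hdeg ξ₃ + hdeg ξ₄ = 2 * hdeg ξ₁ + 2 * hdeg ξ₂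

/-- **B2b.** Exact duplication law: if `ξ'` is the `x`-coordinate of `2P`, then
`h ξ' = 4 h ξ`. -/
def ParaDoubleStatement {k : Type*} [Field k] (a b : k) : Prop :=
  ∀ ξ ξ' : RatFunc k, ξ ^ 3 + RatFunc.C a * ξ + RatFunc.C b ≠ 0 →
    ξ' * (4 * (ξ ^ 3 + RatFunc.C a * ξ + RatFunc.C b)) =
      (ξ ^ 2 - RatFunc.C a) ^ 2 - 8 * RatFunc.C b * ξ →
    hdeg ξ' = 4 * hdeg ξ

/-- **B4 (cubic).** `hdeg (ξ³ + aξ + b) = 3 hdeg ξ`. -/
def CubicStatement {k : Type*} [Field k] (a b : k) : Prop :=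
  ∀ ξ : RatFunc k, hdeg (ξ ^ 3 + RatFunc.C a * ξ + RatFunc.C b) = 3 * hdeg ξ

/-- The short Weierstrass curve `y² = x³ + a x + b`. -/
def shortCurve {R : Type*} [CommRing R] (a b : R) : WeierstrassCurve R :=
  { a₁ := 0, a₂ := 0, a₃ := 0, a₄ := a, a₆ := b }

/-- **B4 + B5 (Manin's count).**  For `ξ` non-constant, the `x`-coordinate of `Frob P - P`
has height `#E(𝔽_ℓ) * hdeg ξ`; the count includes the point at infinity. -/
def FrobSubStatement (ℓ : ℕ) [Fact ℓ.Prime] (a b : ZMod ℓ) : Prop :=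
  ∀ ξ : RatFunc (ZMod ℓ), ξ ^ ℓ ≠ ξ →
    hdeg (((ξ ^ 3 + RatFunc.C a * ξ + RatFunc.C b) *
          ((ξ ^ 3 + RatFunc.C a * ξ + RatFunc.C b) ^ ((ℓ - 1) / 2) + 1) ^ 2 -
        (ξ ^ ℓ + ξ) * (ξ ^ ℓ - ξ) ^ 2) / (ξ ^ ℓ - ξ) ^ 2) =
      Nat.card (shortCurve a b).toAffine.Point * hdeg ξ

end Fermat.Agent.H74
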