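/-
S13 / WP3 (helper74): division polynomials and torsion points, core induction.

For an affine point `P` of a Weierstrass curve over a field, `dseq P n` is the value at `P` of the
`n`-th division polynomial.  Assuming Ward's identity for `normEDS` and a few identities on the
curve (stated here as `Prop`s, proved elsewhere), we show
* Step A: if `j • P ≠ 0` for `1 ≤ j ≤ n` then `dseq P n ≠ 0` and
  `(x(P) - x(n • P)) * dseq P n ^ 2 = dseq P (n - 1) * dseq P (n + 1)`;
  and if `n` is the exact order of `P` then `dseq P n = 0`;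
* Step B: if `N` is the exact order of `P` and `N ∤ n` then `dseq P n ≠ 0`.
-/
import Mathlib

set_option autoImplicit false

noncomputable section

open WeierstrassCurve

namespace Fermat.Agent.H74

variable {K : Type*} [Field K]

/-- The `x`-coordinate of a point (junk value `0` at infinity). -/
def ptX {W : Affine K} : W.Point → K
  | .zero => 0
  | .some x _ _ => x

/-- The `y`-coordinate of a point (junk value `0` at infinity). -/
def ptY {W : Affine K} : W.Point → K
  | .zero => 0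
  | .some _ y _ => y

/-- The value of `ψ₂ = 2y + a₁x + a₃` at a point. -/
def ptPsi2 {W : Affine K} (P : W.Point) : K := 2 * ptY P + W.a₁ * ptX P + W.a₃

/-- The sequence of values of the division polynomials at a point. -/
def dseq {W : Affine K} (P : W.Point) (n : ℤ) : K :=
  normEDS (ptPsi2 P) (W.Ψ₃.eval (ptX P)) (W.preΨ₄.eval (ptX P)) n

/-- Ward's identity for the normalised elliptic divisibility sequences over `K`. -/
def WardIdentity (K : Type*) [CommRing K] : Prop :=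
  ∀ (b c d : K) (m n : ℤ),
    normEDS b c d (m + n) * normEDS b c d (m - n) =
      normEDS b c d (m + 1) * normEDS b c d (m - 1) * normEDS b c d n ^ 2 -
        normEDS b c d (n + 1) * normEDS b c d (n - 1) * normEDS b c d m ^ 2

/-- Duplication formula. -/
def CurveDup [DecidableEq K] (W : Affine K) : Prop :=
  ∀ P : W.Point, P ≠ 0 → P + P ≠ 0 →
    (ptX P - ptX (P + P)) * ptPsi2 P ^ 2 = W.Ψ₃.eval (ptX P)

/-- Triplication formula. -/
def CurveTrip [DecidableEq K] (W : Affine K) : Prop :=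
  ∀ P : W.Point, P ≠ 0 → P + P ≠ 0 → P + P + P ≠ 0 →
    (ptX P - ptX (P + P + P)) * W.Ψ₃.eval (ptX P) ^ 2 = ptPsi2 P ^ 2 * W.preΨ₄.eval (ptX P)

/-- The product formula for `x(P) - x(Q ± P)`. -/
def CurvePR [DecidableEq K] (W : Affine K) : Prop :=
  ∀ P Q : W.Point, P ≠ 0 → Q ≠ 0 → Q + P ≠ 0 → Q - P ≠ 0 →
    (ptX P - ptX (Q - P)) * (ptX P - ptX (Q + P)) * (ptX P - ptX Q) ^ 2 =
      ptPsi2 P ^ 2 * (ptX P - ptX Q) - W.Ψ₃.eval (ptX P)

/-- The composition formula `ψ₄(P) = ψ₂(P)⁴ ψ₂(2P)`. -/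
def CurveComp2 [DecidableEq K] (W : Affine K) : Prop :=
  ∀ P : W.Point, P ≠ 0 → P + P ≠ 0 →
    W.preΨ₄.eval (ptX P) * ptPsi2 P = ptPsi2 P ^ 4 * ptPsi2 (P + P)

/-- `ψ₃` does not vanish at points of order two. -/
def CurveTwoTors [DecidableEq K] (W : Affine K) : Prop :=
  ∀ P : W.Point, P ≠ 0 → P + P = 0 → W.Ψ₃.eval (ptX P) ≠ 0

section basics

variable {W : Affine K}

@[simp] lemma ptX_some {x y : K} (h : W.Nonsingular x y) : ptX (Affine.Point.some x y h) = x := rfl

@[simp] lemma ptY_some {x y : K} (h : W.Nonsingular x y) : ptY (Affine.Point.some x y h) = y := rfl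

lemma dseq_zero (P : W.Point) : dseq P 0 = 0 := normEDS_zero ..

lemma dseq_one (P : W.Point) : dseq P 1 = 1 := normEDS_one ..

lemma dseq_two (P : W.Point) : dseq P 2 = ptPsi2 P := normEDS_two ..

lemma dseq_three (P : W.Point) : dseq P 3 = W.Ψ₃.eval (ptX P) := normEDS_three ..

lemma dseq_four (P : W.Point) : dseq P 4 = W.preΨ₄.eval (ptX P) * ptPsi2 P := normEDS_four ..

lemma dseq_neg (P : W.Point) (n : ℤ) : dseq P (-n) = -dseq P n := normEDS_neg ..

/-- `dseq` is the value of the bivariate division polynomial. -/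
lemma dseq_eq_evalEval {x y : K} (h : W.Nonsingular x y) (n : ℤ) :
    dseq (Affine.Point.some x y h) n = (W.ψ n).evalEval x y := by
  have := map_normEDS (Polynomial.evalEvalRingHom x y) W.ψ₂ (Polynomial.C W.Ψ₃)
    (Polynomial.C W.preΨ₄) n
  rw [WeierstrassCurve.ψ, ← Polynomial.coe_evalEvalRingHom, this, dseq]
  congr 1
  · simp [ptPsi2, WeierstrassCurve.ψ₂, Affine.evalEval_polynomialY]
  · simp
  · simp

lemma ptX_neg (P : W.Point) : ptX (-P) = ptX P := by
  rcases P with _ | ⟨x, y, hxy⟩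
  · rfl
  · rfl

/-- Two nonzero points with the same `x`-coordinate are equal or opposite. -/
lemma eq_or_eq_neg_of_ptX_eq {P Q : W.Point} (hP : P ≠ 0) (hQ : Q ≠ 0) (h : ptX Q = ptX P) :
    Q = P ∨ Q = -P := by
  rcases P with _ | ⟨x, y, hxy⟩
  · exact absurd rfl hP
  rcases Q with _ | ⟨x', y', hxy'⟩
  · exact absurd rfl hQ
  exact Affine.Point.X_eq_iff.mp h

variable [DecidableEq K]

/-- A point doubles to zero iff `ψ₂` vanishes there. -/
lemma add_self_eq_zero_iff {P : W.Point} (hP : P ≠ 0) : P + P = 0 ↔ ptPsi2 P = 0 := by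
  rcases P with _ | ⟨x, y, h⟩
  · exact absurd rfl hP
  · rw [add_eq_zero_iff_eq_neg, Affine.Point.neg_some]
    simp only [Affine.Point.some.injEq, true_and, ptPsi2, ptX_some, ptY_some, Affine.negY]
    constructor
    · intro h1
      linear_combination h1
    · intro h1
      linear_combination h1

end basics


section stepA

variable [DecidableEq K] {W : Affine K}

/-- The statement of Step A at index `n`. -/
def StepAAt (P : W.Point) (n : ℕ) : Prop :=
  dseq P n ≠ 0 ∧
    (ptX P - ptX (n • P)) * dseq P n ^ 2 = dseq P ((n : ℤ) - 1) * dseq P ((n : ℤ) + 1)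

lemma stepAAt_one (P : W.Point) : StepAAt P 1 := by
  refine ⟨by simp [dseq_one], ?_⟩
  simp [dseq_zero]

lemma stepAAt_two (hDup : CurveDup W) {P : W.Point} (hP : P ≠ 0) (h2 : 2 • P ≠ 0) :
    StepAAt P 2 := by
  rw [two_nsmul] at h2
  have hb : ptPsi2 P ≠ 0 := fun h => h2 ((add_self_eq_zero_iff hP).mpr h)
  refine ⟨by simpa [dseq_two] using hb, ?_⟩
  have := hDup P hP h2
  rw [two_nsmul]
  norm_num
  rw [dseq_one, dseq_two, dseq_three, one_mul]
  exact this

/-- If `m • P ≠ 0`, `(m - 1) • P ≠ 0` and `(m + 1) • P ≠ 0`, then `x(m • P) ≠ x(P)`. -/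
lemma ptX_sub_ne_zero {P : W.Point} (hP : P ≠ 0) {m : ℕ} (hm : m • P ≠ 0)
    (hm1 : (m + 1) • P ≠ 0) (hm0 : ∀ k : ℕ, k + 1 = m → k • P ≠ 0) :
    ptX P - ptX (m • P) ≠ 0 := by
  intro h
  have hx : ptX (m • P) = ptX P := (sub_eq_zero.mp h).symm
  rcases eq_or_eq_neg_of_ptX_eq hP hm hx with h1 | h1
  · rcases m with _ | k
    · exact hm (zero_nsmul P)
    · refine hm0 k rfl ?_
      have : (k + 1) • P = k • P + P := succ_nsmul P k
      rw [this] at h1
      exact add_eq_right.mp h1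
  · apply hm1
    rw [succ_nsmul, h1]
    exact neg_add_cancel P

lemma stepAAt_three (hTrip : CurveTrip W) {P : W.Point} (hP : P ≠ 0) (h2 : 2 • P ≠ 0)
    (h3 : 3 • P ≠ 0) (hA2 : StepAAt P 2) : StepAAt P 3 := by
  obtain ⟨hb, hx2⟩ := hA2
  have hne : ptX P - ptX (2 • P) ≠ 0 :=
    ptX_sub_ne_zero hP h2 h3 (fun k hk => by
      have : k = 1 := by omega
      subst this
      simpa using hP)
  norm_num at hx2
  rw [dseq_one, dseq_three, one_mul] at hx2
  have hc : W.Ψ₃.eval (ptX P) ≠ 0 := by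
    rw [← hx2]
    exact mul_ne_zero hne (pow_ne_zero _ hb)
  refine ⟨by simpa [dseq_three] using hc, ?_⟩
  have h2' : P + P ≠ 0 := by rwa [two_nsmul] at h2
  have h3' : P + P + P ≠ 0 := by
    have : 3 • P = P + P + P := by
      rw [show (3 : ℕ) = 2 + 1 from rfl, succ_nsmul, two_nsmul]
    rwa [this] at h3
  have := hTrip P hP h2' h3'
  have e3 : 3 • P = P + P + P := by
    rw [show (3 : ℕ) = 2 + 1 from rfl, succ_nsmul, two_nsmul]
  rw [e3]
  norm_num
  rw [dseq_two, dseq_three, dseq_four, this]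
  ring

/-- The inductive step of Step A for `n = m + 1 ≥ 4`. -/
lemma stepAAt_succ (hW : WardIdentity K) (hPR : CurvePR W) {P : W.Point} (hP : P ≠ 0)
    {m : ℕ} (hm3 : 3 ≤ m) (hm : m • P ≠ 0) (hm1 : (m + 1) • P ≠ 0) (hm0 : (m - 1) • P ≠ 0)
    (hA : StepAAt P m) (hA1 : StepAAt P (m - 1)) (hA2 : StepAAt P (m - 2)) :
    StepAAt P (m + 1) := by
  obtain ⟨hwm, hxm⟩ := hA
  obtain ⟨hwm1, hxm1⟩ := hA1
  obtain ⟨hwm2, -⟩ := hA2
  have hne : ptX P - ptX (m • P) ≠ 0 :=
    ptX_sub_ne_zero hP hm hm1 (fun k hk => by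
      have : k = m - 1 := by omega
      subst this
      exact hm0)
  have e1 : ((m - 1 : ℕ) : ℤ) = (m : ℤ) - 1 := by
    have : 1 ≤ m := by omega
    push_cast [Nat.cast_sub this]
    ring
  have e2 : ((m - 2 : ℕ) : ℤ) = (m : ℤ) - 2 := by
    have : 2 ≤ m := by omega
    push_cast [Nat.cast_sub this]
    ring
  rw [e1] at hwm1 hxm1
  rw [e2] at hwm2
  have e3 : (m : ℤ) - 1 - 1 = (m : ℤ) - 2 := by ring
  have e4 : (m : ℤ) - 1 + 1 = (m : ℤ) := by ring
  rw [e3, e4] at hxm1
  -- nonvanishing of `w (m + 1)`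
  have hwp : dseq P ((m : ℤ) + 1) ≠ 0 := by
    intro h0
    rw [h0, mul_zero] at hxm
    exact (mul_ne_zero hne (pow_ne_zero _ hwm)) hxm
  -- the product formula
  have hQP : m • P + P = (m + 1) • P := (succ_nsmul P m).symm
  have hQP' : m • P - P = (m - 1) • P := by
    have : m = (m - 1) + 1 := by omega
    conv_lhs => rw [this, succ_nsmul]
    abel
  have hpr := hPR P (m • P) hP hm (by rwa [hQP]) (by rwa [hQP'])
  rw [hQP, hQP'] at hpr
  -- Ward's identity at `(m, 2)`
  have hward := hW (ptPsi2 P) (W.Ψ₃.eval (ptX P)) (W.preΨ₄.eval (ptX P)) m 2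
  simp only [normEDS_two] at hward
  have e5 : (2 : ℤ) + 1 = 3 := by norm_num
  have e6 : (2 : ℤ) - 1 = 1 := by norm_num
  rw [e5, e6, normEDS_three, normEDS_one] at hward
  change dseq P ((m : ℤ) + 2) * dseq P ((m : ℤ) - 2) =
    dseq P ((m : ℤ) + 1) * dseq P ((m : ℤ) - 1) * ptPsi2 P ^ 2 -
      W.Ψ₃.eval (ptX P) * 1 * dseq P (m : ℤ) ^ 2 at hward
  refine ⟨by exact_mod_cast hwp, ?_⟩
  have e7 : ((m + 1 : ℕ) : ℤ) = (m : ℤ) + 1 := by push_cast; ring
  rw [e7]
  have e8 : (m : ℤ) + 1 - 1 = (m : ℤ) := by ring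
  have e9 : (m : ℤ) + 1 + 1 = (m : ℤ) + 2 := by ring
  rw [e8, e9]
  -- abbreviations
  set A := ptX P - ptX ((m - 1) • P) with hAdef
  set B := ptX P - ptX (m • P) with hBdef
  set C := ptX P - ptX ((m + 1) • P) with hCdef
  set w0 := dseq P ((m : ℤ) - 2) with hw0
  set w1 := dseq P ((m : ℤ) - 1) with hw1
  set w2 := dseq P (m : ℤ) with hw2
  set w3 := dseq P ((m : ℤ) + 1) with hw3
  set w4 := dseq P ((m : ℤ) + 2) with hw4
  set b := ptPsi2 P with hb
  set c := W.Ψ₃.eval (ptX P) with hc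
  have key : w0 * w2 * w1 ^ 2 * (C * w3 ^ 2 - w2 * w4) = 0 := by
    linear_combination (-(w1 ^ 2 * w3 ^ 2 * C)) * hxm1 +
      (b ^ 2 * w1 ^ 2 * w2 ^ 2 - A * C * w1 ^ 2 * (B * w2 ^ 2 + w1 * w3)) * hxm +
      (w1 ^ 2 * w2 ^ 4) * hpr - (w1 ^ 2 * w2 ^ 2) * hward
  have hnz : w0 * w2 * w1 ^ 2 ≠ 0 :=
    mul_ne_zero (mul_ne_zero hwm2 hwm) (pow_ne_zero _ hwm1)
  have := (mul_eq_zero.mp key).resolve_left hnz
  linear_combination this

/-- **Step A.** If `j • P ≠ 0` for `1 ≤ j ≤ n`, then `dseq P n ≠ 0` and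
`(x(P) - x(n • P)) * dseq P n ^ 2 = dseq P (n - 1) * dseq P (n + 1)`. -/
theorem stepA (hW : WardIdentity K) (hDup : CurveDup W) (hTrip : CurveTrip W) (hPR : CurvePR W)
    {P : W.Point} (hP : P ≠ 0) :
    ∀ n : ℕ, 1 ≤ n → (∀ j : ℕ, 1 ≤ j → j ≤ n → j • P ≠ 0) → StepAAt P n := by
  intro n
  induction n using Nat.strong_induction_on with
  | _ n ih =>
    intro hn hj
    rcases Nat.lt_or_ge n 4 with h4 | h4
    · interval_cases n
      · exact stepAAt_one P
      · exact stepAAt_two hDup hP (hj 2 (by norm_num) le_rfl)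
      · exact stepAAt_three hTrip hP (hj 2 (by norm_num) (by norm_num)) (hj 3 (by norm_num) le_rfl)
          (stepAAt_two hDup hP (hj 2 (by norm_num) (by norm_num)))
    · obtain ⟨m, rfl⟩ : ∃ m, n = m + 1 := ⟨n - 1, by omega⟩
      have hm3 : 3 ≤ m := by omega
      refine stepAAt_succ hW hPR hP hm3 (hj m (by omega) (by omega)) (hj (m + 1) (by omega) le_rfl)
        (hj (m - 1) (by omega) (by omega)) ?_ ?_ ?_
      · exact ih m (by omega) (by omega) (fun j h1 h2 => hj j h1 (by omega))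
      · exact ih (m - 1) (by omega) (by omega) (fun j h1 h2 => hj j h1 (by omega))
      · exact ih (m - 2) (by omega) (by omega) (fun j h1 h2 => hj j h1 (by omega))

/-- **Step A, vanishing.** If `n ≥ 2` is the exact order of `P`, then `dseq P n = 0`. -/
theorem dseq_eq_zero_of_order (hW : WardIdentity K) (hDup : CurveDup W) (hTrip : CurveTrip W)
    (hPR : CurvePR W) {P : W.Point} (hP : P ≠ 0) {n : ℕ} (hn : 2 ≤ n)
    (hj : ∀ j : ℕ, 1 ≤ j → j < n → j • P ≠ 0) (hnP : n • P = 0) : dseq P n = 0 := by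
  rcases Nat.lt_or_ge n 3 with h3 | h3
  · have : n = 2 := by omega
    subst this
    rw [two_nsmul] at hnP
    have := (add_self_eq_zero_iff hP).mp hnP
    simpa [dseq_two] using this
  · obtain ⟨m, rfl⟩ : ∃ m, n = m + 1 := ⟨n - 1, by omega⟩
    have hm2 : 2 ≤ m := by omega
    have hA := stepA hW hDup hTrip hPR hP m (by omega) (fun j h1 h2 => hj j h1 (by omega))
    have hA1 := stepA hW hDup hTrip hPR hP (m - 1) (by omega) (fun j h1 h2 => hj j h1 (by omega))
    obtain ⟨hwm, hxm⟩ := hA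
    obtain ⟨hwm1, -⟩ := hA1
    have e1 : ((m - 1 : ℕ) : ℤ) = (m : ℤ) - 1 := by
      have : 1 ≤ m := by omega
      push_cast [Nat.cast_sub this]
      ring
    rw [e1] at hwm1
    have hmP : m • P = -P := by
      rw [succ_nsmul] at hnP
      exact eq_neg_of_add_eq_zero_left hnP
    rw [hmP, ptX_neg, sub_self, zero_mul] at hxm
    have := (mul_eq_zero.mp hxm.symm).resolve_left hwm1
    have e7 : ((m + 1 : ℕ) : ℤ) = (m : ℤ) + 1 := by push_cast; ring
    rw [e7]
    exact this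

end stepA


section stepB

variable [DecidableEq K] {W : Affine K}

/-- `dseq P (N + 1) ≠ 0` if `N` is the exact order of `P`. -/
lemma dseq_order_succ_ne_zero (hW : WardIdentity K) (hDup : CurveDup W) (hTrip : CurveTrip W)
    (hPR : CurvePR W) (hComp : CurveComp2 W) (hTwo : CurveTwoTors W)
    {P : W.Point} (hP : P ≠ 0) {N : ℕ} (hN : 2 ≤ N)
    (hj : ∀ j : ℕ, 1 ≤ j → j < N → j • P ≠ 0) (hNP : N • P = 0) :
    dseq P ((N : ℤ) + 1) ≠ 0 := by
  have hwN : dseq P N = 0 := dseq_eq_zero_of_order hW hDup hTrip hPR hP hN hj hNP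
  have hlt : ∀ j : ℕ, 1 ≤ j → j < N → dseq P j ≠ 0 := fun j h1 h2 =>
    (stepA hW hDup hTrip hPR hP j h1 (fun i hi1 hi2 => hj i hi1 (by omega))).1
  rcases Nat.lt_or_ge N 4 with h4 | h4
  · interval_cases N
    · -- `N = 2`
      rw [two_nsmul] at hNP
      have := hTwo P hP hNP
      norm_num
      rwa [dseq_three]
    · -- `N = 3`
      have h2 : P + P ≠ 0 := by
        have := hj 2 (by norm_num) (by norm_num)
        rwa [two_nsmul] at this
      have hb : ptPsi2 P ≠ 0 := fun h => h2 ((add_self_eq_zero_iff hP).mpr h)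
      have h4P : (P + P) + (P + P) ≠ 0 := by
        have e : (P + P) + (P + P) = 3 • P + P := by
          rw [show (3 : ℕ) = 2 + 1 from rfl, succ_nsmul, two_nsmul]
          abel
        rw [e, hNP, zero_add]
        exact hP
      have hb2 : ptPsi2 (P + P) ≠ 0 := fun h => h4P ((add_self_eq_zero_iff h2).mpr h)
      have := hComp P hP h2
      norm_num
      rw [dseq_four, this]
      exact mul_ne_zero (pow_ne_zero _ hb) hb2
  · -- `N ≥ 4`
    have hward := hW (ptPsi2 P) (W.Ψ₃.eval (ptX P)) (W.preΨ₄.eval (ptX P)) ((N : ℤ) - 1) 2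
    simp only [normEDS_two] at hward
    have e5 : (2 : ℤ) + 1 = 3 := by norm_num
    have e6 : (2 : ℤ) - 1 = 1 := by norm_num
    have e7 : (N : ℤ) - 1 + 2 = (N : ℤ) + 1 := by ring
    have e8 : (N : ℤ) - 1 - 2 = ((N - 3 : ℕ) : ℤ) := by
      have : 3 ≤ N := by omega
      push_cast [Nat.cast_sub this]
      ring
    have e9 : (N : ℤ) - 1 + 1 = (N : ℤ) := by ring
    have e10 : (N : ℤ) - 1 - 1 = ((N - 2 : ℕ) : ℤ) := by
      have : 2 ≤ N := by omega
      push_cast [Nat.cast_sub this]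
      ring
    have e11 : (N : ℤ) - 1 = ((N - 1 : ℕ) : ℤ) := by
      have : 1 ≤ N := by omega
      push_cast [Nat.cast_sub this]
      ring
    rw [e5, e6, normEDS_three, normEDS_one, e7, e8, e9, e10, e11] at hward
    change dseq P ((N : ℤ) + 1) * dseq P ((N - 3 : ℕ) : ℤ) =
      dseq P (N : ℤ) * dseq P ((N - 2 : ℕ) : ℤ) * ptPsi2 P ^ 2 -
        W.Ψ₃.eval (ptX P) * 1 * dseq P ((N - 1 : ℕ) : ℤ) ^ 2 at hward
    rw [hwN, zero_mul, zero_mul, zero_sub, mul_one] at hward
    have hc : W.Ψ₃.eval (ptX P) ≠ 0 := by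
      have := hlt 3 (by norm_num) (by omega)
      rwa [show ((3 : ℕ) : ℤ) = 3 from rfl, dseq_three] at this
    have h1 : dseq P ((N - 1 : ℕ) : ℤ) ≠ 0 := hlt (N - 1) (by omega) (by omega)
    intro h0
    rw [h0, zero_mul] at hward
    exact (neg_ne_zero.mpr (mul_ne_zero hc (pow_ne_zero 2 h1))) hward.symm

/-- **Step B.** If `N ≥ 2` is the exact order of `P` and `N ∤ n`, then `dseq P n ≠ 0`. -/
theorem stepB (hW : WardIdentity K) (hDup : CurveDup W) (hTrip : CurveTrip W)
    (hPR : CurvePR W) (hComp : CurveComp2 W) (hTwo : CurveTwoTors W)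
    {P : W.Point} (hP : P ≠ 0) {N : ℕ} (hN : 2 ≤ N)
    (hj : ∀ j : ℕ, 1 ≤ j → j < N → j • P ≠ 0) (hNP : N • P = 0) :
    ∀ n : ℕ, 1 ≤ n → ¬ N ∣ n → dseq P n ≠ 0 := by
  have hwN : dseq P N = 0 := dseq_eq_zero_of_order hW hDup hTrip hPR hP hN hj hNP
  have hlt : ∀ j : ℕ, 1 ≤ j → j < N → dseq P j ≠ 0 := fun j h1 h2 =>
    (stepA hW hDup hTrip hPR hP j h1 (fun i hi1 hi2 => hj i hi1 (by omega))).1
  have hsucc := dseq_order_succ_ne_zero hW hDup hTrip hPR hComp hTwo hP hN hj hNP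
  intro n
  induction n using Nat.strong_induction_on with
  | _ n ih =>
    intro hn hdvd
    rcases Nat.lt_or_ge n N with h1 | h1
    · exact hlt n hn h1
    have hne : n ≠ N := fun h => hdvd (h ▸ dvd_rfl)
    have hgt : N < n := lt_of_le_of_ne h1 (Ne.symm hne)
    have hIH : dseq P ((n - N : ℕ) : ℤ) ≠ 0 := by
      refine ih (n - N) (by omega) (by omega) ?_
      intro hd
      exact hdvd ((Nat.dvd_sub_iff_left h1 dvd_rfl).mp hd)
    have hward := hW (ptPsi2 P) (W.Ψ₃.eval (ptX P)) (W.preΨ₄.eval (ptX P)) ((n : ℤ) - N) N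
    have e1 : (n : ℤ) - N + N = n := by ring
    have e2 : (n : ℤ) - N = ((n - N : ℕ) : ℤ) := by
      push_cast [Nat.cast_sub h1]
      ring
    have e3 : ((N - 1 : ℕ) : ℤ) = (N : ℤ) - 1 := by
      have : 1 ≤ N := by omega
      push_cast [Nat.cast_sub this]
      ring
    rw [e1] at hward
    change dseq P (n : ℤ) * dseq P ((n : ℤ) - N - N) =
      dseq P ((n : ℤ) - N + 1) * dseq P ((n : ℤ) - N - 1) * dseq P (N : ℤ) ^ 2 -
        dseq P ((N : ℤ) + 1) * dseq P ((N : ℤ) - 1) * dseq P ((n : ℤ) - N) ^ 2 at hward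
    rw [hwN, ← e3, e2] at hward
    have h3 : dseq P ((N - 1 : ℕ) : ℤ) ≠ 0 := hlt (N - 1) (by omega) (by omega)
    intro h0
    rw [h0, zero_mul] at hward
    have : dseq P ((N : ℤ) + 1) * dseq P ((N - 1 : ℕ) : ℤ) * dseq P ((n - N : ℕ) : ℤ) ^ 2 ≠ 0 :=
      mul_ne_zero (mul_ne_zero hsucc h3) (pow_ne_zero 2 hIH)
    apply this
    linear_combination hward

/-- **Torsion criterion.** For a nonzero point `P` and a prime `p`: `p • P = 0` if and only if the
`p`-th division polynomial vanishes at `P`. -/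
theorem nsmul_eq_zero_iff_dseq_eq_zero (hW : WardIdentity K) (hDup : CurveDup W)
    (hTrip : CurveTrip W) (hPR : CurvePR W) (hComp : CurveComp2 W) (hTwo : CurveTwoTors W)
    {P : W.Point} (hP : P ≠ 0) {p : ℕ} (hp : p.Prime) :
    p • P = 0 ↔ dseq P p = 0 := by
  classical
  constructor
  · intro h
    refine dseq_eq_zero_of_order hW hDup hTrip hPR hP hp.two_le ?_ h
    intro j h1 h2 hjP
    -- the order of `P` divides both `j` and `p`
    have hcop : Nat.Coprime j p := (Nat.coprime_of_lt_prime (by omega) h2 hp).symm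
    obtain ⟨a, b, hab⟩ : ∃ a b : ℤ, a * j + b * p = 1 := by
      have := Nat.Coprime.isCoprime hcop
      obtain ⟨a, b, hab⟩ := this
      exact ⟨a, b, by exact_mod_cast hab⟩
    apply hP
    have h1P : (1 : ℤ) • P = 0 := by
      rw [← hab, add_smul, mul_smul, mul_smul, natCast_zsmul, natCast_zsmul, hjP, h, smul_zero,
        smul_zero, add_zero]
    simpa using h1P
  · intro h
    by_contra hne
    -- the order of `P` is at most `p`?
    by_cases hex : ∃ N : ℕ, 1 ≤ N ∧ N ≤ p ∧ N • P = 0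
    · -- take the least such `N`
      have hNspec := Nat.find_spec hex
      have hNmin' : ∀ j, j < Nat.find hex → ¬ (1 ≤ j ∧ j ≤ p ∧ j • P = 0) :=
        fun j hj => Nat.find_min hex hj
      generalize Nat.find hex = N at hNspec hNmin'
      have hNmin : ∀ j, 1 ≤ j → j < N → j • P ≠ 0 := by
        intro j h1 h2 h3
        exact hNmin' j h2 ⟨h1, by have := hNspec.2.1; omega, h3⟩
      have hN2 : 2 ≤ N := by
        rcases Nat.lt_or_ge N 2 with h2 | h2
        · exfalso
          have : N = 1 := by have := hNspec.1; omega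
          have h1P := hNspec.2.2
          rw [this, one_nsmul] at h1P
          exact hP h1P
        · exact h2
      have hNp : N ≠ p := fun h' => hne (h' ▸ hNspec.2.2)
      have hndvd : ¬ N ∣ p := by
        intro hd
        rcases (Nat.dvd_prime hp).mp hd with h1 | h1
        · omega
        · exact hNp h1
      exact stepB hW hDup hTrip hPR hComp hTwo hP hN2 hNmin hNspec.2.2 p hp.one_le hndvd h
    · push_neg at hex
      exact (stepA hW hDup hTrip hPR hP p hp.one_le (fun j h1 h2 => hex j h1 h2)).1 h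

end stepB

end Fermat.Agent.H74

end
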