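/-
S13 / WP3 (helper74): consequences of the division polynomial criterion for torsion points:
existence of a nonzero `p`-torsion point over an algebraically closed field, and the bound
`#E[p] ≤ p ^ 2`.  The curve identities and Ward's identity are still hypotheses here.
-/
import Fermat.Agent.H74.DivPolyCore

set_option autoImplicit false

noncomputable section

open WeierstrassCurve Polynomial

namespace Fermat.Agent.H74

variable {K : Type*} [Field K] {W : Affine K}

/-- On the curve, `ψ₂(P)² = Ψ₂Sq(x(P))`. -/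
lemma ptPsi2_sq {x y : K} (h : W.Nonsingular x y) :
    ptPsi2 (Affine.Point.some x y h) ^ 2 = W.Ψ₂Sq.eval x := by
  have heq := (Affine.equation_iff' x y).mp h.1
  simp only [ptPsi2, ptX_some, ptY_some, WeierstrassCurve.Ψ₂Sq, WeierstrassCurve.b₂,
    WeierstrassCurve.b₄, WeierstrassCurve.b₆, eval_add, eval_mul, eval_C, eval_pow, eval_X]
  linear_combination 4 * heq

/-- On the curve, the value of the `n`-th division polynomial is the value of `preΨ n` times
`ψ₂(P)` or `1`. -/
lemma dseq_eq_eval_preΨ {x y : K} (h : W.Nonsingular x y) (n : ℤ) :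
    dseq (Affine.Point.some x y h) n =
      (W.preΨ n).eval x * (if Even n then ptPsi2 (Affine.Point.some x y h) else 1) := by
  have h1 : (W.preΨ n).eval x =
      preNormEDS (W.Ψ₂Sq.eval x ^ 2) (W.Ψ₃.eval x) (W.preΨ₄.eval x) n := by
    have := map_preNormEDS (Polynomial.evalRingHom x) (W.Ψ₂Sq ^ 2) W.Ψ₃ W.preΨ₄ n
    rw [map_pow] at this
    exact this
  rw [h1, ← ptPsi2_sq h, ← pow_mul]
  rfl

/-- For odd `n`, the value of the `n`-th division polynomial at a point is `preΨ n (x)`. -/
lemma dseq_of_odd {x y : K} (h : W.Nonsingular x y) {n : ℤ} (hn : ¬ Even n) :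
    dseq (Affine.Point.some x y h) n = (W.preΨ n).eval x := by
  rw [dseq_eq_eval_preΨ h n, if_neg hn, mul_one]

/-- Over an algebraically closed field, every `x` is the `x`-coordinate of a point of the
curve. -/
lemma exists_equation_of_isAlgClosed [IsAlgClosed K] (x : K) : ∃ y : K, W.Equation x y := by
  let q : K[X] := C 1 * X ^ 2 + C (W.a₁ * x + W.a₃) * X +
    C (-(x ^ 3 + W.a₂ * x ^ 2 + W.a₄ * x + W.a₆))
  have hq : q.degree ≠ 0 := by
    have : q.degree = 2 := Polynomial.degree_quadratic one_ne_zero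
    rw [this]
    norm_num
  obtain ⟨y, hy⟩ := IsAlgClosed.exists_root q hq
  refine ⟨y, ?_⟩
  rw [Affine.equation_iff']
  simp only [q, IsRoot.def, eval_add, eval_pow, eval_X, eval_mul, eval_C] at hy
  linear_combination hy

section main

variable [DecidableEq K]

/-- **Existence of torsion points.** Over an algebraically closed field in which the odd prime
`p` is invertible, an elliptic curve has a nonzero `p`-torsion point. -/
theorem exists_ne_zero_nsmul_eq_zero (hW : WardIdentity K) (hDup : CurveDup W)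
    (hTrip : CurveTrip W) (hPR : CurvePR W) (hComp : CurveComp2 W) (hTwo : CurveTwoTors W)
    [IsAlgClosed K] (hΔ : W.Δ ≠ 0) {p : ℕ} (hp : p.Prime) (hodd : p ≠ 2) (hpK : (p : K) ≠ 0) :
    ∃ P : W.Point, P ≠ 0 ∧ p • P = 0 := by
  have hp3 : 2 < p := lt_of_le_of_ne hp.two_le (Ne.symm hodd)
  have hdeg : 0 < (W.preΨ (p : ℤ)).natDegree :=
    WeierstrassCurve.natDegree_preΨ_pos W (by simpa using hp3) (by exact_mod_cast hpK)
  obtain ⟨x, hx⟩ := IsAlgClosed.exists_root (W.preΨ (p : ℤ))
    (ne_of_gt (Polynomial.natDegree_pos_iff_degree_pos.mp hdeg))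
  obtain ⟨y, hy⟩ := exists_equation_of_isAlgClosed (W := W) x
  have hns : W.Nonsingular x y := (Affine.equation_iff_nonsingular_of_Δ_ne_zero hΔ).mp hy
  refine ⟨Affine.Point.some x y hns, Affine.Point.some_ne_zero hns, ?_⟩
  rw [nsmul_eq_zero_iff_dseq_eq_zero hW hDup hTrip hPR hComp hTwo
    (Affine.Point.some_ne_zero hns) hp]
  have hnotEven : ¬ Even (p : ℤ) := by
    rw [Int.even_coe_nat]
    intro he
    exact hodd ((Nat.Prime.even_iff hp).mp he)
  rw [dseq_of_odd hns hnotEven]
  exact hx

/-- The `x`-coordinate of a nonzero `p`-torsion point is a root of `preΨ p` (for `p` an odd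
prime). -/
theorem preΨ_eval_ptX_eq_zero (hW : WardIdentity K) (hDup : CurveDup W)
    (hTrip : CurveTrip W) (hPR : CurvePR W) (hComp : CurveComp2 W) (hTwo : CurveTwoTors W)
    {p : ℕ} (hp : p.Prime) (hodd : p ≠ 2) {P : W.Point} (hP : P ≠ 0) (hpP : p • P = 0) :
    (W.preΨ (p : ℤ)).eval (ptX P) = 0 := by
  rcases P with _ | ⟨x, y, hns⟩
  · exact absurd rfl hP
  have hnotEven : ¬ Even (p : ℤ) := by
    rw [Int.even_coe_nat]
    intro he
    exact hodd ((Nat.Prime.even_iff hp).mp he)
  have := (nsmul_eq_zero_iff_dseq_eq_zero hW hDup hTrip hPR hComp hTwo hP hp).mp hpP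
  rwa [dseq_of_odd hns hnotEven] at this


/-- The affine coordinates of a point, as an element of `Option (K × K)`. -/
def ptCoords : W.Point → Option (K × K)
  | .zero => none
  | .some x y _ => some (x, y)

omit [DecidableEq K] in
lemma ptCoords_injective : Function.Injective (ptCoords (W := W)) := by
  rintro (_ | ⟨x, y, h⟩) (_ | ⟨x', y', h'⟩) hPQ
  · rfl
  · simp [ptCoords] at hPQ
  · simp [ptCoords] at hPQ
  · simp only [ptCoords, Option.some.injEq, Prod.mk.injEq] at hPQ
    obtain ⟨rfl, rfl⟩ := hPQ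
    rfl

/-- The quadratic polynomial in `Y` cutting out the points with given `x`-coordinate. -/
def yQuadratic (W : Affine K) (x : K) : K[X] :=
  C 1 * X ^ 2 + C (W.a₁ * x + W.a₃) * X + C (-(x ^ 3 + W.a₂ * x ^ 2 + W.a₄ * x + W.a₆))

omit [DecidableEq K] in
lemma yQuadratic_ne_zero (x : K) : yQuadratic W x ≠ 0 := by
  intro h
  have : (yQuadratic W x).degree = 2 := Polynomial.degree_quadratic one_ne_zero
  rw [h, Polynomial.degree_zero] at this
  exact absurd this (by decide)

omit [DecidableEq K] in
lemma yQuadratic_natDegree (x : K) : (yQuadratic W x).natDegree = 2 :=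
  Polynomial.natDegree_quadratic one_ne_zero

omit [DecidableEq K] in
lemma isRoot_yQuadratic {x y : K} (h : W.Equation x y) : (yQuadratic W x).IsRoot y := by
  have := (Affine.equation_iff' x y).mp h
  simp only [yQuadratic, IsRoot.def, eval_add, eval_pow, eval_X, eval_mul, eval_C]
  linear_combination this

/-- **Counting torsion points.** For an odd prime `p` invertible in `K`, there are at most `p ^ 2`
points killed by `p`. -/
theorem torsion_finite_and_ncard_le (hW : WardIdentity K) (hDup : CurveDup W)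
    (hTrip : CurveTrip W) (hPR : CurvePR W) (hComp : CurveComp2 W) (hTwo : CurveTwoTors W)
    {p : ℕ} (hp : p.Prime) (hodd : p ≠ 2) (hpK : (p : K) ≠ 0) :
    {P : W.Point | p • P = 0}.Finite ∧ {P : W.Point | p • P = 0}.ncard ≤ p ^ 2 := by
  classical
  have hne : W.preΨ (p : ℤ) ≠ 0 := WeierstrassCurve.preΨ_ne_zero W (by exact_mod_cast hpK)
  have hnotEven : ¬ Even (p : ℤ) := by
    rw [Int.even_coe_nat]
    intro he
    exact hodd ((Nat.Prime.even_iff hp).mp he)
  let R : Finset K := (W.preΨ (p : ℤ)).roots.toFinset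
  have hRcard : R.card ≤ (p ^ 2 - 1) / 2 := by
    calc R.card ≤ Multiset.card (W.preΨ (p : ℤ)).roots := Multiset.toFinset_card_le _
      _ ≤ (W.preΨ (p : ℤ)).natDegree := Polynomial.card_roots' _
      _ ≤ (p ^ 2 - 1) / 2 := by
        have := WeierstrassCurve.natDegree_preΨ_le W (p : ℤ)
        rw [if_neg hnotEven] at this
        simpa using this
  let T : Finset (K × K) :=
    R.biUnion (fun x => ((yQuadratic W x).roots.toFinset).image (fun y => (x, y)))
  have hTcard : T.card ≤ 2 * R.card := by
    calc T.card ≤ ∑ x ∈ R, (((yQuadratic W x).roots.toFinset).image (fun y => (x, y))).card :=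
          Finset.card_biUnion_le
      _ ≤ ∑ _x ∈ R, 2 := by
        refine Finset.sum_le_sum (fun x _ => ?_)
        calc (((yQuadratic W x).roots.toFinset).image (fun y => (x, y))).card
            ≤ ((yQuadratic W x).roots.toFinset).card := Finset.card_image_le
          _ ≤ Multiset.card (yQuadratic W x).roots := Multiset.toFinset_card_le _
          _ ≤ (yQuadratic W x).natDegree := Polynomial.card_roots' _
          _ = 2 := yQuadratic_natDegree x
      _ = 2 * R.card := by rw [Finset.sum_const, smul_eq_mul, mul_comm]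
  let T' : Finset (Option (K × K)) := insert none (T.image some)
  have hT'card : T'.card ≤ p ^ 2 := by
    have h1 : T'.card ≤ (T.image some).card + 1 := Finset.card_insert_le _ _
    have h2 : (T.image some).card ≤ T.card := Finset.card_image_le
    have h3 : 1 ≤ p ^ 2 := Nat.one_le_pow _ _ hp.pos
    omega
  have hmaps : ∀ P ∈ {P : W.Point | p • P = 0}, ptCoords P ∈ (T' : Set (Option (K × K))) := by
    intro P hP
    rcases P with _ | ⟨x, y, hns⟩
    · simp [T', ptCoords]
    · have hroot := preΨ_eval_ptX_eq_zero hW hDup hTrip hPR hComp hTwo hp hodd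
        (Affine.Point.some_ne_zero hns) hP
      rw [ptX_some] at hroot
      have hxR : x ∈ R := by
        simp only [R, Multiset.mem_toFinset]
        exact (Polynomial.mem_roots hne).mpr hroot
      have hyr : y ∈ (yQuadratic W x).roots.toFinset := by
        simp only [Multiset.mem_toFinset]
        exact (Polynomial.mem_roots (yQuadratic_ne_zero x)).mpr (isRoot_yQuadratic hns.1)
      simp only [T', T, ptCoords, Finset.coe_insert, Finset.coe_image, Set.mem_insert_iff,
        Set.mem_image, Finset.mem_coe, Finset.mem_biUnion, Finset.mem_image, reduceCtorEq,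
        Option.some.injEq, false_or]
      exact ⟨(x, y), ⟨x, hxR, y, hyr, rfl⟩, rfl⟩
  have hinj : Set.InjOn (ptCoords (W := W)) {P : W.Point | p • P = 0} :=
    ptCoords_injective.injOn
  have hfin : {P : W.Point | p • P = 0}.Finite := by
    refine Set.Finite.of_finite_image ?_ hinj
    refine Set.Finite.subset T'.finite_toSet ?_
    rintro _ ⟨P, hP, rfl⟩
    exact hmaps P hP
  refine ⟨hfin, ?_⟩
  calc {P : W.Point | p • P = 0}.ncard ≤ (T' : Set (Option (K × K))).ncard :=
        Set.ncard_le_ncard_of_injOn ptCoords hmaps hinj T'.finite_toSet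
    _ = T'.card := Set.ncard_coe_finset T'
    _ ≤ p ^ 2 := hT'card

/-- The `p`-torsion subgroup is nontrivial. -/
theorem nontrivial_torsionBy (hW : WardIdentity K) (hDup : CurveDup W)
    (hTrip : CurveTrip W) (hPR : CurvePR W) (hComp : CurveComp2 W) (hTwo : CurveTwoTors W)
    [IsAlgClosed K] (hΔ : W.Δ ≠ 0) {p : ℕ} (hp : p.Prime) (hodd : p ≠ 2) (hpK : (p : K) ≠ 0) :
    Nontrivial (Submodule.torsionBy ℤ W.Point (p : ℤ)) := by
  obtain ⟨P, hP0, hpP⟩ := exists_ne_zero_nsmul_eq_zero hW hDup hTrip hPR hComp hTwo hΔ hp hodd hpK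
  have hmem : P ∈ Submodule.torsionBy ℤ W.Point (p : ℤ) := by
    rw [Submodule.mem_torsionBy_iff, natCast_zsmul]
    exact hpP
  refine ⟨⟨⟨P, hmem⟩, 0, ?_⟩⟩
  intro h
  exact hP0 (congrArg Subtype.val h)

/-- The `p`-torsion subgroup is finite of cardinality at most `p ^ 2`. -/
theorem finite_torsionBy_and_card_le (hW : WardIdentity K) (hDup : CurveDup W)
    (hTrip : CurveTrip W) (hPR : CurvePR W) (hComp : CurveComp2 W) (hTwo : CurveTwoTors W)
    {p : ℕ} (hp : p.Prime) (hodd : p ≠ 2) (hpK : (p : K) ≠ 0) :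
    Finite (Submodule.torsionBy ℤ W.Point (p : ℤ)) ∧
      Nat.card (Submodule.torsionBy ℤ W.Point (p : ℤ)) ≤ p ^ 2 := by
  obtain ⟨hfin, hcard⟩ := torsion_finite_and_ncard_le hW hDup hTrip hPR hComp hTwo hp hodd hpK
  have hset : ((Submodule.torsionBy ℤ W.Point (p : ℤ) : Submodule ℤ W.Point) : Set W.Point)
      = {P : W.Point | p • P = 0} := by
    ext P
    simp only [SetLike.mem_coe, Submodule.mem_torsionBy_iff, natCast_zsmul, Set.mem_ofPred_eq]
  have hfin' : Finite (Submodule.torsionBy ℤ W.Point (p : ℤ)) := by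
    have : Finite ((Submodule.torsionBy ℤ W.Point (p : ℤ) : Submodule ℤ W.Point) : Set W.Point) := by
      rw [hset]
      exact hfin.to_subtype
    exact this
  refine ⟨hfin', ?_⟩
  have : Nat.card (Submodule.torsionBy ℤ W.Point (p : ℤ))
      = ((Submodule.torsionBy ℤ W.Point (p : ℤ) : Submodule ℤ W.Point) : Set W.Point).ncard := by
    rw [← _root_.Nat.card_coe_set_eq]
    rfl
  rw [this, hset]
  exact hcard

end main

end Fermat.Agent.H74

end
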