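/-
S13 / WP3 (helper74): division polynomials and torsion points, final (hypothesis-free) form.

Combines the core induction (`DivPolyCore`, `DivPolyTorsion`) with Ward's identity
(`Fermat.Agent.H72.normEDS_rel`) and the curve identities of `Fermat.Agent.H70.AddSub`.
-/
import Fermat.Agent.H74.DivPolyTorsion
import Fermat.Agent.H70.AddSub
import Fermat.Agent.H72.Ward

set_option autoImplicit false

noncomputable section

open WeierstrassCurve Polynomial

namespace Fermat.Agent.H74

/-- Ward's identity holds in every commutative ring. -/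
theorem wardIdentity (K : Type*) [CommRing K] : WardIdentity K :=
  fun b c d m n => Fermat.Agent.H72.normEDS_rel b c d m n

variable {K : Type*} [Field K]

lemma ptX_eq_xc (W : Affine K) (P : W.Point) : ptX P = Fermat.Agent.H38.xc W P := by
  cases P <;> rfl

/-- `ψ₂(P)² = Ψ₂Sq(x(P))` for a nonzero point. -/
lemma ptPsi2_sq_of_ne_zero {W : Affine K} {P : W.Point} (hP : P ≠ 0) :
    ptPsi2 P ^ 2 = W.Ψ₂Sq.eval (ptX P) := by
  rcases P with _ | ⟨x, y, h⟩
  · exact absurd rfl hP
  · exact ptPsi2_sq h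

section curve

variable [DecidableEq K] (W : Affine K)

theorem curveDup : CurveDup W := by
  intro P hP h2
  have h2' : 2 • P ≠ 0 := by rwa [two_nsmul]
  have := Fermat.Agent.H70.xc_sub_xc_two_nsmul W hP h2'
  rw [two_nsmul, ← ptX_eq_xc, ← ptX_eq_xc] at this
  rw [ptPsi2_sq_of_ne_zero hP]
  exact this

theorem curveTrip : CurveTrip W := by
  intro P hP _ h3
  have e3 : 3 • P = P + P + P := by
    rw [show (3 : ℕ) = 2 + 1 from rfl, succ_nsmul, two_nsmul]
  have h3' : 3 • P ≠ 0 := by rwa [e3]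
  have := Fermat.Agent.H70.xc_sub_xc_three_nsmul W hP h3'
  rw [e3, ← ptX_eq_xc, ← ptX_eq_xc] at this
  rw [ptPsi2_sq_of_ne_zero hP]
  exact this

theorem curvePR : CurvePR W := by
  intro P Q hP hQ hadd hsub
  have hne : Fermat.Agent.H38.xc W P ≠ Fermat.Agent.H38.xc W Q := by
    intro h
    rw [← ptX_eq_xc, ← ptX_eq_xc] at h
    rcases eq_or_eq_neg_of_ptX_eq hP hQ h.symm with h1 | h1
    · exact hsub (by rw [h1, sub_self])
    · exact hadd (by rw [h1, neg_add_cancel])
  have := Fermat.Agent.H70.xc_sub_mul_xc_sub W hP hQ hne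
  simp only [← ptX_eq_xc] at this
  rw [ptPsi2_sq_of_ne_zero hP, ← Fermat.Agent.H70.dblDen_eq_eval,
    ← Fermat.Agent.H70.psi3_eq_eval]
  exact this

theorem curveComp2 : CurveComp2 W := by
  intro P hP h2
  rcases P with _ | ⟨x, y, h⟩
  · exact absurd rfl hP
  obtain ⟨x', y', h', hP2⟩ := Fermat.Agent.H38.exists_some_of_ne_zero W h2
  have h2n : (2 : ℕ) • Affine.Point.some x y h = Affine.Point.some x' y' h' := by
    rw [two_nsmul]
    exact hP2
  have := Fermat.Agent.H70.preΨ₄_eval_eq_of_two_nsmul W h2n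
  rw [Fermat.Agent.H70.evalEval_ψ₂, Fermat.Agent.H70.evalEval_ψ₂] at this
  rw [hP2]
  simp only [ptX_some, ptY_some, ptPsi2]
  rw [this]
  ring

/-- In characteristic different from `2`, `Ψ₃` does not vanish at points of order `2`. -/
theorem curveTwoTors (h2 : (2 : K) ≠ 0) : CurveTwoTors W := by
  intro P hP hPP hΨ
  have hb : ptPsi2 P = 0 := (add_self_eq_zero_iff hP).mp hPP
  rcases P with _ | ⟨x, y, h⟩
  · exact absurd rfl hP
  simp only [ptPsi2, ptX_some, ptY_some] at hb
  simp only [ptX_some, WeierstrassCurve.Ψ₃, eval_add, eval_mul, eval_C, eval_pow, eval_X,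
    eval_ofNat] at hΨ
  obtain ⟨heq, hns⟩ := (Affine.nonsingular_iff' x y).mp h
  rcases hns with hX | hY
  · apply hX
    -- `16 Ψ₃(x) = -(4 * polyX)^2` modulo `ψ₂(P) = 0` and the equation of the curve
    have h16 : (W.a₁ * y - (3 * x ^ 2 + 2 * W.a₂ * x + W.a₄)) ^ 2 = 0 := by
      simp only [WeierstrassCurve.b₂, WeierstrassCurve.b₄, WeierstrassCurve.b₆,
        WeierstrassCurve.b₈] at hΨ
      have heq' := (Affine.equation_iff' x y).mp heq
      have h4 : (4 : K) ≠ 0 := by
        have : (4 : K) = 2 * 2 := by norm_num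
        rw [this]
        exact mul_ne_zero h2 h2
      have h16' : (16 : K) ≠ 0 := by
        have : (16 : K) = 4 * 4 := by norm_num
        rw [this]
        exact mul_ne_zero h4 h4
      have : (16 : K) * (W.a₁ * y - (3 * x ^ 2 + 2 * W.a₂ * x + W.a₄)) ^ 2 = 0 := by
        linear_combination (-16 : K) * hΨ +
          (2 * (2 * y + W.a₁ * x + W.a₃) * (24 * x + 2 * (W.a₁ ^ 2 + 4 * W.a₂))
            + 16 * W.a₁ * (W.a₁ * y - (3 * x ^ 2 + 2 * W.a₂ * x + W.a₄))
            - 4 * W.a₁ ^ 2 * (2 * y + W.a₁ * x + W.a₃)) * hb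
          - 8 * (24 * x + 2 * (W.a₁ ^ 2 + 4 * W.a₂)) * heq'
      exact (mul_eq_zero.mp this).resolve_left h16'
    exact pow_eq_zero_iff (two_ne_zero) |>.mp h16
  · exact hY hb

end curve

section final

variable [DecidableEq K] (W : Affine K)

/-- **Division polynomial criterion** (prime level, characteristic `≠ 2`): for a nonsingular
point `(x, y)` and a prime `p`, `p • (x, y) = 0` iff `ψ_p(x, y) = 0`. -/
theorem nsmul_some_eq_zero_iff_evalEval_ψ (h2 : (2 : K) ≠ 0) {p : ℕ} (hp : p.Prime) {x y : K}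
    (h : W.Nonsingular x y) :
    p • Affine.Point.some x y h = 0 ↔ (W.ψ (p : ℤ)).evalEval x y = 0 := by
  rw [← dseq_eq_evalEval h]
  exact nsmul_eq_zero_iff_dseq_eq_zero (wardIdentity K) (curveDup W) (curveTrip W) (curvePR W)
    (curveComp2 W) (curveTwoTors W h2) (Affine.Point.some_ne_zero h) hp

/-- **Division polynomial criterion** for an odd prime `p`: a nonzero point `P` is killed by `p`
iff `x(P)` is a root of `preΨ p`. -/
theorem nsmul_eq_zero_iff_eval_preΨ (h2 : (2 : K) ≠ 0) {p : ℕ} (hp : p.Prime) (hodd : p ≠ 2)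
    {P : W.Point} (hP : P ≠ 0) :
    p • P = 0 ↔ (W.preΨ (p : ℤ)).eval (ptX P) = 0 := by
  rcases P with _ | ⟨x, y, h⟩
  · exact absurd rfl hP
  have hnotEven : ¬ Even (p : ℤ) := by
    rw [Int.even_coe_nat]
    intro he
    exact hodd ((Nat.Prime.even_iff hp).mp he)
  rw [nsmul_eq_zero_iff_dseq_eq_zero (wardIdentity K) (curveDup W) (curveTrip W) (curvePR W)
    (curveComp2 W) (curveTwoTors W h2) (Affine.Point.some_ne_zero h) hp, dseq_of_odd h hnotEven,
    ptX_some]

/-- **Existence of `p`-torsion.** Over an algebraically closed field in which `2` and the odd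
prime `p` are invertible, a Weierstrass curve with `Δ ≠ 0` has a nonzero point killed by `p`. -/
theorem exists_ne_zero_and_nsmul_eq_zero [IsAlgClosed K] (hΔ : W.Δ ≠ 0) (h2 : (2 : K) ≠ 0)
    {p : ℕ} (hp : p.Prime) (hodd : p ≠ 2) (hpK : (p : K) ≠ 0) :
    ∃ P : W.Point, P ≠ 0 ∧ p • P = 0 :=
  exists_ne_zero_nsmul_eq_zero (wardIdentity K) (curveDup W) (curveTrip W) (curvePR W)
    (curveComp2 W) (curveTwoTors W h2) hΔ hp hodd hpK

/-- **`E[p]` is nontrivial** (algebraically closed field, `2` and `p` invertible, `Δ ≠ 0`). -/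
theorem torsionBy_nontrivial [IsAlgClosed K] (hΔ : W.Δ ≠ 0) (h2 : (2 : K) ≠ 0)
    {p : ℕ} (hp : p.Prime) (hodd : p ≠ 2) (hpK : (p : K) ≠ 0) :
    Nontrivial (Submodule.torsionBy ℤ W.Point (p : ℤ)) :=
  nontrivial_torsionBy (wardIdentity K) (curveDup W) (curveTrip W) (curvePR W)
    (curveComp2 W) (curveTwoTors W h2) hΔ hp hodd hpK

/-- **`#E[p] ≤ p²`** (any field in which `2` and the odd prime `p` are invertible; no condition
on the discriminant, points are nonsingular by definition). -/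
theorem torsionBy_finite_and_card_le (h2 : (2 : K) ≠ 0)
    {p : ℕ} (hp : p.Prime) (hodd : p ≠ 2) (hpK : (p : K) ≠ 0) :
    Finite (Submodule.torsionBy ℤ W.Point (p : ℤ)) ∧
      Nat.card (Submodule.torsionBy ℤ W.Point (p : ℤ)) ≤ p ^ 2 :=
  finite_torsionBy_and_card_le (wardIdentity K) (curveDup W) (curveTrip W) (curvePR W)
    (curveComp2 W) (curveTwoTors W h2) hp hodd hpK

/-- Characteristic zero version: `E[p]` is nontrivial, finite, of cardinality at most `p²`. -/
theorem torsionBy_charZero [CharZero K] [IsAlgClosed K] (hΔ : W.Δ ≠ 0)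
    {p : ℕ} (hp : p.Prime) (hodd : p ≠ 2) :
    Nontrivial (Submodule.torsionBy ℤ W.Point (p : ℤ)) ∧
      Finite (Submodule.torsionBy ℤ W.Point (p : ℤ)) ∧
      Nat.card (Submodule.torsionBy ℤ W.Point (p : ℤ)) ≤ p ^ 2 := by
  have h2 : (2 : K) ≠ 0 := two_ne_zero
  have hpK : (p : K) ≠ 0 := Nat.cast_ne_zero.mpr hp.ne_zero
  exact ⟨torsionBy_nontrivial W hΔ h2 hp hodd hpK,
    (torsionBy_finite_and_card_le W h2 hp hodd hpK).1,
    (torsionBy_finite_and_card_le W h2 hp hodd hpK).2⟩

end final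

end Fermat.Agent.H74

end
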