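/-
S13 / WP3 (helper74): the `p`-torsion of a base-changed Weierstrass curve, in the exact shape
used by the frozen statements (`Submodule.torsionBy ℤ (W'⁄K).Point n`), and the Frey curve case.
-/
import Fermat.Agent.H74.DivPolyMain
import Fermat.Prelude.Def_FLTPrelim_FreyPackage
import Fermat.Prelude.Def_FLTPrelim_GaloisRep

set_option autoImplicit false

noncomputable section

open WeierstrassCurve WeierstrassCurve.Affine

namespace Fermat.Agent.H74

/-- `E[p]` over an algebraically closed field of characteristic zero is nontrivial, finite and of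
cardinality at most `p ^ 2` (`p` an odd prime), for a curve defined over a subring. -/
theorem torsionBy_baseChange {R : Type*} [CommRing R] {K : Type*} [Field K] [DecidableEq K]
    [Algebra R K] [CharZero K] [IsAlgClosed K] (E : WeierstrassCurve.Affine R)
    (hΔ : algebraMap R K E.Δ ≠ 0) {p : ℕ} (hp : p.Prime) (hodd : p ≠ 2) :
    Nontrivial (Submodule.torsionBy ℤ (E⁄K).Point p) ∧
      Finite (Submodule.torsionBy ℤ (E⁄K).Point p) ∧
      Nat.card (Submodule.torsionBy ℤ (E⁄K).Point p) ≤ p ^ 2 := by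
  have hΔ' : (E⁄K).Δ ≠ 0 := by
    rw [show (E⁄K).Δ = algebraMap R K E.Δ from WeierstrassCurve.map_Δ E (algebraMap R K)]
    exact hΔ
  exact torsionBy_charZero (E⁄K) hΔ' hp hodd

/-- The discriminant of the Frey curve. -/
theorem freyCurve_Δ_eq (P : FreyPackage) :
    P.freyCurve.Δ = ((P.a : ℚ) * P.b * P.c) ^ (2 * P.p) / 2 ^ 8 := by
  have hc : (P.c : ℚ) ^ P.p = (P.a : ℚ) ^ P.p + (P.b : ℚ) ^ P.p := by
    have := congrArg (Int.cast : ℤ → ℚ) P.hFLT
    push_cast at this
    exact this.symm
  rw [mul_pow, mul_pow, pow_mul', pow_mul', pow_mul', hc]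
  simp only [FreyPackage.freyCurve, WeierstrassCurve.Δ, WeierstrassCurve.b₂, WeierstrassCurve.b₄,
    WeierstrassCurve.b₆, WeierstrassCurve.b₈]
  ring

theorem freyCurve_Δ_ne_zero' (P : FreyPackage) : P.freyCurve.Δ ≠ 0 := by
  rw [freyCurve_Δ_eq]
  have h : ((P.a : ℚ) * P.b * P.c) ≠ 0 := by
    exact_mod_cast P.habc0
  exact div_ne_zero (pow_ne_zero _ h) (by norm_num)

/-- **The `p`-torsion of the Frey curve** over `ℚ̄` is nontrivial, finite, of cardinality at
most `p ^ 2`. -/
theorem frey_torsionBy (P : FreyPackage) :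
    Nontrivial (Submodule.torsionBy ℤ (P.freyCurve⁄(AlgebraicClosure ℚ)).Point P.p) ∧
      Finite (Submodule.torsionBy ℤ (P.freyCurve⁄(AlgebraicClosure ℚ)).Point P.p) ∧
      Nat.card (Submodule.torsionBy ℤ (P.freyCurve⁄(AlgebraicClosure ℚ)).Point P.p) ≤ P.p ^ 2 := by
  refine torsionBy_baseChange (K := AlgebraicClosure ℚ) P.freyCurve ?_ P.pp ?_
  · intro h
    exact freyCurve_Δ_ne_zero' P
      ((map_eq_zero_iff _ (algebraMap ℚ (AlgebraicClosure ℚ)).injective).mp h)
  · have := P.hp5
    omega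

end Fermat.Agent.H74

end
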