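import Fermat.Agent.H74.DSGlueBasic

/-!
# P-DS (S48): linear-algebra adapters (helper74)

* `exists_residue_field` : for every prime `ℓ` there is a field `k` of characteristic `ℓ` with a
  ring homomorphism `integralClosure ℤ ℂ →+* k`.
* `matHom b ρ` : the matrix form of a representation `ρ : Γ →* Module.End k V` in a basis, as a
  homomorphism to `GL₂(k)`, with trace / determinant / semisimplicity transported.
-/

set_option autoImplicit false
set_option linter.unusedSectionVars false
set_option linter.style.haveILetI false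

namespace Fermat.Agent.H74.DS

open Matrix Polynomial

/-- A prime number is not a unit among the algebraic integers. -/
theorem not_isUnit_natCast_prime {ℓ : ℕ} (hℓ : ℓ.Prime) : ¬ IsUnit ((ℓ : ℕ) : Zbar) := by
  intro hu
  obtain ⟨x, hx⟩ := hu.exists_right_inv
  obtain ⟨y, m, hm, hxy⟩ := exists_int_multiple x (by
    rintro rfl
    rw [mul_zero] at hx
    exact zero_ne_one hx)
  -- `ℓ * m = ℓ * x * y = y`, so `y` is ... ; instead use `1 = ℓ x`, `m = x y`:
  -- `m = ℓ * (x * y) * ... `; we show `ℓ ∣ 1` in `ℤ` via rationality of `x`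
  have hxC : ((x : Zbar) : ℂ) = ((1 / (ℓ : ℚ) : ℚ) : ℂ) := by
    have h1 : ((ℓ : ℕ) : ℂ) * (x : ℂ) = 1 := by
      have h0 := congrArg (algebraMap Zbar ℂ) hx
      rw [map_mul, map_natCast, map_one] at h0
      exact h0
    have hℓ0 : ((ℓ : ℕ) : ℂ) ≠ 0 := by exact_mod_cast hℓ.ne_zero
    push_cast
    field_simp
    rw [mul_comm]; exact h1
  have hint : IsIntegral ℤ ((1 / (ℓ : ℚ) : ℚ)) := by
    have h2 : IsIntegral ℤ ((algebraMap ℚ ℂ) (1 / (ℓ : ℚ))) := by
      have : (algebraMap ℚ ℂ) (1 / (ℓ : ℚ)) = (x : ℂ) := by rw [hxC]; rfl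
      rw [this]; exact x.2
    exact (isIntegral_algebraMap_iff (algebraMap ℚ ℂ).injective).mp h2
  obtain ⟨n, hn⟩ := IsIntegrallyClosed.isIntegral_iff.mp hint
  have hℓ0 : ((ℓ : ℕ) : ℚ) ≠ 0 := by exact_mod_cast hℓ.ne_zero
  have h3 : ((n * (ℓ : ℤ) : ℤ) : ℚ) = 1 := by
    push_cast
    have : (algebraMap ℤ ℚ) n = (n : ℚ) := rfl
    rw [this] at hn
    rw [hn]; field_simp
  have h4 : n * (ℓ : ℤ) = 1 := by exact_mod_cast h3
  have h5 : ((ℓ : ℤ)) ∣ 1 := ⟨n, by rw [mul_comm]; exact h4.symm⟩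
  have h6 := Int.natAbs_dvd_natAbs.mpr h5
  simp only [Int.natAbs_natCast, Int.natAbs_one, Nat.dvd_one] at h6
  exact hℓ.one_lt.ne' h6

/-- For every prime `ℓ` there is a field of characteristic `ℓ` receiving the algebraic
integers. -/
theorem exists_residue_field {ℓ : ℕ} (hℓ : ℓ.Prime) :
    ∃ (k : Type) (_ : Field k) (_ : CharP k ℓ), Nonempty (Zbar →+* k) := by
  have hne : Ideal.span {((ℓ : ℕ) : Zbar)} ≠ ⊤ := by
    rw [Ne, Ideal.span_singleton_eq_top]
    exact not_isUnit_natCast_prime hℓ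
  obtain ⟨m, hm, hle⟩ := Ideal.exists_le_maximal _ hne
  letI : Field (Zbar ⧸ m) := Ideal.Quotient.field m
  have h0 : ((ℓ : ℕ) : Zbar ⧸ m) = 0 := by
    have : ((ℓ : ℕ) : Zbar ⧸ m) = Ideal.Quotient.mk m ((ℓ : ℕ) : Zbar) := by simp
    rw [this, Ideal.Quotient.eq_zero_iff_mem]
    exact hle (Ideal.subset_span rfl)
  have hchar : CharP (Zbar ⧸ m) ℓ := by
    obtain ⟨c, hc⟩ := CharP.exists (Zbar ⧸ m)
    have hdvd : c ∣ ℓ := (CharP.cast_eq_zero_iff (Zbar ⧸ m) c ℓ).mp h0
    rcases (Nat.dvd_prime hℓ).mp hdvd with h1 | h1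
    · exfalso
      subst h1
      exact CharP.char_ne_one (Zbar ⧸ m) 1 rfl
    · rw [← h1]; exact hc
  exact ⟨Zbar ⧸ m, inferInstance, hchar, ⟨Ideal.Quotient.mk m⟩⟩

section matHom

variable {k : Type*} [Field k] {V : Type*} [AddCommGroup V] [Module k V]
  {Γ : Type*} [Group Γ] (b : Module.Basis (Fin 2) k V) (ρ : Γ →* Module.End k V)

/-- The matrices of a representation in a basis. -/
noncomputable def matMonoidHom : Γ →* Matrix (Fin 2) (Fin 2) k :=
  ((LinearMap.toMatrixAlgEquiv b : Module.End k V ≃ₐ[k] Matrix (Fin 2) (Fin 2) k) :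
    Module.End k V →* Matrix (Fin 2) (Fin 2) k).comp ρ

theorem matMonoidHom_apply (g : Γ) : matMonoidHom b ρ g = LinearMap.toMatrix b b (ρ g) := rfl

/-- The representation in a basis, as a homomorphism to `GL₂`. -/
noncomputable def matHom : Γ →* GL (Fin 2) k := (matMonoidHom b ρ).toHomUnits

theorem matHom_val (g : Γ) :
    ((matHom b ρ g : GL (Fin 2) k) : Matrix (Fin 2) (Fin 2) k) = LinearMap.toMatrix b b (ρ g) :=
  rfl

theorem coeHom_comp_matHom :
    (Units.coeHom (Matrix (Fin 2) (Fin 2) k)).comp (matHom b ρ) = matMonoidHom b ρ := by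
  ext g : 1
  rfl

theorem matHom_eq_one_iff (g : Γ) : matHom b ρ g = 1 ↔ ρ g = 1 := by
  constructor
  · intro h
    have h1 : LinearMap.toMatrix b b (ρ g) = 1 := by
      rw [← matHom_val, h]; rfl
    have h2 : LinearMap.toMatrix b b (ρ g) = LinearMap.toMatrix b b (1 : Module.End k V) := by
      rw [h1]; exact (LinearMap.toMatrix_one b).symm
    exact (LinearMap.toMatrix b b).injective h2
  · intro h
    apply Units.ext
    rw [matHom_val, h]
    exact LinearMap.toMatrix_one b

theorem matHom_eq_iff (g h : Γ) : matHom b ρ g = matHom b ρ h ↔ ρ g = ρ h := by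
  constructor
  · intro hgh
    have := congrArg (fun x : GL (Fin 2) k => (x : Matrix (Fin 2) (Fin 2) k)) hgh
    simp only [matHom_val] at this
    exact (LinearMap.toMatrix b b).injective this
  · intro hgh
    apply Units.ext
    rw [matHom_val, matHom_val, hgh]

theorem trace_det_of_charpoly [Module.Finite k V] [Module.Free k V] (g : Γ) (a d : k)
    (h : LinearMap.charpoly (ρ g) = X ^ 2 - C a * X + C d) :
    ((matHom b ρ g : GL (Fin 2) k) : Matrix (Fin 2) (Fin 2) k).trace = a ∧
    ((matHom b ρ g : GL (Fin 2) k) : Matrix (Fin 2) (Fin 2) k).det = d := by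
  have h1 : (LinearMap.toMatrix b b (ρ g)).charpoly = X ^ 2 - C a * X + C d := by
    rw [LinearMap.charpoly_toMatrix]; exact h
  rw [Matrix.charpoly_fin_two] at h1
  rw [matHom_val]
  constructor
  · have := congrArg (fun p : k[X] => p.coeff 1) h1
    simp only [coeff_add, coeff_sub, coeff_X_pow, coeff_C_mul, coeff_X_one, coeff_C] at this
    norm_num at this
    exact this
  · have := congrArg (fun p : k[X] => p.coeff 0) h1
    simp only [coeff_add, coeff_sub, coeff_X_pow, coeff_C_mul, coeff_X_zero, coeff_C_zero] at this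
    norm_num at this
    rw [LinearMap.det_toMatrix]
    exact this

/-- Semisimplicity in the submodule form implies semisimplicity in the matrix form. -/
theorem isSemisimpleRep_matMonoidHom
    (hss : ∀ W : Submodule k V, (∀ g : Γ, ∀ x ∈ W, ρ g x ∈ W) →
      ∃ W' : Submodule k V, (∀ g : Γ, ∀ x ∈ W', ρ g x ∈ W') ∧ IsCompl W W') :
    Fermat.Agent.H69.DS.IsSemisimpleRep (matMonoidHom b ρ) := by
  haveI : Module.Finite k V := Module.Finite.of_basis b
  have hrank : Module.finrank k V = 2 := by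
    rw [Module.finrank_eq_card_basis b, Fintype.card_fin]
  have key : ∀ (g : Γ) (x : V), b.equivFun (ρ g x) = (matMonoidHom b ρ g).mulVec (b.equivFun x) := by
    intro g x
    rw [matMonoidHom_apply]
    exact (LinearMap.toMatrix_mulVec_repr b b (ρ g) x).symm
  intro u hu hst
  set v : V := b.equivFun.symm u with hv
  have hvu : b.equivFun v = u := by rw [hv, LinearEquiv.apply_symm_apply]
  have hv0 : v ≠ 0 := by
    intro h
    apply hu
    rw [← hvu, h, map_zero]
  have hρv : ∀ g : Γ, ∃ c : k, ρ g v = c • v := by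
    intro g
    obtain ⟨c, hc⟩ := hst g
    refine ⟨c, b.equivFun.injective ?_⟩
    rw [key, hvu, hc, map_smul, hvu]
  obtain ⟨W', hW', hcompl⟩ := hss (Submodule.span k {v}) (by
    intro g x hx
    obtain ⟨t, rfl⟩ := Submodule.mem_span_singleton.mp hx
    obtain ⟨c, hc⟩ := hρv g
    rw [map_smul, hc, smul_smul]
    exact Submodule.mem_span_singleton.mpr ⟨t * c, rfl⟩)
  have h1 : Module.finrank k (Submodule.span k {v}) = 1 := finrank_span_singleton hv0
  have h2 := Submodule.finrank_add_eq_of_isCompl hcompl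
  rw [h1, hrank] at h2
  have h3 : Module.finrank k W' = 1 := by omega
  obtain ⟨⟨w', hw'W⟩, hw'0, hw'span⟩ := finrank_eq_one_iff'.mp h3
  have hw'0' : w' ≠ 0 := fun h => hw'0 (Subtype.ext h)
  refine ⟨b.equivFun w', ?_, ?_⟩
  · intro g
    obtain ⟨c, hc⟩ := hw'span ⟨ρ g w', hW' g w' hw'W⟩
    refine ⟨c, ?_⟩
    rw [← key]
    have : ρ g w' = c • w' := by
      have := congrArg Subtype.val hc
      simpa using this.symm
    rw [this, map_smul]
  · intro hD
    obtain ⟨c, hc⟩ := Fermat.Agent.H69.DS.exists_smul_of_det_eq_zero u (b.equivFun w') hu hD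
    have hw'v : w' = c • v := by
      apply b.equivFun.injective
      rw [hc, map_smul, hvu]
    have hmem : w' ∈ Submodule.span k {v} ⊓ W' :=
      ⟨Submodule.mem_span_singleton.mpr ⟨c, hw'v.symm⟩, hw'W⟩
    rw [hcompl.inf_eq_bot, Submodule.mem_bot] at hmem
    exact hw'0' hmem

end matHom

end Fermat.Agent.H74.DS
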