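import Fermat.Agent.H20.DS.Interfaces

/-!
# P-DS (S48) block DS-E, analytic part (helper74)

`sum_normSq_le_card` : the averaged Rankin–Chebotarev inequality.  Let `π : G_ℚ ↠ G` be a finite
quotient of finite level and `τ : G → ℂ` a class function with `τ (π Frob_p) = a_p` for all
`p ∤ N`.  If `∑_{p ∤ N} |a_p|² p^{-s} ≤ log (1/(s-1)) + C` (sharp Rankin bound) then
`∑_g |τ g|² ≤ |G|` (by the lower density form of Chebotarev).
-/

set_option autoImplicit false
set_option linter.unusedSectionVars false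
set_option linter.style.haveILetI false

namespace Fermat.Agent.H74.DS

open Fermat.Agent.H20.DS

local notation "Γℚ" => (AlgebraicClosure ℚ ≃ₐ[ℚ] AlgebraicClosure ℚ)

/-- A common threshold for finitely many "for `s` close to `1`" statements. -/
theorem exists_common_threshold {ι : Type*} (I : Finset ι) (P : ι → ℝ → Prop)
    (h : ∀ i ∈ I, ∃ s₀ : ℝ, 1 < s₀ ∧ ∀ s : ℝ, 1 < s → s < s₀ → P i s) :
    ∃ s₀ : ℝ, 1 < s₀ ∧ ∀ s : ℝ, 1 < s → s < s₀ → ∀ i ∈ I, P i s := by
  classical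
  induction I using Finset.induction_on with
  | empty => exact ⟨2, by norm_num, fun _ _ _ i hi => absurd hi (Finset.notMem_empty i)⟩
  | insert i I hi ih =>
    obtain ⟨s₁, hs₁, h₁⟩ := h i (Finset.mem_insert_self i I)
    obtain ⟨s₂, hs₂, h₂⟩ := ih (fun j hj => h j (Finset.mem_insert_of_mem hj))
    refine ⟨min s₁ s₂, lt_min hs₁ hs₂, fun s hs hlt j hj => ?_⟩
    rcases Finset.mem_insert.mp hj with rfl | hj
    · exact h₁ s hs (lt_of_lt_of_le hlt (min_le_left _ _))
    · exact h₂ s hs (lt_of_lt_of_le hlt (min_le_right _ _)) j hj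

/-- `log (1/(s-1))` is large for `s` close to `1`. -/
theorem exists_log_large (s₀ : ℝ) (hs₀ : 1 < s₀) (K : ℝ) :
    ∃ s : ℝ, 1 < s ∧ s < s₀ ∧ s ≤ 2 ∧ K < Real.log (1 / (s - 1)) := by
  set t : ℝ := min (min ((s₀ - 1) / 2) 1) (Real.exp (-K - 1)) with ht
  have ht0 : 0 < t := lt_min (lt_min (by linarith) one_pos) (Real.exp_pos _)
  have ht1 : t ≤ (s₀ - 1) / 2 := (min_le_left _ _).trans (min_le_left _ _)
  have ht2 : t ≤ 1 := (min_le_left _ _).trans (min_le_right _ _)
  have ht3 : t ≤ Real.exp (-K - 1) := min_le_right _ _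
  refine ⟨1 + t, by linarith, by linarith, by linarith, ?_⟩
  have h1 : (1 + t - 1) = t := by ring
  rw [h1, one_div, Real.log_inv]
  have h2 : Real.log t ≤ -K - 1 := by
    have := Real.log_le_log ht0 ht3
    rwa [Real.log_exp] at this
  linarith

/-- The Dirichlet prime sums are sums of a summable family. -/
theorem summable_primeTerm (P : ℕ → Prop) {s : ℝ} (hs : 1 < s) :
    Summable (Set.indicator {p : ℕ | p.Prime ∧ P p} (fun p : ℕ => (p : ℝ) ^ (-s))) :=
  (Real.summable_nat_rpow.mpr (by linarith)).indicator _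

/-- Upper bound for a weighted sum of prime sums over disjoint conditions. -/
theorem weighted_primeSum_le (N : ℕ) (hN : N ≠ 0) (a : ℕ → ℂ) (Vals : Finset ℂ)
    (P : ℂ → ℕ → Prop)
    (hP : ∀ v ∈ Vals, ∀ p : ℕ, p.Prime → ¬ p ∣ N → P v p → v = a p)
    {s : ℝ} (hs : 1 < s) (M : ℝ)
    (hR : ∀ F : Finset ℕ, (∀ p ∈ F, p.Prime ∧ ¬ p ∣ N) →
      ∑ p ∈ F, ‖a p‖ ^ 2 * (p : ℝ) ^ (-s) ≤ M) :
    ∑ v ∈ Vals, ‖v‖ ^ 2 * primeSum (P v) s ≤
      M + (∑ v ∈ Vals, ‖v‖ ^ 2) * (N.divisors.card : ℝ) := by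
  classical
  set S : ℝ := ∑ v ∈ Vals, ‖v‖ ^ 2 with hS
  have hS0 : 0 ≤ S := Finset.sum_nonneg (fun v _ => by positivity)
  set ind : ℂ → ℕ → ℝ := fun v =>
    Set.indicator {p : ℕ | p.Prime ∧ P v p} (fun p : ℕ => (p : ℝ) ^ (-s)) with hind
  have hind0 : ∀ v p, 0 ≤ ind v p := fun v p =>
    Set.indicator_nonneg (fun q _ => Real.rpow_nonneg (Nat.cast_nonneg q) _) p
  have hsum : ∀ v, Summable (ind v) := fun v => summable_primeTerm (P v) hs
  have h1 : ∑ v ∈ Vals, ‖v‖ ^ 2 * primeSum (P v) s =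
      ∑' p : ℕ, ∑ v ∈ Vals, ‖v‖ ^ 2 * ind v p := by
    rw [Summable.tsum_finsetSum (fun v _ => (hsum v).mul_left _)]
    refine Finset.sum_congr rfl (fun v _ => ?_)
    rw [tsum_mul_left]
    rfl
  rw [h1]
  refine Real.tsum_le_of_sum_le
    (fun p => Finset.sum_nonneg (fun v _ => mul_nonneg (by positivity) (hind0 v p))) ?_
  intro F
  -- pointwise bound
  set g₁ : ℕ → ℝ := fun p => if p.Prime ∧ ¬ p ∣ N then ‖a p‖ ^ 2 * (p : ℝ) ^ (-s) else 0
    with hg₁
  set g₂ : ℕ → ℝ := fun p => if p.Prime ∧ p ∣ N then S else 0 with hg₂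
  have hpt : ∀ p : ℕ, ∑ v ∈ Vals, ‖v‖ ^ 2 * ind v p ≤ g₁ p + g₂ p := by
    intro p
    by_cases hp : p.Prime
    · by_cases hpN : p ∣ N
      · have hg1 : g₁ p = 0 := by simp [hg₁, hpN]
        have hg2 : g₂ p = S := by simp [hg₂, hp, hpN]
        rw [hg1, hg2, zero_add]
        refine Finset.sum_le_sum (fun v _ => ?_)
        have hle : ind v p ≤ 1 := by
          refine Set.indicator_apply_le' (fun _ => ?_) (fun _ => zero_le_one)
          refine Real.rpow_le_one_of_one_le_of_nonpos ?_ (by linarith)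
          exact_mod_cast hp.one_le
        calc ‖v‖ ^ 2 * ind v p ≤ ‖v‖ ^ 2 * 1 :=
              mul_le_mul_of_nonneg_left hle (by positivity)
          _ = ‖v‖ ^ 2 := mul_one _
      · have hg1 : g₁ p = ‖a p‖ ^ 2 * (p : ℝ) ^ (-s) := by simp [hg₁, hp, hpN]
        have hg2 : g₂ p = 0 := by simp [hg₂, hpN]
        rw [hg1, hg2, add_zero]
        have hc0 : 0 ≤ ‖a p‖ ^ 2 * (p : ℝ) ^ (-s) :=
          mul_nonneg (by positivity) (Real.rpow_nonneg (Nat.cast_nonneg p) _)
        calc ∑ v ∈ Vals, ‖v‖ ^ 2 * ind v p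
            ≤ ∑ v ∈ Vals, (if v = a p then ‖a p‖ ^ 2 * (p : ℝ) ^ (-s) else 0) := by
              refine Finset.sum_le_sum (fun v hv => ?_)
              by_cases hPv : P v p
              · have hva := hP v hv p hp hpN hPv
                rw [if_pos hva]
                have : ind v p = (p : ℝ) ^ (-s) := by
                  simp only [hind]
                  rw [Set.indicator_of_mem]
                  exact ⟨hp, hPv⟩
                rw [this, hva]
              · have : ind v p = 0 := by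
                  simp only [hind]
                  rw [Set.indicator_of_notMem]
                  exact fun h => hPv h.2
                rw [this, mul_zero]
                split_ifs
                · exact hc0
                · exact le_rfl
          _ = (if a p ∈ Vals then ‖a p‖ ^ 2 * (p : ℝ) ^ (-s) else 0) :=
              Finset.sum_ite_eq' Vals (a p) _
          _ ≤ ‖a p‖ ^ 2 * (p : ℝ) ^ (-s) := by
              split_ifs
              · exact le_rfl
              · exact hc0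
    · have hg1 : g₁ p = 0 := by simp [hg₁, hp]
      have hg2 : g₂ p = 0 := by simp [hg₂, hp]
      rw [hg1, hg2, add_zero]
      refine le_of_eq (Finset.sum_eq_zero (fun v _ => ?_))
      have : ind v p = 0 := by
        simp only [hind]
        rw [Set.indicator_of_notMem]
        exact fun h => hp h.1
      rw [this, mul_zero]
  have hb1 : ∑ p ∈ F, g₁ p ≤ M := by
    rw [← Finset.sum_filter]
    exact hR _ (fun p hp => (Finset.mem_filter.mp hp).2)
  have hb2 : ∑ p ∈ F, g₂ p ≤ S * (N.divisors.card : ℝ) := by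
    rw [← Finset.sum_filter, Finset.sum_const, nsmul_eq_mul, mul_comm]
    refine mul_le_mul_of_nonneg_left ?_ hS0
    have hsub : F.filter (fun p => p.Prime ∧ p ∣ N) ⊆ N.divisors := by
      intro p hp
      exact Nat.mem_divisors.mpr ⟨(Finset.mem_filter.mp hp).2.2, hN⟩
    exact_mod_cast Finset.card_le_card hsub
  calc ∑ p ∈ F, ∑ v ∈ Vals, ‖v‖ ^ 2 * ind v p ≤ ∑ p ∈ F, (g₁ p + g₂ p) :=
        Finset.sum_le_sum (fun p _ => hpt p)
    _ = ∑ p ∈ F, g₁ p + ∑ p ∈ F, g₂ p := Finset.sum_add_distrib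
    _ ≤ M + S * (N.divisors.card : ℝ) := add_le_add hb1 hb2

/-- Counting the fibres of a function on a finite type. -/
theorem sum_normSq_eq_sum_fibres {G : Type} [Fintype G] (τ : G → ℂ) :
    ∑ g : G, ‖τ g‖ ^ 2 =
      ∑ v ∈ Finset.univ.image τ, ‖v‖ ^ 2 * (Nat.card {g : G | τ g = v} : ℝ) := by
  classical
  rw [← Finset.sum_fiberwise_of_maps_to (s := Finset.univ) (t := Finset.univ.image τ)
    (g := τ) (fun x _ => Finset.mem_image_of_mem τ (Finset.mem_univ x))]
  refine Finset.sum_congr rfl (fun v _ => ?_)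
  have h1 : ∑ g ∈ Finset.univ.filter (fun g => τ g = v), ‖τ g‖ ^ 2 =
      ∑ g ∈ Finset.univ.filter (fun g => τ g = v), ‖v‖ ^ 2 :=
    Finset.sum_congr rfl (fun g hg => by rw [(Finset.mem_filter.mp hg).2])
  rw [h1, Finset.sum_const, nsmul_eq_mul, mul_comm]
  congr 2
  rw [Nat.card_eq_fintype_card]
  exact (Fintype.card_subtype _).symm

/-- **The averaged Rankin–Chebotarev inequality.** -/
theorem sum_normSq_le_card (hCheb : ChebDensityStatement)
    {G : Type} [Group G] [Fintype G] (π : Γℚ →* G) (hsurj : Function.Surjective π)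
    (hlev : GaloisFactorsThroughFiniteLevel π)
    (τ : G → ℂ) (hτ : ∀ g h : G, τ (h * g * h⁻¹) = τ g)
    (N : ℕ) (hN : N ≠ 0) (a : ℕ → ℂ)
    (ha : ∀ p : ℕ, p.Prime → ¬ p ∣ N → ∀ A : ValuationSubring (AlgebraicClosure ℚ),
       A.LiesOverPrime p → ∀ σ : Γℚ, A.IsFrobeniusAt σ p → τ (π σ) = a p)
    (hRank : ∃ C : ℝ, ∀ s : ℝ, 1 < s → s ≤ 2 → ∀ P : Finset ℕ,
      (∀ p ∈ P, p.Prime ∧ ¬ p ∣ N) →
      ∑ p ∈ P, ‖a p‖ ^ 2 * (p : ℝ) ^ (-s) ≤ Real.log (1 / (s - 1)) + C) :
    ∑ g : G, ‖τ g‖ ^ 2 ≤ (Fintype.card G : ℝ) := by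
  classical
  by_contra hlt
  push Not at hlt
  obtain ⟨C, hC⟩ := hRank
  set n : ℝ := (Fintype.card G : ℝ) with hn
  have hn0 : 0 < n := by
    rw [hn]
    exact_mod_cast Fintype.card_pos
  have hnc : (Nat.card G : ℝ) = n := by rw [Nat.card_eq_fintype_card]
  set Vals : Finset ℂ := Finset.univ.image τ with hVals
  set S : ℝ := ∑ v ∈ Vals, ‖v‖ ^ 2 with hS
  have hS0 : 0 ≤ S := Finset.sum_nonneg (fun v _ => by positivity)
  set cls : ℂ → Set G := fun v => {g : G | τ g = v} with hcls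
  have hconj : ∀ v : ℂ, ∀ g ∈ cls v, ∀ h : G, h * g * h⁻¹ ∈ cls v := by
    intro v g hg h
    change τ (h * g * h⁻¹) = v
    rw [hτ]
    exact hg
  have hcount : ∑ g : G, ‖τ g‖ ^ 2 = ∑ v ∈ Vals, ‖v‖ ^ 2 * (Nat.card (cls v) : ℝ) :=
    sum_normSq_eq_sum_fibres τ
  set T : ℝ := (∑ g : G, ‖τ g‖ ^ 2) / n with hT
  have hT1 : 1 < T := by
    rw [hT, lt_div_iff₀ hn0, one_mul]
    exact hlt
  set η : ℝ := (T - 1) / 2 with hη
  have hη0 : 0 < η := by rw [hη]; linarith
  set δ : ℝ := η / (S + 1) with hδ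
  have hδ0 : 0 < δ := div_pos hη0 (by linarith)
  have hδS : δ * S ≤ η := by
    rw [hδ, div_mul_eq_mul_div, div_le_iff₀ (by linarith)]
    nlinarith
  set K : ℝ := C + S * (N.divisors.card : ℝ) with hK
  -- Chebotarev for all classes at once
  obtain ⟨s₀, hs₀, hcheb⟩ := exists_common_threshold Vals
    (fun v s => ((Nat.card (cls v) : ℝ) / (Nat.card G : ℝ) - δ) * Real.log (1 / (s - 1))
        ≤ primeSum (HasFrobIn π (cls v)) s)
    (fun v _ => hCheb G π hsurj hlev (cls v) (hconj v) δ hδ0)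
  obtain ⟨s, hs1, hss₀, hs2, hLK⟩ := exists_log_large s₀ hs₀ (K / η)
  set L : ℝ := Real.log (1 / (s - 1)) with hL
  have hL0 : 0 ≤ L := by
    rw [hL]
    apply Real.log_nonneg
    rw [le_div_iff₀ (by linarith)]
    linarith
  -- lower bound
  have hlow : (T - δ * S) * L ≤ ∑ v ∈ Vals, ‖v‖ ^ 2 * primeSum (HasFrobIn π (cls v)) s := by
    have h1 : (T - δ * S) * L =
        ∑ v ∈ Vals, ‖v‖ ^ 2 * (((Nat.card (cls v) : ℝ) / (Nat.card G : ℝ) - δ) * L) := by
      have h2 : ∀ v ∈ Vals, ‖v‖ ^ 2 * (((Nat.card (cls v) : ℝ) / (Nat.card G : ℝ) - δ) * L) =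
          (‖v‖ ^ 2 * (Nat.card (cls v) : ℝ)) * (L / n) - ‖v‖ ^ 2 * (δ * L) := by
        intro v _
        rw [hnc]
        field_simp
      rw [Finset.sum_congr rfl h2, Finset.sum_sub_distrib, ← Finset.sum_mul, ← Finset.sum_mul,
        ← hcount, ← hS, hT]
      field_simp
    rw [h1]
    exact Finset.sum_le_sum (fun v hv =>
      mul_le_mul_of_nonneg_left (hcheb s hs1 hss₀ v hv) (by positivity))
  -- upper bound
  have hup : ∑ v ∈ Vals, ‖v‖ ^ 2 * primeSum (HasFrobIn π (cls v)) s ≤ L + C + S * N.divisors.card := by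
    refine weighted_primeSum_le N hN a Vals (fun v => HasFrobIn π (cls v)) ?_ hs1 (L + C)
      (fun F hF => hC s hs1 hs2 F hF)
    rintro v - p hp hpN ⟨A, hA, σ, hσ, hmem⟩
    have h1 : τ (π σ) = v := hmem
    rw [← h1]
    exact ha p hp hpN A hA σ hσ
  have hfin : (T - δ * S) * L ≤ L + K := by
    rw [hK]
    linarith
  have h3 : η * L ≤ K := by
    have h4 : (1 + η) * L ≤ (T - δ * S) * L := by
      refine mul_le_mul_of_nonneg_right ?_ hL0
      have : T = 1 + 2 * η := by rw [hη]; ring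
      linarith
    linarith
  have h5 : K < η * L := by
    rw [div_lt_iff₀ hη0] at hLK
    linarith
  linarith

end Fermat.Agent.H74.DS
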