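import Fermat.Agent.H74.DSIrredAlg
import Fermat.Agent.H74.DSIrredAnalytic

/-!
# P-DS (S48) block DS-E: irreducibility (helper74)

`irred_of_rankin_cheb : RankinSharpStatement → ChebDensityStatement → (Frobenius elements exist)
  → IrredStatement` in the interface shapes of `Fermat.Agent.H20.DS`.

If `ρ` were reducible, its trace would be a sum of two characters of the finite group
`G = ρ(G_ℚ)`, hence `∑_g |tr g|² ≥ 2 |G|`; but the sharp Rankin bound together with the lower
density form of Chebotarev gives `∑_g |tr g|² ≤ |G|`.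
-/

set_option autoImplicit false
set_option linter.unusedSectionVars false
set_option linter.style.haveILetI false

namespace Fermat.Agent.H74.DS

open Fermat.Agent.H20.DS Matrix

local notation "Γℚ" => (AlgebraicClosure ℚ ≃ₐ[ℚ] AlgebraicClosure ℚ)

/-- **DS-E.**  Irreducibility of the complex representation attached to `f`. -/
theorem irred_of_rankin_cheb (hR : RankinSharpStatement) (hCheb : ChebDensityStatement)
    (hFrobEx : ∀ p : ℕ, p.Prime → ∃ (A : ValuationSubring (AlgebraicClosure ℚ)) (σ : Γℚ),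
      A.LiesOverPrime p ∧ A.IsFrobeniusAt σ p) :
    IrredStatement := by
  intro N _ ε f hf ρ hρ
  apply isIrreducible_of_no_eigenvector
  intro v hv hev
  haveI : Finite ρ.range := finite_range_of_finiteLevel ρ hρ.1
  letI : Fintype ρ.range := Fintype.ofFinite _
  set π : Γℚ →* ρ.range := ρ.rangeRestrict with hπ
  have hsurj : Function.Surjective π := ρ.rangeRestrict_surjective
  have hlev : GaloisFactorsThroughFiniteLevel π := by
    obtain ⟨L, hL, h1⟩ := hρ.1
    exact ⟨L, hL, fun σ hσ => Subtype.ext (h1 σ hσ)⟩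
  set r : ρ.range →* GL (Fin 2) ℂ := ρ.range.subtype with hr
  set τ : ρ.range → ℂ :=
    fun g => ((r g : GL (Fin 2) ℂ) : Matrix (Fin 2) (Fin 2) ℂ).trace with hτdef
  have hτ : ∀ g h : ρ.range, τ (h * g * h⁻¹) = τ g := by
    intro g h
    simp only [hτdef, map_mul, map_inv, Units.val_mul]
    rw [Matrix.trace_mul_comm, ← mul_assoc, ← Units.val_mul, inv_mul_cancel, Units.val_one,
      one_mul]
  have hlow := two_mul_card_le_sum_normSq_trace r v hv (fun g => by
    obtain ⟨σ, hσ⟩ := g.2
    obtain ⟨c, hc⟩ := hev σ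
    refine ⟨c, ?_⟩
    have : r g = ρ σ := hσ.symm
    rw [this]
    exact hc)
  have ha : ∀ p : ℕ, p.Prime → ¬ p ∣ N → ∀ A : ValuationSubring (AlgebraicClosure ℚ),
      A.LiesOverPrime p → ∀ σ : Γℚ, A.IsFrobeniusAt σ p →
        τ (π σ) = ModularFormClass.qCoeff f p :=
    fun p hp hpN A hA σ hσ => ((hρ.2 p hp hpN A hA).2 σ hσ).1
  set B : ℝ := ∑ g : ρ.range, ‖τ g‖ with hB
  have hBb : ∀ p : ℕ, p.Prime → ¬ p ∣ N → ‖ModularFormClass.qCoeff f p‖ ≤ B := by
    intro p hp hpN
    obtain ⟨A, σ, hA, hσ⟩ := hFrobEx p hp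
    rw [← ha p hp hpN A hA σ hσ]
    exact Finset.single_le_sum (f := fun g : ρ.range => ‖τ g‖)
      (fun g _ => norm_nonneg _) (Finset.mem_univ (π σ))
  have hRank := hR N ε f hf B hBb
  have hup := sum_normSq_le_card hCheb π hsurj hlev τ hτ N (NeZero.ne N)
    (fun p => ModularFormClass.qCoeff f p) ha hRank
  have hpos : (0 : ℝ) < Fintype.card ρ.range := by exact_mod_cast Fintype.card_pos
  linarith

end Fermat.Agent.H74.DS
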