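import Fermat.Agent.H74.DSAdapter
import Fermat.Agent.H74.DSIrred
import Fermat.Agent.H72.FDT.Main
import Fermat.Agent.H53.FrobeniusExists

/-!
# P-DS (S48): final assembly from the four remaining inputs (helper74)

`s48_of_four : ModLRepStatement → BoundedOrderStatement → RankinSharpStatement →
  ChebDensityStatement → S48Statement` (interface shapes of `Fermat.Agent.H20.DS`).
The Frobenius density theorem in power form (`Fermat.Agent.H72.frobPow`) and the existence of
Frobenius elements (`Fermat.Agent.H53.exists_frobenius`) are already unconditional.
-/

set_option autoImplicit false

namespace Fermat.Agent.H74.DS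

open Fermat.Agent.H20.DS

/-- **DS-D, with the Frobenius density theorem plugged in.** -/
theorem complexRep_of_two (hA : ModLRepStatement) (hC : BoundedOrderStatement) :
    ComplexRepStatement :=
  complexRep_of_modLRep hA hC Fermat.Agent.H72.frobPow

/-- **DS-E, with the existence of Frobenius elements plugged in.** -/
theorem irred_of_two (hR : RankinSharpStatement) (hCheb : ChebDensityStatement) :
    IrredStatement :=
  irred_of_rankin_cheb hR hCheb (fun _ hp => Fermat.Agent.H53.exists_frobenius hp)

/-- **S48 from the four remaining inputs.** -/
theorem s48_of_four (hA : ModLRepStatement) (hC : BoundedOrderStatement)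
    (hR : RankinSharpStatement) (hCheb : ChebDensityStatement) : S48Statement :=
  s48_of_complexRep_irred (complexRep_of_two hA hC) (irred_of_two hR hCheb)

end Fermat.Agent.H74.DS
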