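import Mathlib
import Fermat.Prelude.Def_CuspForm_HeckeAlgebra
import Fermat.Prelude.Def_FLTPrelim_Modularity
import Fermat.Prelude.Thm_ModularFormClass_qCoeff_heckeT
import Fermat.Prelude.Thm_ModularFormClass_qCoeff_heckeU
import Fermat.Prelude.Thm_CongruenceSubgroup_one_mem_strictPeriods_Gamma0
import Fermat.Prelude.Thm_ModularForm_sturm_bound_Gamma0

/-!
# Basic facts on `q`-coefficients of cusp forms on `Γ₀(N)`
-/

set_option autoImplicit false

namespace Fermat.Agent.H74

open CongruenceSubgroup UpperHalfPlane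
open scoped MatrixGroups

variable {N : ℕ} {k : ℤ}

theorem one_mem_strictPeriods_Gamma0' (N : ℕ) :
    (1 : ℝ) ∈ ((Gamma0 N : Subgroup SL(2, ℤ)) : Subgroup (GL (Fin 2) ℝ)).strictPeriods :=
  CongruenceSubgroup.one_mem_strictPeriods_Gamma0 N

theorem qCoeff_zero_cusp (f : CuspForm (Gamma0 N) k) : ModularFormClass.qCoeff f 0 = 0 :=
  CuspFormClass.qExpansion_coeff_zero f one_pos (one_mem_strictPeriods_Gamma0' N)

theorem qCoeff_smul_cusp (c : ℂ) (f : CuspForm (Gamma0 N) k) (n : ℕ) :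
    ModularFormClass.qCoeff (⇑(c • f : CuspForm (Gamma0 N) k)) n =
      c * ModularFormClass.qCoeff f n := by
  unfold ModularFormClass.qCoeff
  have h : (⇑(c • f : CuspForm (Gamma0 N) k) : ℍ → ℂ) = c • (⇑f : ℍ → ℂ) := by
    ext z; rfl
  rw [h]
  rw [ModularForm.qExpansion_smul one_pos (one_mem_strictPeriods_Gamma0' N) c f]
  simp

theorem qCoeff_add_cusp (f g : CuspForm (Gamma0 N) k) (n : ℕ) :
    ModularFormClass.qCoeff (⇑(f + g : CuspForm (Gamma0 N) k)) n =
      ModularFormClass.qCoeff f n + ModularFormClass.qCoeff g n := by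
  unfold ModularFormClass.qCoeff
  have h : (⇑(f + g : CuspForm (Gamma0 N) k) : ℍ → ℂ) = (⇑f : ℍ → ℂ) + (⇑g : ℍ → ℂ) := by
    ext z; rfl
  rw [h]
  rw [ModularForm.qExpansion_add one_pos (one_mem_strictPeriods_Gamma0' N) f g]
  simp

theorem eq_zero_of_forall_qCoeff_eq_zero (f : CuspForm (Gamma0 N) k)
    (h : ∀ n : ℕ, ModularFormClass.qCoeff f n = 0) : f = 0 := by
  have hq : qExpansion 1 (CuspForm.toModularFormₗ f) = 0 := by
    ext n
    have := h n
    unfold ModularFormClass.qCoeff at this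
    rw [map_zero]
    exact this
  have := (ModularForm.qExpansion_eq_zero_iff one_pos (one_mem_strictPeriods_Gamma0' N)
    (CuspForm.toModularFormₗ f)).mp hq
  apply CuspForm.toModularFormₗ_injective
  rw [this, map_zero]

theorem qCoeff_heckeTLin (f : CuspForm (Gamma0 N) k) {p : ℕ} (hp : p.Prime) (hpN : ¬ p ∣ N)
    (n : ℕ) :
    ModularFormClass.qCoeff (CuspForm.heckeTLin k hp hpN f) n =
      ModularFormClass.qCoeff f (n * p) +
        if p ∣ n then (p : ℂ) ^ (k - 1) * ModularFormClass.qCoeff f (n / p) else 0 := by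
  have := ModularFormClass.qCoeff_heckeT f (one_mem_strictPeriods_Gamma0' N) hp.ne_zero n
  rw [CuspForm.coe_heckeTLin_apply, this]
  rfl

theorem qCoeff_heckeULin [NeZero N] (f : CuspForm (Gamma0 N) k) {p : ℕ} (hp : p ≠ 0)
    (hpN : p ∣ N) (n : ℕ) :
    ModularFormClass.qCoeff (CuspForm.heckeULin k hpN f) n =
      ModularFormClass.qCoeff f (n * p) := by
  have := ModularFormClass.qCoeff_heckeU f (one_mem_strictPeriods_Gamma0' N) hp n
  rw [CuspForm.coe_heckeULin_apply, this]
  rfl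

end Fermat.Agent.H74
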