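import Mathlib.Data.Nat.Prime.Basic
import Mathlib.Data.Nat.GCD.Basic
import Mathlib.Tactic
import Fermat.Prelude.Def_FormalHecke_Eigensystem

/-!
# A formal Hecke eigensystem is multiplicative

`FormalHecke.IsEigensystem e a → FormalHecke.IsRecursive e a` over any commutative ring.
-/

set_option autoImplicit false

namespace Fermat.Agent.H74

variable {R : Type*} [CommRing R]

/-- The Hecke relation solved for `a (ℓ * n)`. -/
theorem formal_mul_prime {e a : ℕ → R} (h : FormalHecke.IsEigensystem e a)
    {ℓ : ℕ} (hℓ : ℓ.Prime) (n : ℕ) :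
    a (ℓ * n) = a ℓ * a n - e ℓ * (if ℓ ∣ n then a (n / ℓ) else 0) := by
  have := h.2 ℓ hℓ n
  rw [← this]; ring

theorem formal_coprime_mul {e a : ℕ → R} (h : FormalHecke.IsEigensystem e a) :
    ∀ m n : ℕ, m.Coprime n → a (m * n) = a m * a n := by
  intro m
  induction m using Nat.strong_induction_on with
  | _ m ih =>
    intro n hmn
    rcases Nat.lt_or_ge m 2 with hm | hm
    · interval_cases m
      · have hn : n = 1 := by simpa using hmn
        subst hn
        rw [h.1]; simp
      · rw [h.1]; simp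
    · have hm1 : m ≠ 1 := by omega
      set p := m.minFac with hp
      have hpp : p.Prime := Nat.minFac_prime hm1
      obtain ⟨m', hm'⟩ : p ∣ m := Nat.minFac_dvd m
      have hm'pos : 0 < m' := by
        rcases Nat.eq_zero_or_pos m' with h0 | h0
        · subst h0; omega
        · exact h0
      have hm'lt : m' < m := by
        rw [hm']
        have := hpp.two_le
        nlinarith
      have hcop' : m'.Coprime n := Nat.Coprime.coprime_dvd_left ⟨p, by rw [hm']; ring⟩ hmn
      have hpn : ¬ p ∣ n := by
        intro hpn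
        have : p ∣ Nat.gcd m n := Nat.dvd_gcd (Nat.minFac_dvd m) hpn
        rw [hmn] at this
        exact hpp.one_lt.ne' (Nat.dvd_one.mp this)
      have e1 : a (m * n) = a p * a (m' * n) - e p * (if p ∣ m' * n then a (m' * n / p) else 0) := by
        rw [← formal_mul_prime h hpp (m' * n), hm', mul_assoc]
      have e2 : a m = a p * a m' - e p * (if p ∣ m' then a (m' / p) else 0) := by
        rw [← formal_mul_prime h hpp m', ← hm']
      rw [e1, e2, ih m' hm'lt n hcop']
      by_cases hpm' : p ∣ m'
      · have hdvd : p ∣ m' * n := Dvd.dvd.mul_right hpm' n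
        rw [if_pos hdvd, if_pos hpm']
        obtain ⟨m'', hm''⟩ := hpm'
        have hm''lt : m'' < m := by
          have := hpp.two_le
          have : m'' ≤ m' := by rw [hm'']; nlinarith
          omega
        have hcop'' : m''.Coprime n :=
          Nat.Coprime.coprime_dvd_left ⟨p, by rw [hm'']; ring⟩ hcop'
        have d1 : m' * n / p = m'' * n := by
          rw [hm'', mul_assoc, Nat.mul_div_cancel_left _ hpp.pos]
        have d2 : m' / p = m'' := by
          rw [hm'', Nat.mul_div_cancel_left _ hpp.pos]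
        rw [d1, d2, ih m'' hm''lt n hcop'']
        ring
      · have hndvd : ¬ p ∣ m' * n := by
          intro hd
          rcases (Nat.Prime.dvd_mul hpp).mp hd with hd | hd
          · exact hpm' hd
          · exact hpn hd
        rw [if_neg hndvd, if_neg hpm']
        ring

theorem formal_prime_pow {e a : ℕ → R} (h : FormalHecke.IsEigensystem e a)
    (ℓ r : ℕ) (hℓ : ℓ.Prime) :
    a (ℓ ^ (r + 2)) = a ℓ * a (ℓ ^ (r + 1)) - e ℓ * a (ℓ ^ r) := by
  have h1 := formal_mul_prime h hℓ (ℓ ^ (r + 1))
  have hd : ℓ ∣ ℓ ^ (r + 1) := dvd_pow_self ℓ (Nat.succ_ne_zero r)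
  rw [if_pos hd] at h1
  have e1 : ℓ * ℓ ^ (r + 1) = ℓ ^ (r + 2) := by ring
  have e2 : ℓ ^ (r + 1) / ℓ = ℓ ^ r := by
    rw [pow_succ, Nat.mul_div_cancel _ hℓ.pos]
  rw [e1, e2] at h1
  exact h1

theorem isRecursive_of_isEigensystem {e a : ℕ → R} (h : FormalHecke.IsEigensystem e a) :
    FormalHecke.IsRecursive e a :=
  ⟨h.1, formal_coprime_mul h, fun ℓ r hℓ => formal_prime_pow h ℓ r hℓ⟩

end Fermat.Agent.H74

namespace Fermat.Agent.H74

variable {R : Type*} [CommRing R]

/-- The "weak" eigen-relations: for each prime `ℓ` there is *some* eigenvalue. -/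
def WeakEigen (e b : ℕ → R) : Prop :=
  ∀ ℓ : ℕ, ℓ.Prime → ∃ c : R, ∀ n : ℕ,
    b (ℓ * n) + e ℓ * (if ℓ ∣ n then b (n / ℓ) else 0) = c * b n

theorem WeakEigen.smul {e b : ℕ → R} (h : WeakEigen e b) (r : R) :
    WeakEigen e (fun n => r * b n) := by
  intro ℓ hℓ
  obtain ⟨c, hc⟩ := h ℓ hℓ
  refine ⟨c, fun n => ?_⟩
  have := hc n
  by_cases hd : ℓ ∣ n
  · simp only [if_pos hd] at this ⊢
    linear_combination r * this
  · simp only [if_neg hd] at this ⊢
    linear_combination r * this

/-- If the coefficients `b 0` and `b 1` vanish, everything vanishes. -/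
theorem WeakEigen.eq_zero {e b : ℕ → R} (h : WeakEigen e b) (h0 : b 0 = 0) (h1 : b 1 = 0) :
    ∀ n : ℕ, b n = 0 := by
  intro n
  induction n using Nat.strong_induction_on with
  | _ n ih =>
    rcases Nat.lt_or_ge n 2 with hn | hn
    · interval_cases n
      · exact h0
      · exact h1
    · have hn1 : n ≠ 1 := by omega
      have hpp : (n.minFac).Prime := Nat.minFac_prime hn1
      obtain ⟨m, hm⟩ : n.minFac ∣ n := Nat.minFac_dvd n
      have hmpos : 0 < m := by
        rcases Nat.eq_zero_or_pos m with h0' | h0'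
        · rw [h0', mul_zero] at hm; omega
        · exact h0'
      have hmlt : m < n := by
        have := hpp.two_le
        have h2 : n.minFac * m < n.minFac * m + 1 := Nat.lt_succ_self _
        nlinarith
      obtain ⟨c, hc⟩ := h n.minFac hpp
      have key := hc m
      rw [← hm, ih m hmlt, mul_zero] at key
      by_cases hd : n.minFac ∣ m
      · rw [if_pos hd] at key
        have hlt : m / n.minFac < n :=
          lt_of_le_of_lt (Nat.div_le_self _ _) hmlt
        rw [ih _ hlt, mul_zero, add_zero] at key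
        exact key
      · rw [if_neg hd, mul_zero, add_zero] at key
        exact key

/-- Weak eigen-relations and `b 1 = 1` give a formal eigensystem. -/
theorem WeakEigen.isEigensystem {e b : ℕ → R} (h : WeakEigen e b) (h1 : b 1 = 1) :
    FormalHecke.IsEigensystem e b := by
  refine ⟨h1, fun ℓ hℓ n => ?_⟩
  obtain ⟨c, hc⟩ := h ℓ hℓ
  have hc1 := hc 1
  have hnd : ¬ ℓ ∣ 1 := fun hd => hℓ.one_lt.ne' (Nat.dvd_one.mp hd)
  rw [if_neg hnd, mul_zero, add_zero, mul_one, h1, mul_one] at hc1
  rw [hc n, hc1]

end Fermat.Agent.H74
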