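import Mathlib

/-!
# Joint eigenvectors of finitely many commuting endomorphisms on an invariant subspace
-/

set_option autoImplicit false

namespace Fermat.Agent.H74

open Module

variable {K V : Type*} [Field K] [IsAlgClosed K] [AddCommGroup V] [Module K V]
  [FiniteDimensional K V]

/-- An endomorphism preserving a nonzero subspace of a finite-dimensional space over an
algebraically closed field has an eigenvector in that subspace. -/
theorem exists_eigenvector_mem (T : End K V) (W : Submodule K V) (hW : W ≠ ⊥)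
    (hTW : ∀ v ∈ W, T v ∈ W) :
    ∃ μ : K, ∃ v ∈ W, v ≠ 0 ∧ T v = μ • v := by
  haveI : Nontrivial W := Submodule.nontrivial_iff_ne_bot.mpr hW
  obtain ⟨μ, hμ⟩ := Module.End.exists_eigenvalue (T.restrict hTW)
  obtain ⟨w, hw⟩ := hμ.exists_hasEigenvector
  refine ⟨μ, w.1, w.2, ?_, ?_⟩
  · intro h0
    exact hw.2 (Subtype.ext h0)
  · have := hw.apply_eq_smul
    exact congrArg Subtype.val this

theorem exists_joint_eigenvector {ι : Type*} (T : ι → End K V)
    (hcomm : ∀ i j, Commute (T i) (T j)) (s : Finset ι) :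
    ∀ W : Submodule K V, W ≠ ⊥ → (∀ i ∈ s, ∀ v ∈ W, T i v ∈ W) →
      ∃ v ∈ W, v ≠ 0 ∧ ∀ i ∈ s, ∃ μ : K, T i v = μ • v := by
  classical
  induction s using Finset.induction_on with
  | empty =>
    intro W hW _
    obtain ⟨v, hv, hv0⟩ := (Submodule.ne_bot_iff W).mp hW
    exact ⟨v, hv, hv0, by simp⟩
  | insert a s ha ih =>
    intro W hW hinv
    obtain ⟨μ, w, hwW, hw0, hw⟩ :=
      exists_eigenvector_mem (T a) W hW (hinv a (Finset.mem_insert_self a s))
    -- the `μ`-eigenspace of `T a` inside `W`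
    let W' : Submodule K V := W ⊓ LinearMap.ker (T a - μ • (1 : End K V))
    have hmem : ∀ v, v ∈ W' ↔ v ∈ W ∧ T a v = μ • v := by
      intro v
      simp only [W', Submodule.mem_inf, LinearMap.mem_ker, LinearMap.sub_apply,
        LinearMap.smul_apply, Module.End.one_apply, sub_eq_zero]
    have hW' : W' ≠ ⊥ := by
      rw [Submodule.ne_bot_iff]
      exact ⟨w, (hmem w).mpr ⟨hwW, hw⟩, hw0⟩
    have hinv' : ∀ i ∈ s, ∀ v ∈ W', T i v ∈ W' := by
      intro i hi v hv
      rw [hmem] at hv ⊢
      refine ⟨hinv i (Finset.mem_insert_of_mem hi) v hv.1, ?_⟩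
      have hc : T a (T i v) = T i (T a v) := by
        have := (hcomm a i).eq
        exact congrArg (fun f : End K V => f v) this
      rw [hc, hv.2, map_smul]
    obtain ⟨v, hvW', hv0, hv⟩ := ih W' hW' hinv'
    refine ⟨v, ((hmem v).mp hvW').1, hv0, ?_⟩
    intro i hi
    rcases Finset.mem_insert.mp hi with rfl | hi
    · exact ⟨μ, ((hmem v).mp hvW').2⟩
    · exact hv i hi

end Fermat.Agent.H74
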