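import Mathlib
import Fermat.Prelude.Def_CuspForm_HeckeAlgebra
import Fermat.Prelude.Def_FLTPrelim_Modularity
import Fermat.Prelude.Def_FormalHecke_Eigensystem
import Fermat.Agent.H74.FormalRecursive
import Fermat.Agent.H74.QCoeffBasics
import Fermat.Agent.H74.JointEigen

/-!
# From a `T_ℓ`-eigenvector (`ℓ ∤ N`) to a normalised eigenform

Given a nonzero `g ∈ S₂(Γ₀(N))` with `T_ℓ g = λ_ℓ g` for all primes `ℓ ∤ N`, there is a
normalised eigenform `f` (in the sense of `CuspForm.IsNormalizedEigenform`) with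
`a_ℓ(f) = λ_ℓ` for all primes `ℓ ∤ N`.
-/

set_option autoImplicit false

namespace Fermat.Agent.H74

open CongruenceSubgroup UpperHalfPlane Module
open scoped MatrixGroups

variable {N : ℕ}

/-- The first `B + 1` `q`-coefficients, as a linear map. -/
noncomputable def qCoeffTrunc (N : ℕ) (k : ℤ) (B : ℕ) :
    CuspForm (Gamma0 N) k →ₗ[ℂ] (Fin (B + 1) → ℂ) where
  toFun f i := ModularFormClass.qCoeff f i
  map_add' f g := by
    funext i
    exact qCoeff_add_cusp f g i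
  map_smul' c f := by
    funext i
    exact qCoeff_smul_cusp c f i

theorem qCoeffTrunc_injective (N : ℕ) [NeZero N] (k : ℤ) :
    Function.Injective (qCoeffTrunc N k ((k * (Gamma0 N).index).toNat / 12)) := by
  rw [← LinearMap.ker_eq_bot, LinearMap.ker_eq_bot']
  intro f hf
  have h : CuspForm.toModularFormₗ f = 0 := by
    refine ModularForm.sturm_bound_Gamma0 N (CuspForm.toModularFormₗ f) ?_
    intro n hn
    have := congrFun hf ⟨n, Nat.lt_succ_of_le hn⟩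
    exact this
  apply CuspForm.toModularFormₗ_injective
  rw [h, map_zero]

/-- `S_k(Γ₀(N))` is finite-dimensional (from the Sturm bound of the prelude). -/
theorem finiteDimensional_cuspForm_Gamma0 (N : ℕ) [NeZero N] (k : ℤ) :
    FiniteDimensional ℂ (CuspForm (Gamma0 N) k) :=
  FiniteDimensional.of_injective _ (qCoeffTrunc_injective N k)

end Fermat.Agent.H74

namespace Fermat.Agent.H74

open CongruenceSubgroup UpperHalfPlane Module
open scoped MatrixGroups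

variable {N : ℕ}

/-- The operators `U_q`, indexed by all of `ℕ` (zero when `q ∤ N`). -/
noncomputable def uOp (N : ℕ) [NeZero N] (k : ℤ) (q : ℕ) : End ℂ (CuspForm (Gamma0 N) k) :=
  if h : q ∣ N then CuspForm.heckeULin k h else 0

theorem uOp_of_dvd [NeZero N] (k : ℤ) {q : ℕ} (h : q ∣ N) :
    uOp N k q = CuspForm.heckeULin k h := dif_pos h

theorem uOp_comm [NeZero N] (k : ℤ) (q q' : ℕ) : Commute (uOp N k q) (uOp N k q') := by
  unfold uOp
  by_cases h : q ∣ N <;> by_cases h' : q' ∣ N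
  · rw [dif_pos h, dif_pos h']
    exact CuspForm.heckeULin_comm k h h'
  · rw [dif_neg h']
    exact Commute.zero_right _
  · rw [dif_neg h]
    exact Commute.zero_left _
  · rw [dif_neg h]
    exact Commute.zero_left _

/-- The joint eigenspace of the `T_ℓ`, `ℓ ∤ N`, with eigenvalues `lam ℓ`. -/
noncomputable def tEigen (N : ℕ) (k : ℤ) (lam : ℕ → ℂ) :
    Submodule ℂ (CuspForm (Gamma0 N) k) where
  carrier := {v | ∀ (ℓ : ℕ) (hℓ : ℓ.Prime) (hℓN : ¬ ℓ ∣ N),
    CuspForm.heckeTLin k hℓ hℓN v = lam ℓ • v}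
  add_mem' := by
    intro a b ha hb ℓ hℓ hℓN
    rw [map_add, ha ℓ hℓ hℓN, hb ℓ hℓ hℓN, smul_add]
  zero_mem' := by
    intro ℓ hℓ hℓN
    rw [map_zero, smul_zero]
  smul_mem' := by
    intro c a ha ℓ hℓ hℓN
    rw [map_smul, ha ℓ hℓ hℓN, smul_comm]

theorem mem_tEigen {k : ℤ} {lam : ℕ → ℂ} {v : CuspForm (Gamma0 N) k} :
    v ∈ tEigen N k lam ↔ ∀ (ℓ : ℕ) (hℓ : ℓ.Prime) (hℓN : ¬ ℓ ∣ N),
      CuspForm.heckeTLin k hℓ hℓN v = lam ℓ • v := Iff.rfl

theorem uOp_mem_tEigen [NeZero N] (k : ℤ) (lam : ℕ → ℂ) (q : ℕ)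
    (v : CuspForm (Gamma0 N) k) (hv : v ∈ tEigen N k lam) : uOp N k q v ∈ tEigen N k lam := by
  intro ℓ hℓ hℓN
  unfold uOp
  by_cases h : q ∣ N
  · rw [dif_pos h]
    have hc := (CuspForm.heckeTLin_heckeULin_comm k hℓ hℓN h).eq
    have := congrArg (fun f : End ℂ (CuspForm (Gamma0 N) k) => f v) hc
    simp only [Module.End.mul_apply] at this
    rw [this, hv ℓ hℓ hℓN, map_smul]
  · rw [dif_neg h]
    simp

/-- A joint eigenvector of all `T_ℓ` (`ℓ ∤ N`) and all `U_q` (`q ∣ N` prime). -/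
theorem exists_full_eigenvector [NeZero N] (k : ℤ) (lam : ℕ → ℂ)
    (g : CuspForm (Gamma0 N) k) (hg : g ≠ 0) (hlam : g ∈ tEigen N k lam) :
    ∃ v : CuspForm (Gamma0 N) k, v ≠ 0 ∧ v ∈ tEigen N k lam ∧
      ∀ q : ℕ, q.Prime → ∀ hq : q ∣ N, ∃ μ : ℂ, CuspForm.heckeULin k hq v = μ • v := by
  haveI := finiteDimensional_cuspForm_Gamma0 N k
  have hW : tEigen N k lam ≠ ⊥ := by
    rw [Submodule.ne_bot_iff]
    exact ⟨g, hlam, hg⟩
  obtain ⟨v, hvW, hv0, hv⟩ := exists_joint_eigenvector (uOp N k) (uOp_comm k) N.primeFactors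
    (tEigen N k lam) hW (fun q _ v hv => uOp_mem_tEigen k lam q v hv)
  refine ⟨v, hv0, hvW, ?_⟩
  intro q hq hqN
  obtain ⟨μ, hμ⟩ := hv q (Nat.mem_primeFactors.mpr ⟨hq, hqN, NeZero.ne N⟩)
  rw [uOp_of_dvd k hqN] at hμ
  exact ⟨μ, hμ⟩

/-- The weight-2 "character" `e p = p` for `p ∤ N` and `0` for `p ∣ N`. -/
noncomputable def eTwo (N : ℕ) (p : ℕ) : ℂ := if p ∣ N then 0 else (p : ℂ)

/-- The Hecke relations satisfied by the `q`-coefficients of a full eigenvector. -/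
theorem weakEigen_of_full_eigenvector [NeZero N] (lam : ℕ → ℂ)
    (v : CuspForm (Gamma0 N) 2) (hv : v ∈ tEigen N 2 lam)
    (hU : ∀ q : ℕ, q.Prime → ∀ hq : q ∣ N, ∃ μ : ℂ, CuspForm.heckeULin 2 hq v = μ • v) :
    WeakEigen (eTwo N) (fun n => ModularFormClass.qCoeff v n) := by
  intro ℓ hℓ
  by_cases hℓN : ℓ ∣ N
  · obtain ⟨μ, hμ⟩ := hU ℓ hℓ hℓN
    refine ⟨μ, fun n => ?_⟩
    have h1 := qCoeff_heckeULin v hℓ.ne_zero hℓN n
    rw [hμ, qCoeff_smul_cusp] at h1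
    simp only [eTwo, if_pos hℓN, zero_mul, add_zero]
    rw [mul_comm ℓ n, h1]
  · refine ⟨lam ℓ, fun n => ?_⟩
    have h1 := qCoeff_heckeTLin v hℓ hℓN n
    rw [hv ℓ hℓ hℓN, qCoeff_smul_cusp] at h1
    have hpow : ((ℓ : ℂ)) ^ ((2 : ℤ) - 1) = (ℓ : ℂ) := by norm_num
    rw [hpow] at h1
    simp only [eTwo, if_neg hℓN]
    rw [mul_comm ℓ n, h1]
    split_ifs <;> ring

/-- **Main lemma.** A nonzero joint eigenvector of the `T_ℓ` (`ℓ ∤ N`) in `S₂(Γ₀(N))` yields a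
normalised eigenform with the same `T_ℓ`-eigenvalues, which are its `q`-coefficients. -/
theorem exists_isNormalizedEigenform_of_eigenvector [NeZero N] (lam : ℕ → ℂ)
    (g : CuspForm (Gamma0 N) 2) (hg : g ≠ 0)
    (hlam : ∀ (ℓ : ℕ) (hℓ : ℓ.Prime) (hℓN : ¬ ℓ ∣ N),
      CuspForm.heckeTLin 2 hℓ hℓN g = lam ℓ • g) :
    ∃ f : CuspForm (Gamma0 N) 2, f.IsNormalizedEigenform ∧
      ∀ ℓ : ℕ, ℓ.Prime → ¬ ℓ ∣ N → ModularFormClass.qCoeff f ℓ = lam ℓ := by
  obtain ⟨v, hv0, hvT, hvU⟩ := exists_full_eigenvector 2 lam g hg hlam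
  have hweak := weakEigen_of_full_eigenvector lam v hvT hvU
  -- the first coefficient is nonzero
  have hb1 : ModularFormClass.qCoeff v 1 ≠ 0 := by
    intro h1
    exact hv0 (eq_zero_of_forall_qCoeff_eq_zero v
      (hweak.eq_zero (qCoeff_zero_cusp v) h1))
  set r : ℂ := (ModularFormClass.qCoeff v 1)⁻¹ with hr
  set f : CuspForm (Gamma0 N) 2 := r • v with hf
  have hfT : f ∈ tEigen N 2 lam := (tEigen N 2 lam).smul_mem r hvT
  have hcoeff : ∀ n, ModularFormClass.qCoeff f n = r * ModularFormClass.qCoeff v n :=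
    fun n => qCoeff_smul_cusp r v n
  have hweak' : WeakEigen (eTwo N) (fun n => ModularFormClass.qCoeff f n) := by
    have := hweak.smul r
    simpa only [hcoeff] using this
  have hf1 : ModularFormClass.qCoeff f 1 = 1 := by
    rw [hcoeff, hr, inv_mul_cancel₀ hb1]
  have heig : FormalHecke.IsEigensystem (eTwo N) (fun n => ModularFormClass.qCoeff f n) :=
    hweak'.isEigensystem hf1
  have hrec := isRecursive_of_isEigensystem heig
  refine ⟨f, ⟨hf1, hrec.2.1, ?_, ?_⟩, ?_⟩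
  · intro p r' hp hpN
    have := hrec.2.2 p r' hp
    simpa only [eTwo, if_neg hpN] using this
  · intro p r' hp hpN
    have := hrec.2.2 p r' hp
    simpa only [eTwo, if_pos hpN, zero_mul, sub_zero] using this
  · intro ℓ hℓ hℓN
    have h1 := qCoeff_heckeTLin f hℓ hℓN 1
    rw [hfT ℓ hℓ hℓN, qCoeff_smul_cusp, hf1, mul_one, one_mul] at h1
    have hnd : ¬ ℓ ∣ 1 := fun hd => hℓ.one_lt.ne' (Nat.dvd_one.mp hd)
    rw [if_neg hnd, add_zero] at h1
    exact h1.symm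

end Fermat.Agent.H74
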