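import Fermat.Agent.H74.DSGlue

/-!
# P-DS (S48) block (6): the Artin representation from the mod-`ℓ` family (helper74)

`exists_artin_rep`: from `RepFamily N a e` and `H72.FrobPowStatement` we get a finite quotient
`π : G_ℚ → G` of finite level, unramified outside `N`, and `ρ : G → GL₂(ℂ)` with
`tr ρ(Frob_p) = a p`, `det ρ(Frob_p) = e p` for every `p ∤ N`.
-/

set_option autoImplicit false
set_option linter.unusedSectionVars false
set_option linter.style.haveILetI false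

namespace Fermat.Agent.H74.DS

open Matrix

local notation "Γℚ" => (AlgebraicClosure ℚ ≃ₐ[ℚ] AlgebraicClosure ℚ)

variable {N : ℕ} {a e : ℕ → Zbar}

/-- **Block (6) of Deligne–Serre**: the complex representation on a finite quotient. -/
theorem exists_artin_rep [NeZero N] (hFrob : Fermat.Agent.H72.FrobPowStatement)
    (hfam : RepFamily N a e) :
    ∃ (G : Type) (_ : Group G) (_ : Finite G) (π : Γℚ →* G) (ρ : G →* GL (Fin 2) ℂ),
      Function.Surjective π ∧ GaloisFactorsThroughFiniteLevel π ∧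
      ∀ p : ℕ, p.Prime → ¬ p ∣ N →
        ∀ A : ValuationSubring (AlgebraicClosure ℚ), A.LiesOverPrime p →
          (∀ σ ∈ A.inertiaSubgroupIn ℚ, π σ = 1) ∧
          ∀ σ : Γℚ, A.IsFrobeniusAt σ p →
            ((ρ (π σ) : GL (Fin 2) ℂ) : Matrix (Fin 2) (Fin 2) ℂ).trace = (a p : ℂ) ∧
            ((ρ (π σ) : GL (Fin 2) ℂ) : Matrix (Fin 2) (Fin 2) ℂ).det = (e p : ℂ) := by
  obtain ⟨B, hfam⟩ := hfam
  set T := threshold B with hT
  obtain ⟨ℓ₀, hℓ₀, ⟨R₀⟩⟩ := hfam T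
  have hBℓ₀ : B < ℓ₀ := lt_of_le_of_lt (le_threshold B) hℓ₀
  set H : Subgroup Γℚ := R₀.r.ker with hH
  haveI : Finite R₀.r.range := R₀.finite_range
  haveI : Finite (Γℚ ⧸ H) :=
    Finite.of_equiv _ (QuotientGroup.quotientKerEquivRange R₀.r).symm.toEquiv
  set π : Γℚ →* (Γℚ ⧸ H) := QuotientGroup.mk' H with hπ
  have hπsurj : Function.Surjective π := QuotientGroup.mk'_surjective H
  have hker : ∀ {ℓ : ℕ} (R : ModRep N a e ℓ B), T < ℓ → R.r.ker = H :=
    fun R hℓ => ker_eq hFrob hfam R R₀ hℓ hℓ₀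
  have hπeq : ∀ {σ τ : Γℚ}, π σ = π τ → ∀ {ℓ : ℕ} (R : ModRep N a e ℓ B), T < ℓ →
      R.mat σ = R.mat τ := by
    intro σ τ hστ ℓ R hℓ
    have h1 : σ⁻¹ * τ ∈ H := QuotientGroup.eq.mp hστ
    rw [← hker R hℓ, MonoidHom.mem_ker, map_mul, map_inv, inv_mul_eq_one] at h1
    rw [ModRep.mat_apply, ModRep.mat_apply, h1]
  -- the class functions
  have values : ∀ h : Γℚ, ∃ y ∈ sumSet B, ∃ z ∈ rootSet B,
      (R₀.mat h).trace = R₀.φ y ∧ (R₀.mat h).det = R₀.φ z := by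
    intro h
    obtain ⟨y, hy, z, hz, h1, h2, -, -⟩ := exists_common_values hFrob hfam R₀ R₀ hBℓ₀ hBℓ₀ h
    exact ⟨y, hy, z, hz, h1, h2⟩
  set s : (Γℚ ⧸ H) → Γℚ := Function.surjInv hπsurj with hs
  have hsπ : ∀ x, π (s x) = x := Function.surjInv_eq hπsurj
  set χ : (Γℚ ⧸ H) → Zbar := fun x => (values (s x)).choose with hχ
  set δ : (Γℚ ⧸ H) → Zbar := fun x => (values (s x)).choose_spec.2.choose with hδ
  have hχmem : ∀ x, χ x ∈ sumSet B := fun x => (values (s x)).choose_spec.1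
  have hδmem : ∀ x, δ x ∈ rootSet B := fun x => (values (s x)).choose_spec.2.choose_spec.1
  have hχ₀ : ∀ x, (R₀.mat (s x)).trace = R₀.φ (χ x) :=
    fun x => (values (s x)).choose_spec.2.choose_spec.2.1
  have hδ₀ : ∀ x, (R₀.mat (s x)).det = R₀.φ (δ x) :=
    fun x => (values (s x)).choose_spec.2.choose_spec.2.2
  have hinj₀ := injOn_of_threshold B R₀ hℓ₀
  have claim : ∀ {ℓ : ℕ} (R : ModRep N a e ℓ B), T < ℓ → ∀ σ : Γℚ,
      (R.mat σ).trace = R.φ (χ (π σ)) ∧ (R.mat σ).det = R.φ (δ (π σ)) := by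
    intro ℓ R hℓ σ
    have hBℓ : B < ℓ := lt_of_le_of_lt (le_threshold B) hℓ
    have hh : π (s (π σ)) = π σ := hsπ (π σ)
    obtain ⟨y, hy, z, hz, h1, h2, h3, h4⟩ :=
      exists_common_values hFrob hfam R₀ R hBℓ₀ hBℓ (s (π σ))
    have hy' : y = χ (π σ) := by
      apply hinj₀
      · exact Finset.mem_coe.mpr (Finset.mem_union_left _ hy)
      · exact Finset.mem_coe.mpr (Finset.mem_union_left _ (hχmem _))
      · rw [← h1, hχ₀]
    have hz' : z = δ (π σ) := by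
      apply hinj₀
      · exact Finset.mem_coe.mpr (Finset.mem_union_right _ hz)
      · exact Finset.mem_coe.mpr (Finset.mem_union_right _ (hδmem _))
      · rw [← h2, hδ₀]
    rw [← hπeq hh R hℓ, h3, h4, hy', hz']
    exact ⟨rfl, rfl⟩
  -- the complex representation
  obtain ⟨ρ, hρ⟩ := exists_complex_rep (G := Γℚ ⧸ H) χ δ (by
    intro m hm
    obtain ⟨ℓ, hℓ, ⟨R⟩⟩ := hfam (max T m.natAbs)
    have hTℓ : T < ℓ := lt_of_le_of_lt (le_max_left _ _) hℓ
    have hmℓ : m.natAbs < ℓ := lt_of_le_of_lt (le_max_right _ _) hℓ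
    refine ⟨R.k, inferInstance, R.φ,
      (Units.coeHom (Matrix (Fin 2) (Fin 2) R.k)).comp
        (QuotientGroup.lift H R.r (le_of_eq (hker R hTℓ).symm)),
      R.intCast_ne_zero hm hmℓ, ?_⟩
    intro x
    obtain ⟨σ, rfl⟩ := hπsurj x
    have := claim R hTℓ σ
    simpa [hπ] using this)
  refine ⟨Γℚ ⧸ H, inferInstance, inferInstance, π, ρ, hπsurj, ?_, ?_⟩
  · obtain ⟨L, hL, hL1⟩ := R₀.finiteLevel
    refine ⟨L, hL, fun σ hσ => ?_⟩
    rw [hπ, QuotientGroup.mk'_apply, QuotientGroup.eq_one_iff, hH, MonoidHom.mem_ker]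
    exact hL1 σ hσ
  · intro p hp hpN A hA
    obtain ⟨ℓ, hℓ, ⟨R⟩⟩ := hfam (max T p)
    have hTℓ : T < ℓ := lt_of_le_of_lt (le_max_left _ _) hℓ
    have hpℓ : p < ℓ := lt_of_le_of_lt (le_max_right _ _) hℓ
    have hpNℓ := R.not_dvd_mul hp hpN hpℓ
    have hinj := injOn_of_threshold B R hTℓ
    constructor
    · intro σ hσ
      have h1 := R.unram p hp hpNℓ A hA σ hσ
      rw [hπ, QuotientGroup.mk'_apply, QuotientGroup.eq_one_iff, ← hker R hTℓ, MonoidHom.mem_ker]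
      exact h1
    · intro σ hσ
      obtain ⟨ζ₁, ζ₂, hζ₁, hζ₂, ha, he⟩ := hecke_values hfam hp hpN A hA σ hσ
      have hF := R.frob p hp hpNℓ A hA σ hσ
      have hc := claim R hTℓ σ
      have h1 : χ (π σ) = a p := by
        apply hinj
        · exact Finset.mem_coe.mpr (Finset.mem_union_left _ (hχmem _))
        · rw [ha]
          exact Finset.mem_coe.mpr (Finset.mem_union_left _ (add_mem_sumSet B hζ₁ hζ₂))
        · rw [← hc.1, ModRep.mat_apply, hF.1]
      have h2 : δ (π σ) = e p := by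
        apply hinj
        · exact Finset.mem_coe.mpr (Finset.mem_union_right _ (hδmem _))
        · rw [he]
          refine Finset.mem_coe.mpr (Finset.mem_union_right _ ((mem_rootSet B).mpr ?_))
          rw [mul_pow, hζ₁, hζ₂, one_mul]
        · rw [← hc.2, ModRep.mat_apply, hF.2]
      rw [(hρ (π σ)).1, (hρ (π σ)).2, h1, h2]
      exact ⟨rfl, rfl⟩

end Fermat.Agent.H74.DS
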