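import Fermat.Agent.H74.DSAdapterLin
import Fermat.Agent.H74.DSGlueMain
import Fermat.Agent.H20.DS.Interfaces

/-!
# P-DS (S48) block DS-D: the complex representation from the mod-`ℓ` representations (helper74)

`complexRep_of_modLRep : ModLRepStatement → BoundedOrderStatement → FrobPowStatement →
  ComplexRepStatement` in the interface shapes of `Fermat.Agent.H20.DS`.
-/

set_option autoImplicit false
set_option linter.unusedSectionVars false
set_option linter.style.haveILetI false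

namespace Fermat.Agent.H74.DS

open Matrix Polynomial CongruenceSubgroup

local notation "Γℚ" => (AlgebraicClosure ℚ ≃ₐ[ℚ] AlgebraicClosure ℚ)

open Classical in
/-- The sequence of Hecke eigenvalues, as algebraic integers (`0` where not integral). -/
noncomputable def aSeq {N : ℕ} (f : CuspForm (Gamma1 N) 1) : ℕ → Zbar := fun p =>
  if h : IsIntegral ℤ (ModularFormClass.qCoeff f p) then ⟨ModularFormClass.qCoeff f p, h⟩ else 0

/-- Values of Dirichlet characters are algebraic integers. -/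
theorem isIntegral_dirichlet {N : ℕ} [NeZero N] (ε : DirichletCharacter ℂ N) (x : ZMod N) :
    IsIntegral ℤ (ε x) := by
  by_cases hx : IsUnit x
  · obtain ⟨u, rfl⟩ := hx
    have h1 : (ε (u : ZMod N)) ^ (Fintype.card (ZMod N)ˣ) = 1 := by
      rw [← map_pow, ← Units.val_pow_eq_pow_val, pow_card_eq_one, Units.val_one, map_one]
    refine IsIntegral.of_pow (n := Fintype.card (ZMod N)ˣ) Fintype.card_pos ?_
    rw [h1]
    exact isIntegral_one
  · rw [MulChar.map_nonunit ε hx]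
    exact isIntegral_zero

/-- The sequence of values of the character, as algebraic integers. -/
noncomputable def eSeq {N : ℕ} [NeZero N] (ε : DirichletCharacter ℂ N) : ℕ → Zbar := fun p =>
  ⟨ε (p : ZMod N), isIntegral_dirichlet ε _⟩

theorem aSeq_eq {N : ℕ} (f : CuspForm (Gamma1 N) 1) (p : ℕ) (z : Zbar)
    (hz : (z : ℂ) = ModularFormClass.qCoeff f p) : aSeq f p = z := by
  have h : IsIntegral ℤ (ModularFormClass.qCoeff f p) := hz ▸ z.2
  unfold aSeq
  rw [dif_pos h]
  exact Subtype.ext hz.symm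

theorem eSeq_eq {N : ℕ} [NeZero N] (ε : DirichletCharacter ℂ N) (p : ℕ) (z : Zbar)
    (hz : (z : ℂ) = ε (p : ZMod N)) : eSeq ε p = z :=
  Subtype.ext hz.symm

theorem coe_eSeq {N : ℕ} [NeZero N] (ε : DirichletCharacter ℂ N) (p : ℕ) :
    ((eSeq ε p : Zbar) : ℂ) = ε (p : ZMod N) := rfl

/-- The cardinality of the range of the matrix form. -/
theorem card_range_matHom {k : Type*} [Field k] {V : Type*} [AddCommGroup V] [Module k V]
    {Γ : Type*} [Group Γ] (b : Module.Basis (Fin 2) k V) (ρ : Γ →* Module.End k V) :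
    Nat.card (matHom b ρ).range = Nat.card (Set.range ρ) := by
  have h1 : Nat.card (matHom b ρ).range = Nat.card (Set.range (matHom b ρ)) := rfl
  have h2 : Nat.card (Set.range (matHom b ρ)) =
      Nat.card ((Units.val : GL (Fin 2) k → Matrix (Fin 2) (Fin 2) k) ''
        Set.range (matHom b ρ)) :=
    (Nat.card_image_of_injective Units.val_injective _).symm
  have h3 : (Units.val : GL (Fin 2) k → Matrix (Fin 2) (Fin 2) k) '' Set.range (matHom b ρ) =
      (LinearMap.toMatrix b b) '' Set.range ρ := by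
    ext M
    constructor
    · rintro ⟨_, ⟨g, rfl⟩, rfl⟩
      exact ⟨ρ g, ⟨g, rfl⟩, (matHom_val b ρ g).symm⟩
    · rintro ⟨_, ⟨g, rfl⟩, rfl⟩
      exact ⟨matHom b ρ g, ⟨g, rfl⟩, matHom_val b ρ g⟩
  rw [h1, h2, h3]
  exact Nat.card_image_of_injective (LinearMap.toMatrix b b).injective _

/-- The family of mod-`ℓ` representations in the shape of `RepFamily`. -/
theorem repFamily_of_modLRep (hA : Fermat.Agent.H20.DS.ModLRepStatement)
    (hC : Fermat.Agent.H20.DS.BoundedOrderStatement)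
    (N : ℕ) [NeZero N] (ε : DirichletCharacter ℂ N) (f : CuspForm (Gamma1 N) 1)
    (hf : Fermat.Agent.H20.DS.IsDSEigen N ε f) :
    RepFamily N (aSeq f) (eSeq ε) := by
  obtain ⟨B, hB⟩ := hC N ε f hf
  refine ⟨B, fun t => ?_⟩
  obtain ⟨ℓ, hℓt, hℓ⟩ := Nat.exists_infinite_primes (max (t + 1) (2 * N + 1))
  have hN0 : 0 < N := Nat.pos_of_ne_zero (NeZero.ne N)
  have hℓN : ¬ ℓ ∣ 2 * N := Nat.not_dvd_of_pos_of_lt (by omega) (by omega)
  obtain ⟨k, _, _, ⟨φ⟩⟩ := exists_residue_field hℓ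
  obtain ⟨ρ, hss, hρ⟩ := hA N ε f hf ℓ hℓ hℓN k φ
  have hcard := hB ℓ hℓ hℓN k φ ρ ⟨hss, hρ⟩
  let b : Module.Basis (Fin 2) k ρ.V := Module.finBasisOfFinrankEq k ρ.V ρ.finrank_eq
  refine ⟨ℓ, by omega, ⟨{
    k := k
    charP := inferInstance
    φ := φ
    r := matHom b ρ.ρ
    finiteLevel := ?_
    semisimple := ?_
    card_le := ?_
    unram := ?_
    frob := ?_ }⟩⟩
  · obtain ⟨L, hL, h1⟩ := ρ.factorsThroughFiniteLevel
    exact ⟨L, hL, fun σ hσ => (matHom_eq_one_iff b ρ.ρ σ).mpr (h1 σ hσ)⟩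
  · rw [coeHom_comp_matHom]
    exact isSemisimpleRep_matMonoidHom b ρ.ρ hss
  · rw [card_range_matHom]
    exact hcard
  · intro p hp hpN A hA' σ hσ
    exact (matHom_eq_one_iff b ρ.ρ σ).mpr ((hρ p hp hpN).1 A hA' σ hσ)
  · intro p hp hpN A hA' σ hσ
    obtain ⟨a, e, ⟨za, hza, hφa⟩, ⟨ze, hze, hφe⟩, hchar⟩ := (hρ p hp hpN).2 A hA' σ hσ
    have h := trace_det_of_charpoly b ρ.ρ σ a e hchar
    rw [aSeq_eq f p za hza, eSeq_eq ε p ze hze, hφa, hφe]
    exact h

/-- **DS-D.**  The complex representation from the mod-`ℓ` representations with bounded image,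
in the interface shapes of `Fermat.Agent.H20.DS`. -/
theorem complexRep_of_modLRep (hA : Fermat.Agent.H20.DS.ModLRepStatement)
    (hC : Fermat.Agent.H20.DS.BoundedOrderStatement)
    (hFrob : Fermat.Agent.H72.FrobPowStatement) :
    Fermat.Agent.H20.DS.ComplexRepStatement := by
  intro N _ ε f hf
  obtain ⟨G, _, _, π, ρ, -, hπ, hmain⟩ :=
    exists_artin_rep hFrob (repFamily_of_modLRep hA hC N ε f hf)
  refine ⟨ρ.comp π, ?_, ?_⟩
  · obtain ⟨L, hL, h1⟩ := hπ
    exact ⟨L, hL, fun σ hσ => by rw [MonoidHom.comp_apply, h1 σ hσ, map_one]⟩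
  · intro p hp hpN A hA'
    obtain ⟨hin, hfr⟩ := hmain p hp hpN A hA'
    refine ⟨fun σ hσ => by rw [MonoidHom.comp_apply, hin σ hσ, map_one], fun σ hσ => ?_⟩
    obtain ⟨htr, hdet⟩ := hfr σ hσ
    -- integrality of `a_p` from one mod-`ℓ` representation
    obtain ⟨ℓ, hℓt, hℓ⟩ := Nat.exists_infinite_primes (max (p + 1) (2 * N + 1))
    have hN0 : 0 < N := Nat.pos_of_ne_zero (NeZero.ne N)
    have hℓN : ¬ ℓ ∣ 2 * N := Nat.not_dvd_of_pos_of_lt (by omega) (by omega)
    have hpℓ : ¬ p ∣ N * ℓ := by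
      intro hdvd
      rcases (Nat.Prime.dvd_mul hp).mp hdvd with h | h
      · exact hpN h
      · have := (Nat.prime_dvd_prime_iff_eq hp hℓ).mp h
        omega
    obtain ⟨k, _, _, ⟨φ⟩⟩ := exists_residue_field hℓ
    obtain ⟨ρ', -, hρ'⟩ := hA N ε f hf ℓ hℓ hℓN k φ
    obtain ⟨a, e, ⟨za, hza, -⟩, -, -⟩ := (hρ' p hp hpℓ).2 A hA' σ hσ
    refine ⟨?_, ?_⟩
    · rw [MonoidHom.comp_apply, htr, aSeq_eq f p za hza, hza]
    · rw [MonoidHom.comp_apply, hdet, coe_eSeq]

end Fermat.Agent.H74.DS
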