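import Fermat.Agent.H74.DSAdapter

/-!
# P-DS (S48) block DS-D, robust form (helper74)

The complex representation exists as soon as mod-`ℓ` representations with uniformly bounded
image exist for *arbitrarily large* `ℓ` (for each such `ℓ`, over *some* field of characteristic
`ℓ` and for *some* reduction map):

* `modRep_of_isModLRep` : one mod-`ℓ` representation in the interface shape
  `Fermat.Agent.H20.DS.IsModLRep`, with image of order `≤ B`, gives a `ModRep`.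
* `exists_attachedComplexRep` : the complex representation from
  `∃ B, ∀ t, ∃ ℓ > t, ∃ k φ ρ, IsModLRep N ε f ℓ φ ρ ∧ Nat.card (Set.range ρ.ρ) ≤ B`.
* `ModLRepLargeStatement`, `BoundedOrderLargeStatement` : the statements DS-A and DS-C "for all
  primes `ℓ > L₀`", and `complexRep_of_large`.
-/

set_option autoImplicit false
set_option linter.unusedSectionVars false
set_option linter.style.haveILetI false

namespace Fermat.Agent.H74.DS

open Matrix Polynomial CongruenceSubgroup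

local notation "Γℚ" => (AlgebraicClosure ℚ ≃ₐ[ℚ] AlgebraicClosure ℚ)

/-- One mod-`ℓ` representation in the interface shape gives a `ModRep`. -/
noncomputable def modRep_of_isModLRep {N : ℕ} [NeZero N] (ε : DirichletCharacter ℂ N)
    (f : CuspForm (Gamma1 N) 1) {ℓ B : ℕ} {k : Type} [Field k] [hchar : CharP k ℓ]
    (φ : Zbar →+* k) (ρ : ResidualGaloisRep k)
    (hρ : Fermat.Agent.H20.DS.IsModLRep N ε f ℓ φ ρ)
    (hcard : Nat.card (Set.range ρ.ρ) ≤ B) :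
    ModRep N (aSeq f) (eSeq ε) ℓ B :=
  let b : Module.Basis (Fin 2) k ρ.V := Module.finBasisOfFinrankEq k ρ.V ρ.finrank_eq
  { k := k
    charP := hchar
    φ := φ
    r := matHom b ρ.ρ
    finiteLevel := by
      obtain ⟨L, hL, h1⟩ := ρ.factorsThroughFiniteLevel
      exact ⟨L, hL, fun σ hσ => (matHom_eq_one_iff b ρ.ρ σ).mpr (h1 σ hσ)⟩
    semisimple := by
      rw [coeHom_comp_matHom]
      exact isSemisimpleRep_matMonoidHom b ρ.ρ hρ.1
    card_le := by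
      rw [card_range_matHom]
      exact hcard
    unram := by
      intro p hp hpN A hA' σ hσ
      exact (matHom_eq_one_iff b ρ.ρ σ).mpr ((hρ.2 p hp hpN).1 A hA' σ hσ)
    frob := by
      intro p hp hpN A hA' σ hσ
      obtain ⟨a, e, ⟨za, hza, hφa⟩, ⟨ze, hze, hφe⟩, hchar⟩ := (hρ.2 p hp hpN).2 A hA' σ hσ
      have h := trace_det_of_charpoly b ρ.ρ σ a e hchar
      rw [aSeq_eq f p za hza, eSeq_eq ε p ze hze, hφa, hφe]
      exact h }

/-- **DS-D, robust form.**  The complex representation exists as soon as mod-`ℓ`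
representations with uniformly bounded image exist for arbitrarily large `ℓ`. -/
theorem exists_attachedComplexRep (hFrob : Fermat.Agent.H72.FrobPowStatement)
    (N : ℕ) [NeZero N] (ε : DirichletCharacter ℂ N) (f : CuspForm (Gamma1 N) 1)
    (h : ∃ B : ℕ, ∀ t : ℕ, ∃ ℓ : ℕ, t < ℓ ∧ ∃ (k : Type) (_ : Field k) (_ : CharP k ℓ)
      (φ : Zbar →+* k) (ρ : ResidualGaloisRep k),
      Fermat.Agent.H20.DS.IsModLRep N ε f ℓ φ ρ ∧ Nat.card (Set.range ρ.ρ) ≤ B) :
    ∃ ρ : Γℚ →* GL (Fin 2) ℂ, Fermat.Agent.H20.DS.IsAttachedComplexRep N ε f ρ := by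
  obtain ⟨B, hB⟩ := h
  have hfam : RepFamily N (aSeq f) (eSeq ε) := by
    refine ⟨B, fun t => ?_⟩
    obtain ⟨ℓ, hℓ, k, _, _, φ, ρ, hρ, hcard⟩ := hB t
    exact ⟨ℓ, hℓ, ⟨modRep_of_isModLRep ε f φ ρ hρ hcard⟩⟩
  obtain ⟨G, _, _, π, ρ, -, hπ, hmain⟩ := exists_artin_rep hFrob hfam
  refine ⟨ρ.comp π, ?_, ?_⟩
  · obtain ⟨L, hL, h1⟩ := hπ
    exact ⟨L, hL, fun σ hσ => by rw [MonoidHom.comp_apply, h1 σ hσ, map_one]⟩
  · intro p hp hpN A hA'
    obtain ⟨hin, hfr⟩ := hmain p hp hpN A hA'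
    refine ⟨fun σ hσ => by rw [MonoidHom.comp_apply, hin σ hσ, map_one], fun σ hσ => ?_⟩
    obtain ⟨htr, hdet⟩ := hfr σ hσ
    -- integrality of `a_p` from one mod-`ℓ` representation with `ℓ > p`
    obtain ⟨ℓ, hℓ, k, _, hk, φ, ρ', hρ', -⟩ := hB p
    have hℓ0 : ℓ ≠ 0 := by omega
    have hℓp : ℓ.Prime := (CharP.char_is_prime_or_zero k ℓ).resolve_right hℓ0
    have hpℓ : ¬ p ∣ N * ℓ := by
      intro hdvd
      rcases (Nat.Prime.dvd_mul hp).mp hdvd with h | h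
      · exact hpN h
      · have := (Nat.prime_dvd_prime_iff_eq hp hℓp).mp h
        omega
    obtain ⟨a, e, ⟨za, hza, -⟩, -, -⟩ := (hρ'.2 p hp hpℓ).2 A hA' σ hσ
    refine ⟨?_, ?_⟩
    · rw [MonoidHom.comp_apply, htr, aSeq_eq f p za hza, hza]
    · rw [MonoidHom.comp_apply, hdet, coe_eSeq]

/-- **DS-A for large `ℓ`.**  Existence of the mod `ℓ` representations of `f` for all primes
`ℓ > L₀`. -/
def ModLRepLargeStatement : Prop :=
  ∀ (N : ℕ) [NeZero N] (ε : DirichletCharacter ℂ N) (f : CuspForm (Gamma1 N) 1),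
    Fermat.Agent.H20.DS.IsDSEigen N ε f → ∃ L₀ : ℕ, ∀ ℓ : ℕ, ℓ.Prime → L₀ < ℓ →
    ∀ (k : Type) [Field k] [CharP k ℓ] (φ : Zbar →+* k),
    ∃ ρ : ResidualGaloisRep k, Fermat.Agent.H20.DS.IsModLRep N ε f ℓ φ ρ

/-- **DS-C for large `ℓ`.**  The images of the mod `ℓ` representations of `f`, `ℓ > L₀`, have
bounded order. -/
def BoundedOrderLargeStatement : Prop :=
  ∀ (N : ℕ) [NeZero N] (ε : DirichletCharacter ℂ N) (f : CuspForm (Gamma1 N) 1),
    Fermat.Agent.H20.DS.IsDSEigen N ε f →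
    ∃ B L₀ : ℕ, ∀ ℓ : ℕ, ℓ.Prime → L₀ < ℓ →
      ∀ (k : Type) [Field k] [CharP k ℓ] (φ : Zbar →+* k) (ρ : ResidualGaloisRep k),
        Fermat.Agent.H20.DS.IsModLRep N ε f ℓ φ ρ → Nat.card (Set.range ρ.ρ) ≤ B

theorem modLRepLarge_of_modLRep (hA : Fermat.Agent.H20.DS.ModLRepStatement) :
    ModLRepLargeStatement := by
  intro N _ ε f hf
  refine ⟨2 * N, fun ℓ hℓ hlt k _ _ φ => hA N ε f hf ℓ hℓ ?_ k φ⟩
  have hN0 : 0 < N := Nat.pos_of_ne_zero (NeZero.ne N)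
  exact Nat.not_dvd_of_pos_of_lt (by omega) hlt

theorem boundedOrderLarge_of_boundedOrder (hC : Fermat.Agent.H20.DS.BoundedOrderStatement) :
    BoundedOrderLargeStatement := by
  intro N _ ε f hf
  obtain ⟨B, hB⟩ := hC N ε f hf
  refine ⟨B, 2 * N, fun ℓ hℓ hlt k _ _ φ ρ hρ => hB ℓ hℓ ?_ k φ ρ hρ⟩
  have hN0 : 0 < N := Nat.pos_of_ne_zero (NeZero.ne N)
  exact Nat.not_dvd_of_pos_of_lt (by omega) hlt

/-- **DS-D from the statements for large `ℓ`.** -/
theorem complexRep_of_large (hA : ModLRepLargeStatement) (hC : BoundedOrderLargeStatement)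
    (hFrob : Fermat.Agent.H72.FrobPowStatement) :
    Fermat.Agent.H20.DS.ComplexRepStatement := by
  intro N _ ε f hf
  obtain ⟨L₁, hA'⟩ := hA N ε f hf
  obtain ⟨B, L₂, hC'⟩ := hC N ε f hf
  refine exists_attachedComplexRep hFrob N ε f ⟨B, fun t => ?_⟩
  obtain ⟨ℓ, hℓt, hℓ⟩ := Nat.exists_infinite_primes (max (t + 1) (max (L₁ + 1) (L₂ + 1)))
  obtain ⟨k, _, _, ⟨φ⟩⟩ := exists_residue_field hℓ
  obtain ⟨ρ, hρ⟩ := hA' ℓ hℓ (by omega) k φ
  exact ⟨ℓ, by omega, k, inferInstance, inferInstance, φ, ρ, hρ,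
    hC' ℓ hℓ (by omega) k φ ρ hρ⟩

end Fermat.Agent.H74.DS
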