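import Fermat.Agent.H74.DSAdapterLin
import Fermat.Agent.H20.DS.Interfaces

/-!
# P-DS (S48) block DS-5b: bounded image in the interface shape (helper74)

`boundedImageStatement : Fermat.Agent.H20.DS.BoundedImageStatement`, an adapter from the landed
matrix form `Fermat.Agent.H69.DS.card_range_le` (helper69; the same result was landed by helper10
as `Fermat.Agent.H10.ds_bound`) to the `Module.End` form of the interface.
-/

set_option autoImplicit false
set_option linter.unusedSectionVars false
set_option linter.style.haveILetI false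

namespace Fermat.Agent.H74.DS

open Matrix

/-- **DS-5b** in the interface shape of `Fermat.Agent.H20.DS`. -/
theorem boundedImageStatement : Fermat.Agent.H20.DS.BoundedImageStatement := by
  intro k _ h2 G _ _ V _ _ hV r hinj hss H T eta h0 h14 hH hT
  classical
  haveI : Module.Finite k V := Module.finite_of_finrank_eq_succ hV
  let b : Module.Basis (Fin 2) k V := Module.finBasisOfFinrankEq k V hV
  set ρ : G →* GL (Fin 2) k := matHom b r with hρ
  have hρinj : Function.Injective ρ := fun g h hgh => hinj ((matHom_eq_iff b r g h).mp hgh)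
  haveI : Finite ρ.range := Finite.of_surjective ρ.rangeRestrict ρ.rangeRestrict_surjective
  have hss' : Fermat.Agent.H69.DS.IsSemisimpleRep
      ((Units.coeHom (Matrix (Fin 2) (Fin 2) k)).comp ρ) := by
    rw [hρ, coeHom_comp_matHom]
    exact isSemisimpleRep_matMonoidHom b r hss
  have h1 := Fermat.Agent.H69.DS.card_range_le h2 ρ hss' T
  have hcard : Nat.card ρ.range = Nat.card G :=
    (Nat.card_congr (MonoidHom.ofInjective hρinj).toEquiv).symm
  set S : Set ρ.range :=
    {x : ρ.range | ((x : GL (Fin 2) k) : Matrix (Fin 2) (Fin 2) k).trace ∉ T} with hS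
  have hbad : S.ncard ≤ Nat.card (Hᶜ : Set G) := by
    rw [Nat.card_coe_set_eq]
    have hsub : S ⊆ ρ.rangeRestrict '' (Hᶜ : Set G) := by
      rintro ⟨x, g, rfl⟩ hx
      refine ⟨g, ?_, rfl⟩
      intro hgH
      apply hx
      have h3 := hT g hgH
      rw [LinearMap.trace_eq_matrix_trace k b (r g)] at h3
      exact h3
    calc S.ncard ≤ (ρ.rangeRestrict '' (Hᶜ : Set G)).ncard :=
          Set.ncard_le_ncard hsub (Set.toFinite _)
      _ ≤ (Hᶜ : Set G).ncard := Set.ncard_image_le (Set.toFinite _)
  have h4 : (Nat.card G : ℝ) ≤ 4 * (S.ncard : ℝ) + (T.card : ℝ) ^ 4 := by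
    rw [← hcard]
    exact_mod_cast h1
  have h5 : (S.ncard : ℝ) ≤ eta * (Nat.card G : ℝ) :=
    le_trans (by exact_mod_cast hbad) hH
  have h6 : (T.card : ℝ) ^ 4 ≤ ((max T.card 1 : ℕ) : ℝ) ^ 4 := by
    refine pow_le_pow_left₀ (Nat.cast_nonneg _) ?_ 4
    exact_mod_cast le_max_left _ _
  calc (1 - 4 * eta) * (Nat.card G : ℝ) ≤ (T.card : ℝ) ^ 4 := by linarith
    _ ≤ _ := h6

end Fermat.Agent.H74.DS
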