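import Fermat.Agent.H74.DSAdapter2
import Fermat.Agent.H74.DSFinal

/-!
# P-DS (S48): final assembly, robust form (helper74)

`s48_of_four_large : ModLRepLargeStatement → BoundedOrderLargeStatement → RankinSharpStatement →
  ChebDensityStatement → S48Statement`, where the first two inputs are only required for all
primes `ℓ > L₀`; and `s48_of_family`, where they are only required for arbitrarily large `ℓ`,
over some field of characteristic `ℓ`.
-/

set_option autoImplicit false

namespace Fermat.Agent.H74.DS

open Fermat.Agent.H20.DS CongruenceSubgroup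

/-- **S48 from the four remaining inputs, the first two for large `ℓ` only.** -/
theorem s48_of_four_large (hA : ModLRepLargeStatement) (hC : BoundedOrderLargeStatement)
    (hR : RankinSharpStatement) (hCheb : ChebDensityStatement) : S48Statement :=
  s48_of_complexRep_irred (complexRep_of_large hA hC Fermat.Agent.H72.frobPow)
    (irred_of_two hR hCheb)

/-- **S48 from a bounded family of mod-`ℓ` representations for arbitrarily large `ℓ`.** -/
theorem s48_of_family
    (hfam : ∀ (N : ℕ) [NeZero N] (ε : DirichletCharacter ℂ N) (f : CuspForm (Gamma1 N) 1),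
      IsDSEigen N ε f →
      ∃ B : ℕ, ∀ t : ℕ, ∃ ℓ : ℕ, t < ℓ ∧ ∃ (k : Type) (_ : Field k) (_ : CharP k ℓ)
        (φ : Zbar →+* k) (ρ : ResidualGaloisRep k),
        IsModLRep N ε f ℓ φ ρ ∧ Nat.card (Set.range ρ.ρ) ≤ B)
    (hR : RankinSharpStatement) (hCheb : ChebDensityStatement) : S48Statement :=
  s48_of_complexRep_irred
    (fun N _ ε f hf => exists_attachedComplexRep Fermat.Agent.H72.frobPow N ε f (hfam N ε f hf))
    (irred_of_two hR hCheb)

end Fermat.Agent.H74.DS
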