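import Fermat.Agent.H74.DSFinal2
import Fermat.Agent.H74.DSBoundedImageAdapter
import Fermat.Agent.H62.Cheb2.Final
import Fermat.Agent.H44.DS.EulerLog
import Fermat.Agent.H58.DS.FewValues
import Fermat.Agent.H20.DS.BoundedOrder
import Fermat.Agent.H77.DsSemisimplify
import Fermat.Agent.H98.DS.EisCongrFinal

/-!
# P-DS (S48): assembly of everything landed so far (helper74)

* `irredStatement : IrredStatement` — **unconditional** (sharp Rankin bound of helper44/helper95/
  helper41 + Chebotarev density theorem of P-CHEB phase 2 + `irred_of_rankin_cheb`).
* `boundedOrder_of_block1 : FiniteConjStatement → IntegralStatement → BoundedOrderStatement`.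
* `modLRep_of_rest : NebentypusStatement → IntegralStatement → Gamma1ResidualStatement →
    ModLRepStatement`.
* `s48_of_rest : NebentypusStatement → IntegralStatement → FiniteConjStatement →
    Gamma1ResidualStatement → S48Statement`.
-/

set_option autoImplicit false

namespace Fermat.Agent.H74.DS

open Fermat.Agent.H20.DS

/-- **DS-E, unconditional.** -/
theorem irredStatement : IrredStatement :=
  irred_of_two Fermat.Agent.H44.ds_rankinSharpStatement
    Fermat.Agent.H62.Cheb2.Final.chebDensityDS

/-- **DS-C from block (1).** -/
theorem boundedOrder_of_block1 (hF : FiniteConjStatement) (hI : IntegralStatement) :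
    BoundedOrderStatement :=
  boundedOrder_of_parts
    (Fermat.Agent.H58.fewValues_of_parts Fermat.Agent.H44.ds_eulerLogStatement hF hI)
    Fermat.Agent.H62.Cheb2.Final.chebDensityDS boundedImageStatement

/-- **DS-A from DS-0, DS-1b and DS-3.** -/
theorem modLRep_of_rest (h0 : NebentypusStatement) (hI : IntegralStatement)
    (h3 : Gamma1ResidualStatement) : ModLRepStatement :=
  modLRep_of_parts (Fermat.Agent.H98.DS.eisCongr h0 hI) h3 Fermat.Agent.H77.dss_semisimplify

/-- **S48 from the blocks that are still open**: DS-0 (nebentypus), DS-1 (integrality and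
finitely many conjugates) and DS-3 (Eichler–Shimura mod `ℓ` on `Γ₁(M)`). -/
theorem s48_of_rest (h0 : NebentypusStatement) (hI : IntegralStatement)
    (hF : FiniteConjStatement) (h3 : Gamma1ResidualStatement) : S48Statement :=
  s48_of_complexRep_irred
    (complexRep_of_two (modLRep_of_rest h0 hI h3) (boundedOrder_of_block1 hF hI))
    irredStatement

end Fermat.Agent.H74.DS
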