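import Fermat.Agent.H74.DSGlueBasic

/-!
# P-DS (S48) block (6): the glue (helper74)

`exists_artin_rep`: from a family of mod-`ℓ` representations with uniformly bounded image
(`RepFamily N a e`) and the weak Chebotarev theorem in power form (`H72.FrobPowStatement`,
landed), construct `ρ : G_ℚ → GL₂(ℂ)` of finite level, unramified outside `N`, with
`tr ρ(Frob_p) = a p`, `det ρ(Frob_p) = e p` for all `p ∤ N`.

No lifting to characteristic zero: all `r_ℓ` (for `ℓ` large) have the same kernel, and the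
complex representation of the common finite quotient is produced by `exists_complex_rep`
(Nullstellensatz).
-/

set_option autoImplicit false
set_option linter.unusedSectionVars false
set_option linter.style.haveILetI false

namespace Fermat.Agent.H74.DS

open Matrix

local notation "Γℚ" => (AlgebraicClosure ℚ ≃ₐ[ℚ] AlgebraicClosure ℚ)

section sets

variable (B : ℕ)

/-- The `B!`-th roots of unity among the algebraic integers. -/
noncomputable def rootSet : Finset Zbar := Polynomial.nthRootsFinset B.factorial (1 : Zbar)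

theorem mem_rootSet {ζ : Zbar} : ζ ∈ rootSet B ↔ ζ ^ B.factorial = 1 :=
  Polynomial.mem_nthRootsFinset (Nat.factorial_pos B) 1

/-- Sums of two `B!`-th roots of unity. -/
noncomputable def sumSet : Finset Zbar :=
  (rootSet B ×ˢ rootSet B).image fun p => p.1 + p.2

theorem add_mem_sumSet {ζ₁ ζ₂ : Zbar} (h1 : ζ₁ ^ B.factorial = 1) (h2 : ζ₂ ^ B.factorial = 1) :
    ζ₁ + ζ₂ ∈ sumSet B :=
  Finset.mem_image.mpr ⟨(ζ₁, ζ₂),
    Finset.mem_product.mpr ⟨(mem_rootSet B).mpr h1, (mem_rootSet B).mpr h2⟩, rfl⟩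

/-- All possible values of traces and determinants. -/
noncomputable def valSet : Finset Zbar := sumSet B ∪ rootSet B

theorem exists_threshold : ∃ T : ℕ, B ≤ T ∧ 2 ≤ T ∧
    ∀ {N : ℕ} {a e : ℕ → Zbar} {ℓ : ℕ} (R : ModRep N a e ℓ B), T < ℓ →
      Set.InjOn R.φ (valSet B : Set Zbar) := by
  obtain ⟨m, hm, hinj⟩ := exists_int_injOn (valSet B)
  refine ⟨max (max B 2) m.natAbs, le_trans (le_max_left _ _) (le_max_left _ _),
    le_trans (le_max_right _ _) (le_max_left _ _), ?_⟩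
  intro N a e ℓ R hℓ
  exact hinj R.k R.φ (R.intCast_ne_zero hm (lt_of_le_of_lt (le_max_right _ _) hℓ))

/-- The threshold beyond which all primes are good. -/
noncomputable def threshold : ℕ := (exists_threshold B).choose

theorem le_threshold : B ≤ threshold B := (exists_threshold B).choose_spec.1

theorem two_le_threshold : 2 ≤ threshold B := (exists_threshold B).choose_spec.2.1

theorem injOn_of_threshold {N : ℕ} {a e : ℕ → Zbar} {ℓ : ℕ} (R : ModRep N a e ℓ B)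
    (h : threshold B < ℓ) : Set.InjOn R.φ (valSet B : Set Zbar) :=
  (exists_threshold B).choose_spec.2.2 R h

end sets

section glue

variable {N : ℕ} {a e : ℕ → Zbar} {B : ℕ}

/-- **Step A.** The Hecke data at a prime `p ∤ N` (at which a Frobenius element exists) are
`ζ₁ + ζ₂`, `ζ₁ ζ₂` for `B!`-th roots of unity. -/
theorem hecke_values (hfam : ∀ t : ℕ, ∃ ℓ : ℕ, t < ℓ ∧ Nonempty (ModRep N a e ℓ B))
    {p : ℕ} (hp : p.Prime) (hpN : ¬ p ∣ N)
    (A : ValuationSubring (AlgebraicClosure ℚ)) (hA : A.LiesOverPrime p)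
    (σ : Γℚ) (hσ : A.IsFrobeniusAt σ p) :
    ∃ ζ₁ ζ₂ : Zbar, ζ₁ ^ B.factorial = 1 ∧ ζ₂ ^ B.factorial = 1 ∧
      a p = ζ₁ + ζ₂ ∧ e p = ζ₁ * ζ₂ := by
  obtain ⟨q, hq, h1, h2⟩ := exists_of_forall_int (rootSet B ×ˢ rootSet B)
    (fun q : Zbar × Zbar => a p - (q.1 + q.2)) (fun q => e p - q.1 * q.2) (by
      intro m hm
      obtain ⟨ℓ, hℓ, ⟨R⟩⟩ := hfam (max (max B p) m.natAbs)
      have hBℓ : B < ℓ := lt_of_le_of_lt (le_trans (le_max_left _ _) (le_max_left _ _)) hℓ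
      have hpℓ : p < ℓ := lt_of_le_of_lt (le_trans (le_max_right _ _) (le_max_left _ _)) hℓ
      have hmℓ : m.natAbs < ℓ := lt_of_le_of_lt (le_max_right _ _) hℓ
      obtain ⟨ζ₁, ζ₂, hζ₁, hζ₂, ht, hd⟩ := R.exists_roots hBℓ σ
      have hF := R.frob p hp (R.not_dvd_mul hp hpN hpℓ) A hA σ hσ
      refine ⟨R.k, inferInstance, R.φ, R.intCast_ne_zero hm hmℓ, (ζ₁, ζ₂),
        Finset.mem_product.mpr ⟨(mem_rootSet B).mpr hζ₁, (mem_rootSet B).mpr hζ₂⟩, ?_, ?_⟩
      · rw [map_sub, ← hF.1, ← ht, ModRep.mat_apply, sub_self]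
      · rw [map_sub, ← hF.2, ← hd, ModRep.mat_apply, sub_self])
  rw [Finset.mem_product, mem_rootSet, mem_rootSet] at hq
  exact ⟨q.1, q.2, hq.1, hq.2, sub_eq_zero.mp h1, sub_eq_zero.mp h2⟩

variable [NeZero N]

/-- **Step C0.** For every `h ∈ G_ℚ` the traces and determinants of `r h` and `r' h` are the
reductions of common elements of the finite sets `sumSet B`, `rootSet B`. -/
theorem exists_common_values (hFrob : Fermat.Agent.H72.FrobPowStatement)
    (hfam : ∀ t : ℕ, ∃ ℓ : ℕ, t < ℓ ∧ Nonempty (ModRep N a e ℓ B))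
    {ℓ ℓ' : ℕ} (R : ModRep N a e ℓ B) (R' : ModRep N a e ℓ' B) (hℓ : B < ℓ) (hℓ' : B < ℓ')
    (h : Γℚ) :
    ∃ y ∈ sumSet B, ∃ z ∈ rootSet B,
      (R.mat h).trace = R.φ y ∧ (R.mat h).det = R.φ z ∧
      (R'.mat h).trace = R'.φ y ∧ (R'.mat h).det = R'.φ z := by
  obtain ⟨L, hL, hL1⟩ := R.finiteLevel
  obtain ⟨L', hL', hL1'⟩ := R'.finiteLevel
  haveI := hL
  haveI := hL'
  have hF : FiniteDimensional ℚ ↥(L ⊔ L') := IntermediateField.finiteDimensional_sup L L'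
  obtain ⟨p, A, σ, k, j, hp, hpS, hA, hσ, h1, -⟩ :=
    hFrob (L ⊔ L') hF h (N * ℓ * ℓ').primeFactors
  have hne : N * ℓ * ℓ' ≠ 0 :=
    mul_ne_zero (mul_ne_zero (NeZero.ne N) (by omega)) (by omega)
  have hpn : ¬ p ∣ N * ℓ * ℓ' := fun hd => hpS (Nat.mem_primeFactors.mpr ⟨hp, hd, hne⟩)
  have hpN : ¬ p ∣ N := fun hd => hpn (dvd_mul_of_dvd_left (dvd_mul_of_dvd_left hd _) _)
  have hpNℓ : ¬ p ∣ N * ℓ := fun hd => hpn (dvd_mul_of_dvd_left hd _)
  have hpNℓ' : ¬ p ∣ N * ℓ' := fun hd => hpn (by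
    have : N * ℓ * ℓ' = N * ℓ' * ℓ := by ring
    rw [this]; exact dvd_mul_of_dvd_left hd _)
  obtain ⟨ζ₁, ζ₂, hζ₁, hζ₂, ha, he⟩ := hecke_values hfam hp hpN A hA σ hσ
  have hFr := R.frob p hp hpNℓ A hA σ hσ
  have hFr' := R'.frob p hp hpNℓ' A hA σ hσ
  have hr : R.mat h = R.mat σ ^ k := by
    rw [ModRep.mat_apply, ModRep.mat_apply, ← Units.val_pow_eq_pow_val]
    congr 1
    exact R.r_eq_pow_of_agree (F := L ⊔ L')
      (fun τ hτ => hL1 τ fun x hx => hτ x ((le_sup_left : L ≤ L ⊔ L') hx)) h1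
  have hr' : R'.mat h = R'.mat σ ^ k := by
    rw [ModRep.mat_apply, ModRep.mat_apply, ← Units.val_pow_eq_pow_val]
    congr 1
    exact R'.r_eq_pow_of_agree (F := L ⊔ L')
      (fun τ hτ => hL1' τ fun x hx => hτ x ((le_sup_right : L' ≤ L ⊔ L') hx)) h1
  have hζ₁k : (ζ₁ ^ k) ^ B.factorial = 1 := by rw [← pow_mul, mul_comm, pow_mul, hζ₁, one_pow]
  have hζ₂k : (ζ₂ ^ k) ^ B.factorial = 1 := by rw [← pow_mul, mul_comm, pow_mul, hζ₂, one_pow]
  have hzk : ((ζ₁ * ζ₂) ^ k) ^ B.factorial = 1 := by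
    rw [mul_pow, mul_pow, hζ₁k, hζ₂k, one_mul]
  refine ⟨ζ₁ ^ k + ζ₂ ^ k, add_mem_sumSet B hζ₁k hζ₂k, (ζ₁ * ζ₂) ^ k, (mem_rootSet B).mpr hzk,
    ?_, ?_, ?_, ?_⟩
  · rw [hr, trace_pow_of_trace_det (R.mat σ) (R.φ ζ₁) (R.φ ζ₂)
      (by rw [ModRep.mat_apply, hFr.1, ha, map_add])
      (by rw [ModRep.mat_apply, hFr.2, he, map_mul]) k, map_add, map_pow, map_pow]
  · rw [hr, Matrix.det_pow, ModRep.mat_apply, hFr.2, he, map_pow]
  · rw [hr', trace_pow_of_trace_det (R'.mat σ) (R'.φ ζ₁) (R'.φ ζ₂)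
      (by rw [ModRep.mat_apply, hFr'.1, ha, map_add])
      (by rw [ModRep.mat_apply, hFr'.2, he, map_mul]) k, map_add, map_pow, map_pow]
  · rw [hr', Matrix.det_pow, ModRep.mat_apply, hFr'.2, he, map_pow]

/-- **Step C.** For large `ℓ, ℓ'` the kernel of `r'` is contained in the kernel of `r`. -/
theorem ker_le (hFrob : Fermat.Agent.H72.FrobPowStatement)
    (hfam : ∀ t : ℕ, ∃ ℓ : ℕ, t < ℓ ∧ Nonempty (ModRep N a e ℓ B))
    {ℓ ℓ' : ℕ} (R : ModRep N a e ℓ B) (R' : ModRep N a e ℓ' B)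
    (hℓ : threshold B < ℓ) (hℓ' : threshold B < ℓ') {g : Γℚ} (hg : R'.r g = 1) :
    R.r g = 1 := by
  have hBℓ : B < ℓ := lt_of_le_of_lt (le_threshold B) hℓ
  have hBℓ' : B < ℓ' := lt_of_le_of_lt (le_threshold B) hℓ'
  have h2 : (2 : R.k) ≠ 0 := R.two_ne_zero (lt_of_le_of_lt (two_le_threshold B) hℓ)
  have key : ∀ h : Γℚ, (R.mat (g * h)).trace = (R.mat h).trace := by
    intro h
    obtain ⟨y, hy, z, -, h1, -, h3, -⟩ := exists_common_values hFrob hfam R R' hBℓ hBℓ' h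
    obtain ⟨y', hy', z', -, h1', -, h3', -⟩ :=
      exists_common_values hFrob hfam R R' hBℓ hBℓ' (g * h)
    have hgh : R'.mat (g * h) = R'.mat h := by
      rw [ModRep.mat_apply, ModRep.mat_apply, map_mul, hg, one_mul]
    have hyy : y' = y := by
      apply injOn_of_threshold B R' hℓ'
      · exact Finset.mem_coe.mpr (Finset.mem_union_left _ hy')
      · exact Finset.mem_coe.mpr (Finset.mem_union_left _ hy)
      · rw [← h3', ← h3, hgh]
    rw [h1', h1, hyy]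
  have hxA : R.mat g - 1 ∈ Fermat.Agent.H69.DS.spanAlg R.mat := by
    refine sub_mem (Fermat.Agent.H69.DS.map_mem_spanAlg R.mat g) ?_
    have := Fermat.Agent.H69.DS.map_mem_spanAlg R.mat 1
    rwa [map_one] at this
  have hx : ∀ h : Γℚ, ((R.mat g - 1) * R.mat h).trace = 0 := by
    intro h
    rw [sub_mul, one_mul, ← map_mul, Matrix.trace_sub, key h, sub_self]
  have h0 := Fermat.Agent.H69.DS.eq_zero_of_trace_mul_eq_zero R.mat h2 R.semisimple hxA hx
  apply Units.ext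
  have : R.mat g = 1 := sub_eq_zero.mp h0
  rw [ModRep.mat_apply] at this
  exact this

theorem ker_eq (hFrob : Fermat.Agent.H72.FrobPowStatement)
    (hfam : ∀ t : ℕ, ∃ ℓ : ℕ, t < ℓ ∧ Nonempty (ModRep N a e ℓ B))
    {ℓ ℓ' : ℕ} (R : ModRep N a e ℓ B) (R' : ModRep N a e ℓ' B)
    (hℓ : threshold B < ℓ) (hℓ' : threshold B < ℓ') : R.r.ker = R'.r.ker := by
  ext g
  rw [MonoidHom.mem_ker, MonoidHom.mem_ker]
  exact ⟨fun h => ker_le hFrob hfam R' R hℓ' hℓ h, fun h => ker_le hFrob hfam R R' hℓ hℓ' h⟩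

end glue

end Fermat.Agent.H74.DS
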