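import Fermat.Agent.H74.DSLefschetz

/-!
# P-DS (S48) block (6): roots of unity, traces of powers, reduction of finite sets (helper74)

Mathlib only.
* `exists_common_int_multiple`, `exists_int_injOn`: a finite set of algebraic integers is mapped
  injectively by every ring homomorphism to a field in which a certain nonzero integer does not
  vanish.
* `exists_of_forall_int`: elimination principle.
* `root_inj`, `exists_root_lift`: reduction is a bijection on `n`-th roots of unity when `n ≠ 0`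
  in the field.
* `exists_roots_of_pow_eq_one`: trace and determinant of a `2 × 2` matrix of finite order `n`
  are `φ (ζ₁ + ζ₂)`, `φ (ζ₁ ζ₂)` for `n`-th roots of unity `ζ₁, ζ₂` in characteristic zero.
* `trace_pow_of_trace_det`: `tr M^j = a^j + b^j` if `tr M = a + b`, `det M = a b`.
-/

set_option autoImplicit false
set_option linter.unusedSectionVars false

namespace Fermat.Agent.H74.DS

open Matrix

/-- A finite set of nonzero algebraic integers has a common nonzero integer multiple. -/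
theorem exists_common_int_multiple (D : Finset Zbar) (hD : ∀ d ∈ D, d ≠ 0) :
    ∃ m : ℤ, m ≠ 0 ∧ ∀ d ∈ D, ∃ y : Zbar, d * y = (m : Zbar) := by
  classical
  induction D using Finset.induction_on with
  | empty => exact ⟨1, one_ne_zero, by simp⟩
  | insert d D hd ih =>
    obtain ⟨m, hm, hmD⟩ := ih (fun x hx => hD x (Finset.mem_insert_of_mem hx))
    obtain ⟨y, m', hm', hy⟩ := exists_int_multiple d (hD d (Finset.mem_insert_self d D))
    refine ⟨m' * m, mul_ne_zero hm' hm, ?_⟩
    intro x hx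
    rcases Finset.mem_insert.mp hx with rfl | hx
    · exact ⟨y * (m : Zbar), by rw [← mul_assoc, hy]; push_cast; ring⟩
    · obtain ⟨z, hz⟩ := hmD x hx
      exact ⟨z * (m' : Zbar), by rw [← mul_assoc, hz]; push_cast; ring⟩

/-- If `d` divides the integer `m` in `Zbar` and `φ d = 0` then `m = 0` in the target. -/
theorem intCast_eq_zero_of_map_eq_zero {k : Type*} [CommRing k] (φ : Zbar →+* k) {d y : Zbar}
    {m : ℤ} (h : d * y = (m : Zbar)) (hd : φ d = 0) : (m : k) = 0 := by
  have := congrArg φ h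
  rw [map_mul, hd, zero_mul, map_intCast] at this
  exact this.symm

/-- A finite set of algebraic integers is mapped injectively to every field in which a certain
nonzero integer is nonzero. -/
theorem exists_int_injOn (Y : Finset Zbar) :
    ∃ m : ℤ, m ≠ 0 ∧ ∀ (k : Type) [Field k] (φ : Zbar →+* k), (m : k) ≠ 0 →
      Set.InjOn φ (Y : Set Zbar) := by
  classical
  set D : Finset Zbar := ((Y ×ˢ Y).filter fun p => p.1 ≠ p.2).image fun p => p.1 - p.2 with hD
  have hD0 : ∀ d ∈ D, d ≠ 0 := by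
    intro d hd
    rw [hD, Finset.mem_image] at hd
    obtain ⟨p, hp, rfl⟩ := hd
    rw [Finset.mem_filter] at hp
    exact sub_ne_zero.mpr hp.2
  obtain ⟨m, hm, hmD⟩ := exists_common_int_multiple D hD0
  refine ⟨m, hm, ?_⟩
  intro k _ φ hmk y hy y' hy' he
  by_contra hne
  have hmem : y - y' ∈ D := by
    rw [hD, Finset.mem_image]
    exact ⟨(y, y'), Finset.mem_filter.mpr ⟨Finset.mem_product.mpr ⟨hy, hy'⟩, hne⟩, rfl⟩
  obtain ⟨z, hz⟩ := hmD _ hmem
  exact hmk (intCast_eq_zero_of_map_eq_zero φ hz (by rw [map_sub, he, sub_self]))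

/-- **Elimination principle.**  Let `d₁ d₂ : ι → Zbar` on a finite index set `I`.  If for every
nonzero integer `m` there are a field `k` with `m ≠ 0` in `k`, a ring hom `φ` and an index
`i ∈ I` with `φ (d₁ i) = 0 = φ (d₂ i)`, then `d₁ i = 0 = d₂ i` for some `i ∈ I`. -/
theorem exists_of_forall_int {ι : Type*} (I : Finset ι) (d₁ d₂ : ι → Zbar)
    (h : ∀ m : ℤ, m ≠ 0 → ∃ (k : Type) (_ : Field k) (φ : Zbar →+* k),
      (m : k) ≠ 0 ∧ ∃ i ∈ I, φ (d₁ i) = 0 ∧ φ (d₂ i) = 0) :
    ∃ i ∈ I, d₁ i = 0 ∧ d₂ i = 0 := by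
  classical
  by_contra hno
  push Not at hno
  set D : Finset Zbar := I.image fun i => if d₁ i = 0 then d₂ i else d₁ i with hD
  have hD0 : ∀ d ∈ D, d ≠ 0 := by
    intro d hd
    rw [hD, Finset.mem_image] at hd
    obtain ⟨i, hi, rfl⟩ := hd
    split_ifs with h1
    · exact hno i hi h1
    · exact h1
  obtain ⟨m, hm, hmD⟩ := exists_common_int_multiple D hD0
  obtain ⟨k, _, φ, hmk, i, hi, h1, h2⟩ := h m hm
  obtain ⟨z, hz⟩ := hmD _ (Finset.mem_image_of_mem _ hi)
  apply hmk
  refine intCast_eq_zero_of_map_eq_zero φ hz ?_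
  split_ifs
  · exact h2
  · exact h1

section roots

variable {k : Type*} [Field k] (φ : Zbar →+* k)

/-- Reduction is injective on `n`-th roots of unity if `n ≠ 0` in the field. -/
theorem root_inj {n : ℕ} (hn : (n : k) ≠ 0) {ζ ζ' : Zbar} (h : ζ ^ n = 1) (h' : ζ' ^ n = 1)
    (he : φ ζ = φ ζ') : ζ = ζ' := by
  by_contra hne
  have hn0 : n ≠ 0 := by rintro rfl; simp at hn
  -- `ξ = ζ' ζ⁻¹`
  set ξ : Zbar := ζ' * ζ ^ (n - 1) with hξ
  have hζ : ζ * ζ ^ (n - 1) = 1 := by rw [← pow_succ', Nat.sub_add_cancel (Nat.pos_of_ne_zero hn0), h]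
  have hξn : ξ ^ n = 1 := by
    rw [hξ, mul_pow, h', one_mul, ← pow_mul, mul_comm, pow_mul, h, one_pow]
  have hξ1 : ξ ≠ 1 := by
    intro h1
    apply hne
    have : ζ' = ζ' * (ζ * ζ ^ (n - 1)) := by rw [hζ, mul_one]
    rw [this, mul_comm ζ, ← mul_assoc, ← hξ, h1, one_mul]
  have hφξ : φ ξ = 1 := by
    rw [hξ, map_mul, ← he, ← map_mul, hζ, map_one]
  have hsum : ∑ i ∈ Finset.range n, ξ ^ i = 0 := by
    have := mul_neg_geom_sum ξ n
    have h2 : (1 - ξ) * ∑ i ∈ Finset.range n, ξ ^ i = 0 := by rw [this, hξn, sub_self]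
    rcases mul_eq_zero.mp h2 with h3 | h3
    · exact absurd (sub_eq_zero.mp h3).symm hξ1
    · exact h3
  have := congrArg φ hsum
  rw [map_sum, map_zero] at this
  simp only [map_pow, hφξ, one_pow, Finset.sum_const, Finset.card_range, nsmul_eq_mul,
    mul_one] at this
  exact hn this

/-- A primitive `n`-th root of unity among the algebraic integers. -/
theorem exists_primitiveRoot_Zbar {n : ℕ} (hn : n ≠ 0) : ∃ ζ : Zbar, IsPrimitiveRoot ζ n := by
  have h := Complex.isPrimitiveRoot_exp n hn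
  have hint : IsIntegral ℤ (Complex.exp (2 * Real.pi * Complex.I / n)) :=
    h.isIntegral (Nat.pos_of_ne_zero hn)
  exact ⟨⟨_, hint⟩, IsPrimitiveRoot.coe_submonoidClass_iff.mp h⟩

/-- Every `n`-th root of unity of the field is the reduction of one in characteristic zero. -/
theorem exists_root_lift {n : ℕ} (hn : (n : k) ≠ 0) {α : k} (hα : α ^ n = 1) :
    ∃ ζ : Zbar, ζ ^ n = 1 ∧ φ ζ = α := by
  have hn0 : n ≠ 0 := by rintro rfl; simp at hn
  obtain ⟨ζ₀, hζ₀⟩ := exists_primitiveRoot_Zbar hn0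
  have hprim : IsPrimitiveRoot (φ ζ₀) n := by
    refine IsPrimitiveRoot.mk_of_lt _ (Nat.pos_of_ne_zero hn0) ?_ ?_
    · rw [← map_pow, hζ₀.pow_eq_one, map_one]
    · intro l hl hln hl1
      have h1 : (ζ₀ ^ l) ^ n = 1 := by rw [← pow_mul, mul_comm, pow_mul, hζ₀.pow_eq_one, one_pow]
      have h2 : ζ₀ ^ l = 1 := by
        refine root_inj φ hn h1 (one_pow n) ?_
        rw [map_pow, hl1, map_one]
      exact hζ₀.pow_ne_one_of_pos_of_lt hl.ne' hln h2
  haveI : NeZero n := ⟨hn0⟩
  obtain ⟨i, _, hi⟩ := hprim.eq_pow_of_pow_eq_one hα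
  refine ⟨ζ₀ ^ i, ?_, by rw [map_pow, hi]⟩
  rw [← pow_mul, mul_comm, pow_mul, hζ₀.pow_eq_one, one_pow]

end roots

/-- Cayley–Hamilton for `2 × 2` matrices. -/
theorem sq_eq_trace_smul_sub_det {k : Type*} [CommRing k] (M : Matrix (Fin 2) (Fin 2) k) :
    M * M = M.trace • M - M.det • (1 : Matrix (Fin 2) (Fin 2) k) := by
  ext i j
  fin_cases i <;> fin_cases j <;>
    simp [Matrix.mul_apply, Fin.sum_univ_two, Matrix.trace_fin_two, Matrix.det_fin_two] <;> ring

/-- `tr M^j = a^j + b^j` if `tr M = a + b` and `det M = a b`. -/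
theorem trace_pow_of_trace_det {k : Type*} [CommRing k] (M : Matrix (Fin 2) (Fin 2) k) (a b : k)
    (ht : M.trace = a + b) (hd : M.det = a * b) (j : ℕ) : (M ^ j).trace = a ^ j + b ^ j := by
  induction j using Nat.strong_induction_on with
  | _ j ih =>
    match j, ih with
    | 0, _ => simp [Matrix.trace_fin_two]; norm_num
    | 1, _ => simpa using ht
    | (j + 2), ih =>
      have h0 := ih j (by omega)
      have h1 := ih (j + 1) (by omega)
      have hM : M ^ (j + 2) = M.trace • M ^ (j + 1) - M.det • M ^ j := by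
        rw [pow_add, pow_two, sq_eq_trace_smul_sub_det, mul_sub, Matrix.mul_smul, Matrix.mul_smul,
          mul_one, ← pow_succ]
      rw [hM, Matrix.trace_sub, Matrix.trace_smul, Matrix.trace_smul, h0, h1, ht, hd]
      simp only [smul_eq_mul]
      ring

section eigen

variable {k : Type*} [Field k] (φ : Zbar →+* k)

/-- A root of the characteristic polynomial of a `2 × 2` matrix with `M ^ n = 1` is an `n`-th
root of unity. -/
theorem pow_eq_one_of_charpoly_root {K : Type*} [Field K] (M : Matrix (Fin 2) (Fin 2) K) {n : ℕ}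
    (hM : M ^ n = 1) (α : K) (hα : α ^ 2 - M.trace * α + M.det = 0) : α ^ n = 1 := by
  have hdet : (M - α • (1 : Matrix (Fin 2) (Fin 2) K)).det = 0 := by
    rw [Matrix.det_fin_two]
    simp only [Matrix.sub_apply, Matrix.smul_apply, Matrix.one_apply_eq, smul_eq_mul, mul_one,
      Matrix.one_apply_ne (show (0 : Fin 2) ≠ 1 by decide),
      Matrix.one_apply_ne (show (1 : Fin 2) ≠ 0 by decide), mul_zero, sub_zero]
    have := hα
    rw [Matrix.trace_fin_two, Matrix.det_fin_two] at this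
    linear_combination this
  obtain ⟨v, hv0, hv⟩ := Matrix.exists_mulVec_eq_zero_iff.mpr hdet
  have hMv : M *ᵥ v = α • v := by
    rw [Matrix.sub_mulVec, Matrix.smul_mulVec, Matrix.one_mulVec] at hv
    exact sub_eq_zero.mp hv
  have hpow : ∀ j : ℕ, (M ^ j) *ᵥ v = α ^ j • v := by
    intro j
    induction j with
    | zero => simp
    | succ j ih =>
      rw [pow_succ, ← Matrix.mulVec_mulVec, hMv, Matrix.mulVec_smul, ih, smul_smul, pow_succ,
        mul_comm]
  have h1 := hpow n
  rw [hM, Matrix.one_mulVec] at h1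
  by_contra hne
  apply hv0
  have h2 : (1 - α ^ n) • v = 0 := by rw [sub_smul, one_smul, ← h1, sub_self]
  rcases smul_eq_zero.mp h2 with h3 | h3
  · exact absurd (sub_eq_zero.mp h3).symm hne
  · exact h3

/-- Trace and determinant of a `2 × 2` matrix of order dividing `n` over a field in which
`n ≠ 0` are reductions of `ζ₁ + ζ₂` and `ζ₁ ζ₂` for `n`-th roots of unity `ζ₁, ζ₂`. -/
theorem exists_roots_of_pow_eq_one {n : ℕ} (hn : (n : k) ≠ 0) (M : Matrix (Fin 2) (Fin 2) k)
    (hM : M ^ n = 1) :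
    ∃ ζ₁ ζ₂ : Zbar, ζ₁ ^ n = 1 ∧ ζ₂ ^ n = 1 ∧ M.trace = φ (ζ₁ + ζ₂) ∧ M.det = φ (ζ₁ * ζ₂) := by
  set K := AlgebraicClosure k
  set ι : k →+* K := algebraMap k K with hι
  have hιinj : Function.Injective ι := (algebraMap k K).injective
  set M' : Matrix (Fin 2) (Fin 2) K := M.map ι with hM'
  have hM'n : M' ^ n = 1 := by
    rw [hM', ← RingHom.mapMatrix_apply, ← map_pow, hM, map_one]
  have htr : M'.trace = ι M.trace := by
    rw [hM', Matrix.trace_fin_two, Matrix.trace_fin_two]; simp
  have hdet : M'.det = ι M.det := by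
    rw [hM', Matrix.det_fin_two, Matrix.det_fin_two]; simp
  -- a root of the characteristic polynomial
  obtain ⟨α, hα⟩ : ∃ α : K, α ^ 2 - M'.trace * α + M'.det = 0 := by
    have hdeg : (Polynomial.X ^ 2 - Polynomial.C M'.trace * Polynomial.X +
        Polynomial.C M'.det : Polynomial K).degree ≠ 0 := by
      have : (Polynomial.X ^ 2 - Polynomial.C M'.trace * Polynomial.X +
          Polynomial.C M'.det : Polynomial K).degree = 2 := by
        compute_degree!
      rw [this]; norm_num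
    obtain ⟨α, hα⟩ := IsAlgClosed.exists_root _ hdeg
    refine ⟨α, ?_⟩
    simpa [Polynomial.IsRoot] using hα
  set β : K := M'.trace - α with hβ
  have hβ' : β ^ 2 - M'.trace * β + M'.det = 0 := by
    rw [hβ]; linear_combination hα
  have hαn := pow_eq_one_of_charpoly_root M' hM'n α hα
  have hβn := pow_eq_one_of_charpoly_root M' hM'n β hβ'
  have hnK : ((n : ℕ) : K) ≠ 0 := by
    have : ((n : ℕ) : K) = ι (n : k) := by simp
    rw [this]
    exact fun h => hn (hιinj (by rw [h, map_zero]))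
  obtain ⟨ζ₁, hζ₁, h1⟩ := exists_root_lift (ι.comp φ) hnK hαn
  obtain ⟨ζ₂, hζ₂, h2⟩ := exists_root_lift (ι.comp φ) hnK hβn
  refine ⟨ζ₁, ζ₂, hζ₁, hζ₂, ?_, ?_⟩
  · apply hιinj
    rw [← htr, map_add, map_add]
    rw [RingHom.comp_apply] at h1 h2
    rw [h1, h2, hβ]; ring
  · apply hιinj
    rw [← hdet, map_mul, map_mul]
    rw [RingHom.comp_apply] at h1 h2
    rw [h1, h2, hβ]; linear_combination hα

end eigen

end Fermat.Agent.H74.DS
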