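import Fermat.Agent.H74.DSMatrixSystem
import Fermat.Agent.H74.DSRoots
import Fermat.Agent.H69.DSBoundedImage
import Fermat.Agent.H72.FDT.Interfaces
import Fermat.Prelude.Def_GaloisRep_Residual

/-!
# P-DS (S48) block (6): the interface `ModRep` / `RepFamily` and basic consequences (helper74)

`ModRep N a e ℓ B` : a semisimple representation `r : G_ℚ → GL₂(k)`, `k` a field of
characteristic `ℓ`, of finite level, with image of order `≤ B`, unramified outside `N ℓ`, with
`tr r(Frob_p) = φ (a p)`, `det r(Frob_p) = φ (e p)` for `p ∤ N ℓ`, where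
`φ : integralClosure ℤ ℂ →+* k`.

`RepFamily N a e` : there is `B` such that `ModRep N a e ℓ B` is nonempty for arbitrarily large
`ℓ`.  This is what blocks (0)-(5) of the Deligne–Serre argument have to deliver.
-/

set_option autoImplicit false
set_option linter.unusedSectionVars false

namespace Fermat.Agent.H74.DS

open Matrix

local notation "Γℚ" => (AlgebraicClosure ℚ ≃ₐ[ℚ] AlgebraicClosure ℚ)

/-- A mod-`ℓ` representation attached to the Hecke data `(a, e)` away from `N ℓ`, with image of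
order at most `B`. -/
structure ModRep (N : ℕ) (a e : ℕ → Zbar) (ℓ B : ℕ) : Type 1 where
  /-- the coefficient field -/
  k : Type
  [instField : Field k]
  charP : CharP k ℓ
  /-- the reduction map -/
  φ : Zbar →+* k
  /-- the representation -/
  r : Γℚ →* GL (Fin 2) k
  finiteLevel : GaloisFactorsThroughFiniteLevel r
  semisimple : Fermat.Agent.H69.DS.IsSemisimpleRep
    ((Units.coeHom (Matrix (Fin 2) (Fin 2) k)).comp r)
  card_le : Nat.card r.range ≤ B
  unram : ∀ p : ℕ, p.Prime → ¬ p ∣ N * ℓ →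
    ∀ A : ValuationSubring (AlgebraicClosure ℚ), A.LiesOverPrime p →
      ∀ σ ∈ A.inertiaSubgroupIn ℚ, r σ = 1
  frob : ∀ p : ℕ, p.Prime → ¬ p ∣ N * ℓ →
    ∀ A : ValuationSubring (AlgebraicClosure ℚ), A.LiesOverPrime p →
      ∀ σ : Γℚ, A.IsFrobeniusAt σ p →
        ((r σ : GL (Fin 2) k) : Matrix (Fin 2) (Fin 2) k).trace = φ (a p) ∧
        ((r σ : GL (Fin 2) k) : Matrix (Fin 2) (Fin 2) k).det = φ (e p)

attribute [instance] ModRep.instField

/-- The output of blocks (0)-(5): mod-`ℓ` representations with uniformly bounded image for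
arbitrarily large `ℓ`. -/
def RepFamily (N : ℕ) (a e : ℕ → Zbar) : Prop :=
  ∃ B : ℕ, ∀ t : ℕ, ∃ ℓ : ℕ, t < ℓ ∧ Nonempty (ModRep N a e ℓ B)

/-- A homomorphism of finite level has finite range. -/
theorem finite_range_of_finiteLevel {M : Type} [Group M] (r : Γℚ →* M)
    (h : GaloisFactorsThroughFiniteLevel r) : Finite r.range := by
  obtain ⟨L, hL, h1⟩ := h
  have key : ∀ σ τ : Γℚ, (∀ x ∈ L, σ x = τ x) → r σ = r τ := by
    intro σ τ hστ
    have : r (τ⁻¹ * σ) = 1 := by
      apply h1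
      intro x hx
      rw [AlgEquiv.mul_apply, hστ x hx]
      exact τ.symm_apply_apply x
    rw [map_mul, map_inv, inv_mul_eq_one] at this
    exact this.symm
  let f : r.range → (L →ₐ[ℚ] AlgebraicClosure ℚ) := fun x =>
    (x.2.choose : Γℚ).toAlgHom.comp L.val
  have hf : Function.Injective f := by
    intro x y hxy
    apply Subtype.ext
    rw [← x.2.choose_spec, ← y.2.choose_spec]
    apply key
    intro z hz
    have := congrArg (fun g : L →ₐ[ℚ] AlgebraicClosure ℚ => g ⟨z, hz⟩) hxy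
    exact this
  exact Finite.of_injective f hf

namespace ModRep

variable {N : ℕ} {a e : ℕ → Zbar} {ℓ B : ℕ} (R : ModRep N a e ℓ B)

instance : CharP R.k ℓ := R.charP

/-- The matrix-valued homomorphism. -/
noncomputable def mat : Γℚ →* Matrix (Fin 2) (Fin 2) R.k :=
  (Units.coeHom (Matrix (Fin 2) (Fin 2) R.k)).comp R.r

@[simp] theorem mat_apply (σ : Γℚ) :
    R.mat σ = ((R.r σ : GL (Fin 2) R.k) : Matrix (Fin 2) (Fin 2) R.k) := rfl

theorem finite_range : Finite R.r.range := finite_range_of_finiteLevel R.r R.finiteLevel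

include R in
theorem prime (hℓ : ℓ ≠ 0) : ℓ.Prime :=
  (CharP.char_is_prime_or_zero R.k ℓ).resolve_right hℓ

theorem pow_factorial_eq_one (σ : Γℚ) : R.r σ ^ B.factorial = 1 := by
  haveI := R.finite_range
  have hpos : 0 < Nat.card R.r.range := Nat.card_pos
  have hdvd : orderOf (⟨R.r σ, σ, rfl⟩ : R.r.range) ∣ B.factorial :=
    (orderOf_dvd_natCard _).trans (Nat.dvd_factorial hpos R.card_le)
  have := orderOf_dvd_iff_pow_eq_one.mp hdvd
  exact congrArg Subtype.val this

theorem mat_pow_factorial_eq_one (σ : Γℚ) : R.mat σ ^ B.factorial = 1 := by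
  rw [mat_apply, ← Units.val_pow_eq_pow_val, R.pow_factorial_eq_one]
  rfl

theorem intCast_ne_zero {m : ℤ} (hm : m ≠ 0) (hlt : m.natAbs < ℓ) : (m : R.k) ≠ 0 := by
  intro h
  rw [CharP.intCast_eq_zero_iff R.k ℓ] at h
  have := Int.natAbs_dvd_natAbs.mpr h
  rw [Int.natAbs_natCast] at this
  have := Nat.le_of_dvd (Int.natAbs_pos.mpr hm) this
  omega

theorem two_ne_zero (h2 : 2 < ℓ) : (2 : R.k) ≠ 0 := by
  have := R.intCast_ne_zero (m := 2) (by norm_num) (by simpa using h2)
  exact_mod_cast this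

theorem factorial_ne_zero (hB : B < ℓ) : ((B.factorial : ℕ) : R.k) ≠ 0 := by
  intro h
  rw [CharP.cast_eq_zero_iff R.k ℓ] at h
  have hp := R.prime (by omega)
  have := (hp.dvd_factorial).mp h
  omega

/-- Trace and determinant of `r σ` are reductions of `ζ₁ + ζ₂`, `ζ₁ ζ₂` with `ζᵢ ^ B! = 1`. -/
theorem exists_roots (hB : B < ℓ) (σ : Γℚ) :
    ∃ ζ₁ ζ₂ : Zbar, ζ₁ ^ B.factorial = 1 ∧ ζ₂ ^ B.factorial = 1 ∧
      (R.mat σ).trace = R.φ (ζ₁ + ζ₂) ∧ (R.mat σ).det = R.φ (ζ₁ * ζ₂) :=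
  exists_roots_of_pow_eq_one R.φ (R.factorial_ne_zero hB) (R.mat σ)
    (R.mat_pow_factorial_eq_one σ)

include R in
/-- `p ∤ N ℓ` if `p ∤ N` and `p < ℓ`. -/
theorem not_dvd_mul {p : ℕ} (hp : p.Prime) (hpN : ¬ p ∣ N) (hpℓ : p < ℓ) : ¬ p ∣ N * ℓ := by
  intro h
  rcases (Nat.Prime.dvd_mul hp).mp h with h | h
  · exact hpN h
  · have hℓ := R.prime (by omega)
    have := (Nat.prime_dvd_prime_iff_eq hp hℓ).mp h
    omega

/-- If `g` and `σ ^ j` agree on a field of definition then `r g = r σ ^ j`. -/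
theorem r_eq_pow_of_agree {F : IntermediateField ℚ (AlgebraicClosure ℚ)}
    (hF : ∀ τ : Γℚ, (∀ x ∈ F, τ x = x) → R.r τ = 1) {g σ : Γℚ} {j : ℕ}
    (h : ∀ x ∈ F, g x = (σ ^ j) x) : R.r g = R.r σ ^ j := by
  have : R.r (g⁻¹ * σ ^ j) = 1 := by
    apply hF
    intro x hx
    rw [AlgEquiv.mul_apply, ← h x hx]
    exact g.symm_apply_apply x
  rw [map_mul, map_inv, inv_mul_eq_one, map_pow] at this
  exact this

end ModRep

end Fermat.Agent.H74.DS
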