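import Fermat.Agent.H74.DSGlueBasic
import Fermat.Prelude.Def_Deformations_MatrixRepresentation

/-!
# P-DS (S48) block DS-E, algebraic part (helper74)

* `isIrreducible_of_no_eigenvector` : a two-dimensional complex representation without a common
  eigenvector is irreducible (in the sense of `Representation.IsIrreducible`).
* `two_mul_card_le_sum_normSq_trace` : if a finite group `G ⊆ GL₂(ℂ)` has a common eigenvector
  then `2 |G| ≤ ∑_g |tr g|²`.
-/

set_option autoImplicit false
set_option linter.unusedSectionVars false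
set_option linter.style.haveILetI false

namespace Fermat.Agent.H74.DS

open Matrix

/-- A two-dimensional representation without a common eigenvector is irreducible. -/
theorem isIrreducible_of_no_eigenvector {G : Type} [Group G] (ρ : G →* GL (Fin 2) ℂ)
    (h : ∀ v : Fin 2 → ℂ, v ≠ 0 →
      ¬ ∀ g : G, ∃ c : ℂ, ((ρ g : GL (Fin 2) ℂ) : Matrix (Fin 2) (Fin 2) ℂ).mulVec v = c • v) :
    (Deformation.matrixRepresentation ρ).IsIrreducible := by
  have hbt : (⊥ : Subrepresentation (Deformation.matrixRepresentation ρ)) ≠ ⊤ := by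
    intro hEq
    have h1 := congrArg Subrepresentation.toSubmodule hEq
    exact bot_ne_top h1
  refine { exists_pair_ne := ⟨⊥, ⊤, hbt⟩, eq_bot_or_eq_top := fun W => ?_ }
  by_contra hW
  push Not at hW
  obtain ⟨hW0, hW1⟩ := hW
  have hS0 : W.toSubmodule ≠ ⊥ := fun hEq =>
    hW0 (Subrepresentation.toSubmodule_injective hEq)
  have hS1 : W.toSubmodule ≠ ⊤ := fun hEq =>
    hW1 (Subrepresentation.toSubmodule_injective hEq)
  have hfin : Module.finrank ℂ (Fin 2 → ℂ) = 2 := by simp
  have hlt : Module.finrank ℂ W.toSubmodule < 2 :=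
    lt_of_lt_of_eq (Submodule.finrank_lt hS1) hfin
  have hpos : 0 < Module.finrank ℂ W.toSubmodule := by
    rw [Module.finrank_pos_iff]
    exact (Submodule.nontrivial_iff_ne_bot).mpr hS0
  have h1 : Module.finrank ℂ W.toSubmodule = 1 := by omega
  obtain ⟨⟨v, hvW⟩, hv0, hspan⟩ := finrank_eq_one_iff'.mp h1
  have hv0' : v ≠ 0 := fun hEq => hv0 (Subtype.ext hEq)
  refine h v hv0' (fun g => ?_)
  have hmem : Deformation.matrixRepresentation ρ g v ∈ W.toSubmodule :=
    W.apply_mem_toSubmodule g hvW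
  obtain ⟨c, hc⟩ := hspan ⟨_, hmem⟩
  refine ⟨c, ?_⟩
  have h2 := congrArg Subtype.val hc
  simp only [Submodule.coe_smul] at h2
  rw [Deformation.matrixRepresentation_apply] at h2
  exact h2.symm

section eigen

variable {G : Type} [Group G] [Fintype G] (r : G →* GL (Fin 2) ℂ) (v : Fin 2 → ℂ)
  (c : G → ℂ)

/-- The trace of `r g` in terms of the eigenvalue on a common eigenvector. -/
theorem trace_mul_eigen (hv : v ≠ 0)
    (hc : ∀ g : G, ((r g : GL (Fin 2) ℂ) : Matrix (Fin 2) (Fin 2) ℂ).mulVec v = c g • v)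
    (g : G) :
    ((r g : GL (Fin 2) ℂ) : Matrix (Fin 2) (Fin 2) ℂ).trace * c g =
      c g ^ 2 + ((r g : GL (Fin 2) ℂ) : Matrix (Fin 2) (Fin 2) ℂ).det := by
  set M := ((r g : GL (Fin 2) ℂ) : Matrix (Fin 2) (Fin 2) ℂ) with hM
  have h1 : (M * M).mulVec v = (c g * c g) • v := by
    rw [← Matrix.mulVec_mulVec, hc g, Matrix.mulVec_smul, hc g, smul_smul]
  have h2 : (M * M).mulVec v = (M.trace * c g - M.det) • v := by
    rw [sq_eq_trace_smul_sub_det, Matrix.sub_mulVec, Matrix.smul_mulVec, Matrix.smul_mulVec,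
      hc g, Matrix.one_mulVec, smul_smul, sub_smul]
  have h3 : (c g * c g - (M.trace * c g - M.det)) • v = 0 := by
    rw [sub_smul, ← h1, ← h2, sub_self]
  rcases smul_eq_zero.mp h3 with h4 | h4
  · linear_combination -h4
  · exact absurd h4 hv

theorem eigen_one (hv : v ≠ 0)
    (hc : ∀ g : G, ((r g : GL (Fin 2) ℂ) : Matrix (Fin 2) (Fin 2) ℂ).mulVec v = c g • v) :
    c 1 = 1 := by
  have h1 := hc 1
  rw [map_one, Units.val_one, Matrix.one_mulVec] at h1
  have h2 : (c 1 - 1) • v = 0 := by rw [sub_smul, one_smul, ← h1, sub_self]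
  rcases smul_eq_zero.mp h2 with h3 | h3
  · linear_combination h3
  · exact absurd h3 hv

theorem eigen_mul (hv : v ≠ 0)
    (hc : ∀ g : G, ((r g : GL (Fin 2) ℂ) : Matrix (Fin 2) (Fin 2) ℂ).mulVec v = c g • v)
    (g h : G) : c (g * h) = c g * c h := by
  have h1 := hc (g * h)
  rw [map_mul, Units.val_mul, ← Matrix.mulVec_mulVec, hc h, Matrix.mulVec_smul, hc g,
    smul_smul] at h1
  have h2 : (c (g * h) - c g * c h) • v = 0 := by
    rw [sub_smul, ← h1, mul_comm, sub_self]
  rcases smul_eq_zero.mp h2 with h3 | h3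
  · linear_combination h3
  · exact absurd h3 hv

/-- The eigenvalue character. -/
noncomputable def eigenHom (hv : v ≠ 0)
    (hc : ∀ g : G, ((r g : GL (Fin 2) ℂ) : Matrix (Fin 2) (Fin 2) ℂ).mulVec v = c g • v) :
    G →* ℂ where
  toFun := c
  map_one' := eigen_one r v c hv hc
  map_mul' := eigen_mul r v c hv hc

/-- The determinant character. -/
noncomputable def detHom : G →* ℂ :=
  (Matrix.detMonoidHom (n := Fin 2) (R := ℂ)).comp
    ((Units.coeHom (Matrix (Fin 2) (Fin 2) ℂ)).comp r)

theorem detHom_apply (g : G) :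
    detHom r g = ((r g : GL (Fin 2) ℂ) : Matrix (Fin 2) (Fin 2) ℂ).det := rfl

/-- Values of characters of a finite group have norm one. -/
theorem norm_hom_eq_one (χ : G →* ℂ) (g : G) : ‖χ g‖ = 1 := by
  have h1 : χ g ^ Fintype.card G = 1 := by
    rw [← map_pow, pow_card_eq_one, map_one]
  exact Complex.norm_eq_one_of_pow_eq_one h1 Fintype.card_ne_zero

/-- The ratio character `χ₁ / χ₂ = χ₁² / det`. -/
noncomputable def ratioHom (χ d : G →* ℂ) : G →* ℂ where
  toFun := fun g => χ g ^ 2 * (d g)⁻¹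
  map_one' := by simp
  map_mul' := fun g h => by
    simp only [map_mul, mul_pow, mul_inv]
    ring

theorem re_sum_hom_nonneg (ψ : G →* ℂ) : 0 ≤ (∑ g : G, ψ g).re := by
  classical
  rw [sum_hom_units]
  split_ifs
  · simp
  · simp

/-- If all `r g` have a common eigenvector then `2 |G| ≤ ∑_g |tr (r g)|²`. -/
theorem two_mul_card_le_sum_normSq_trace (hv : v ≠ 0)
    (hc : ∀ g : G, ∃ c : ℂ,
      ((r g : GL (Fin 2) ℂ) : Matrix (Fin 2) (Fin 2) ℂ).mulVec v = c • v) :
    2 * (Fintype.card G : ℝ) ≤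
      ∑ g : G, ‖((r g : GL (Fin 2) ℂ) : Matrix (Fin 2) (Fin 2) ℂ).trace‖ ^ 2 := by
  choose c hc using hc
  set χ := eigenHom r v c hv hc with hχ
  set d := detHom r with hd
  set ψ := ratioHom χ d with hψ
  have hχn : ∀ g, ‖c g‖ = 1 := fun g => norm_hom_eq_one χ g
  have hdn : ∀ g, ‖d g‖ = 1 := fun g => norm_hom_eq_one d g
  have key : ∀ g : G, ‖((r g : GL (Fin 2) ℂ) : Matrix (Fin 2) (Fin 2) ℂ).trace‖ ^ 2 =
      2 + 2 * (ψ g).re := by
    intro g
    have hc0 : c g ≠ 0 := by
      intro h0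
      have := hχn g
      rw [h0, norm_zero] at this
      exact zero_ne_one this
    have hd0 : d g ≠ 0 := by
      intro h0
      have := hdn g
      rw [h0, norm_zero] at this
      exact zero_ne_one this
    have htr : ((r g : GL (Fin 2) ℂ) : Matrix (Fin 2) (Fin 2) ℂ).trace =
        c g + d g * (c g)⁻¹ := by
      have := trace_mul_eigen r v c hv hc g
      rw [← detHom_apply, ← hd] at this
      field_simp
      linear_combination this
    have hw : ‖d g * (c g)⁻¹‖ = 1 := by
      rw [norm_mul, norm_inv, hχn, hdn]; norm_num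
    have hconj : (starRingEnd ℂ) (d g * (c g)⁻¹) = c g * (d g)⁻¹ := by
      rw [← Complex.inv_eq_conj hw, mul_inv, inv_inv, mul_comm]
    rw [htr, Complex.sq_norm, Complex.normSq_add, ← Complex.sq_norm, ← Complex.sq_norm,
      hχn, hw, hconj]
    have : c g * (c g * (d g)⁻¹) = ψ g := by
      change _ = χ g ^ 2 * (d g)⁻¹
      change _ = c g ^ 2 * (d g)⁻¹
      ring
    rw [this]
    norm_num
  calc 2 * (Fintype.card G : ℝ) ≤ 2 * (Fintype.card G : ℝ) + 2 * (∑ g : G, ψ g).re := by
        have := re_sum_hom_nonneg ψ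
        linarith
    _ = ∑ g : G, (2 + 2 * (ψ g).re) := by
        rw [Finset.sum_add_distrib, Finset.sum_const, Finset.card_univ, nsmul_eq_mul,
          ← Finset.mul_sum, Complex.re_sum]
        ring
    _ = _ := Finset.sum_congr rfl (fun g _ => (key g).symm)

end eigen

end Fermat.Agent.H74.DS
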