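import Mathlib

/-!
# P-DS (S48) block (6), step (E): a Lefschetz-type principle (helper74)

`exists_complex_zero`: a system `F` of polynomial equations in finitely many variables with
coefficients in the ring `integralClosure ℤ ℂ` of algebraic integers which, for every nonzero
integer `m`, has a solution in some field `k` in which `m ≠ 0` (under some ring homomorphism
`φ : integralClosure ℤ ℂ →+* k`), has a solution in `ℂ`.

Proof: otherwise the Nullstellensatz (over the fraction field of the algebraic integers, with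
points in `ℂ`) gives `1 = ∑ g_f f`; clearing denominators, `C d = ∑ G_f f` with `d ≠ 0` an
algebraic integer, and `d` divides a nonzero integer `m`; evaluating at a solution in a field
where `m ≠ 0` gives `m = 0` there, a contradiction.

This replaces the lifting of mod-`ℓ` representations to characteristic `0` in the
Deligne–Serre argument.
-/

set_option autoImplicit false

namespace Fermat.Agent.H74.DS

open MvPolynomial

/-- The ring of algebraic integers inside `ℂ`. -/
abbrev Zbar : Subalgebra ℤ ℂ := integralClosure ℤ ℂ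

/-- Every nonzero algebraic integer divides a nonzero rational integer. -/
theorem exists_int_multiple (x : Zbar) (hx : x ≠ 0) :
    ∃ (y : Zbar) (m : ℤ), m ≠ 0 ∧ x * y = (m : Zbar) := by
  have hint : IsIntegral ℤ x := by
    have h := x.2
    exact (isIntegral_algebraMap_iff (A := Zbar) (B := ℂ) Subtype.val_injective).mp h
  obtain ⟨p, hpm, hpx⟩ := hint
  have hp0 : p ≠ 0 := hpm.ne_zero
  obtain ⟨q, hpq, hq⟩ := Polynomial.exists_eq_pow_rootMultiplicity_mul_and_not_dvd p hp0 0
  rw [map_zero, sub_zero] at hpq hq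
  have hq0 : q.coeff 0 ≠ 0 := fun h => hq (Polynomial.X_dvd_iff.mpr h)
  have hqx : Polynomial.aeval x q = 0 := by
    have h1 : Polynomial.aeval x p = 0 := by rw [Polynomial.aeval_def]; exact hpx
    rw [hpq, map_mul, map_pow, Polynomial.aeval_X] at h1
    rcases mul_eq_zero.mp h1 with h | h
    · exact absurd (eq_zero_of_pow_eq_zero h) hx
    · exact h
  have hdiv := Polynomial.divX_mul_X_add q
  refine ⟨-(Polynomial.aeval x q.divX), q.coeff 0, hq0, ?_⟩
  have h1 : Polynomial.aeval x (q.divX * Polynomial.X + Polynomial.C (q.coeff 0)) = 0 := by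
    rw [hdiv, hqx]
  rw [map_add, map_mul, Polynomial.aeval_X, Polynomial.aeval_C] at h1
  have h2 : algebraMap ℤ Zbar (q.coeff 0) = ((q.coeff 0 : ℤ) : Zbar) := by
    simp
  rw [h2] at h1
  linear_combination -h1

section

variable {σ : Type*}

attribute [local instance] FractionRing.liftAlgebra

/-- Clearing denominators of a polynomial over the fraction field. -/
theorem exists_clear_denominators (a : MvPolynomial σ (FractionRing Zbar)) :
    ∃ (d : Zbar) (A : MvPolynomial σ Zbar), d ≠ 0 ∧
      MvPolynomial.map (algebraMap Zbar (FractionRing Zbar)) A =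
        C (algebraMap Zbar (FractionRing Zbar) d) * a := by
  induction a using MvPolynomial.induction_on with
  | C c =>
    obtain ⟨⟨x, s⟩, hxs⟩ := IsLocalization.surj (nonZeroDivisors Zbar) c
    refine ⟨s.1, C x, nonZeroDivisors.ne_zero s.2, ?_⟩
    rw [MvPolynomial.map_C, ← C_mul]
    congr 1
    simp only at hxs
    rw [← hxs, mul_comm]
  | add p q hp hq =>
    obtain ⟨d₁, A₁, hd₁, h₁⟩ := hp
    obtain ⟨d₂, A₂, hd₂, h₂⟩ := hq
    refine ⟨d₁ * d₂, C d₂ * A₁ + C d₁ * A₂, mul_ne_zero hd₁ hd₂, ?_⟩
    rw [map_add, map_mul, map_mul, h₁, h₂, MvPolynomial.map_C, MvPolynomial.map_C, map_mul, C_mul]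
    ring
  | mul_X p i hp =>
    obtain ⟨d, A, hd, h⟩ := hp
    refine ⟨d, A * X i, hd, ?_⟩
    rw [map_mul, h, MvPolynomial.map_X]
    ring

variable [Finite σ]

/-- **Lefschetz-type principle.** -/
theorem exists_complex_zero (F : Set (MvPolynomial σ Zbar))
    (h : ∀ m : ℤ, m ≠ 0 → ∃ (k : Type) (_ : Field k) (φ : Zbar →+* k) (x : σ → k),
        (m : k) ≠ 0 ∧ ∀ f ∈ F, eval₂ φ x f = 0) :
    ∃ x : σ → ℂ, ∀ f ∈ F, eval₂ (algebraMap Zbar ℂ) x f = 0 := by
  by_contra hno
  push Not at hno
  set K := FractionRing Zbar with hK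
  set ι : Zbar →+* K := algebraMap Zbar K with hι
  have hιinj : Function.Injective ι := IsFractionRing.injective Zbar K
  -- the ideal generated by the system over the fraction field
  set I : Ideal (MvPolynomial σ K) := Ideal.span ((MvPolynomial.map ι) '' F) with hI
  have hzero : zeroLocus ℂ I = ∅ := by
    rw [Set.eq_empty_iff_forall_notMem]
    intro x hx
    obtain ⟨f, hf, hfx⟩ := hno x
    apply hfx
    have h1 := hx (MvPolynomial.map ι f) (Ideal.subset_span ⟨f, hf, rfl⟩)
    rw [MvPolynomial.aeval_map_algebraMap] at h1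
    rw [← h1]
    simp [MvPolynomial.aeval_def]
  have htop : I = ⊤ := by
    have h1 := vanishingIdeal_zeroLocus_eq_radical (K := ℂ) I
    rw [hzero, vanishingIdeal_empty] at h1
    exact Ideal.radical_eq_top.mp h1.symm
  have hone : (1 : MvPolynomial σ K) ∈ I := by rw [htop]; trivial
  -- clearing denominators along the span
  have key : ∀ p ∈ I, ∃ (d : Zbar) (G : MvPolynomial σ Zbar), d ≠ 0 ∧ G ∈ Ideal.span F ∧
      MvPolynomial.map ι G = C (ι d) * p := by
    intro p hp
    induction hp using Submodule.span_induction with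
    | mem x hx =>
      obtain ⟨f, hf, rfl⟩ := hx
      exact ⟨1, f, one_ne_zero, Ideal.subset_span hf, by simp⟩
    | zero => exact ⟨1, 0, one_ne_zero, zero_mem _, by simp⟩
    | add x y _ _ hx hy =>
      obtain ⟨d₁, G₁, hd₁, hG₁, h₁⟩ := hx
      obtain ⟨d₂, G₂, hd₂, hG₂, h₂⟩ := hy
      refine ⟨d₁ * d₂, C d₂ * G₁ + C d₁ * G₂, mul_ne_zero hd₁ hd₂,
        add_mem (Ideal.mul_mem_left _ _ hG₁) (Ideal.mul_mem_left _ _ hG₂), ?_⟩
      rw [map_add, map_mul, map_mul, h₁, h₂, MvPolynomial.map_C, MvPolynomial.map_C, map_mul,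
        C_mul]
      ring
    | smul a x _ hx =>
      obtain ⟨d, G, hd, hG, h₁⟩ := hx
      obtain ⟨e, A, he, hA⟩ := exists_clear_denominators a
      refine ⟨e * d, A * G, mul_ne_zero he hd, Ideal.mul_mem_left _ _ hG, ?_⟩
      rw [map_mul, h₁, hA, map_mul, C_mul, smul_eq_mul]
      ring
  obtain ⟨d, G, hd, hG, hGd⟩ := key 1 hone
  have hGC : G = C d := by
    apply MvPolynomial.map_injective ι hιinj
    rw [hGd, mul_one, MvPolynomial.map_C]
  obtain ⟨y, m, hm, hdy⟩ := exists_int_multiple d hd
  have hCm : (C (m : Zbar) : MvPolynomial σ Zbar) ∈ Ideal.span F := by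
    have : (C (m : Zbar) : MvPolynomial σ Zbar) = C y * G := by
      rw [hGC, ← C_mul, ← hdy, mul_comm]
    rw [this]
    exact Ideal.mul_mem_left _ _ hG
  obtain ⟨k, _, φ, x, hmk, hx⟩ := h m hm
  have hker : Ideal.span F ≤ RingHom.ker (eval₂Hom φ x) := by
    rw [Ideal.span_le]
    intro f hf
    exact hx f hf
  have := hker hCm
  rw [RingHom.mem_ker, coe_eval₂Hom, eval₂_C, map_intCast] at this
  exact hmk this

end

end Fermat.Agent.H74.DS
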