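import Fermat.Agent.H74.DSLefschetz

/-!
# P-DS (S48) block (6), step (E'): from mod-`ℓ` representations to a complex representation
(helper74)

`exists_complex_rep`: let `G` be a finite group and `χ δ : G → integralClosure ℤ ℂ`.  If for every
nonzero integer `m` there are a field `k` with `m ≠ 0` in `k`, a ring homomorphism
`φ : integralClosure ℤ ℂ →+* k` and a homomorphism `r : G →* M₂(k)` with `tr r(g) = φ (χ g)` and
`det r(g) = φ (δ g)`, then there is `ρ : G →* GL₂(ℂ)` with `tr ρ(g) = χ g`, `det ρ(g) = δ g`.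

No lifting theory is used: the homomorphism condition is a polynomial system in the `4 |G|`
matrix entries and `exists_complex_zero` applies.
-/

set_option autoImplicit false
set_option linter.unusedSectionVars false

namespace Fermat.Agent.H74.DS

open MvPolynomial Matrix

variable {G : Type*} [Group G]

/-- The variables: the entries of the matrices `M_g`. -/
abbrev Var (G : Type*) := G × Fin 2 × Fin 2

/-- The equation `M_g M_h = M_{gh}` (entry `(i, j)`). -/
noncomputable def eqMul (g h : G) (i j : Fin 2) : MvPolynomial (Var G) Zbar :=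
  X (g, i, 0) * X (h, 0, j) + X (g, i, 1) * X (h, 1, j) - X (g * h, i, j)

/-- The equation `M_1 = 1` (entry `(i, j)`). -/
noncomputable def eqOne (i j : Fin 2) : MvPolynomial (Var G) Zbar :=
  X ((1 : G), i, j) - C (if i = j then 1 else 0)

/-- The equation `tr M_g = χ g`. -/
noncomputable def eqTr (χ : G → Zbar) (g : G) : MvPolynomial (Var G) Zbar :=
  X (g, 0, 0) + X (g, 1, 1) - C (χ g)

/-- The equation `det M_g = δ g`. -/
noncomputable def eqDet (δ : G → Zbar) (g : G) : MvPolynomial (Var G) Zbar :=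
  X (g, 0, 0) * X (g, 1, 1) - X (g, 0, 1) * X (g, 1, 0) - C (δ g)

/-- The polynomial system describing a two-dimensional representation of `G` with prescribed
traces and determinants. -/
def repSystem (χ δ : G → Zbar) : Set (MvPolynomial (Var G) Zbar) :=
  {f | (∃ g h i j, f = eqMul g h i j) ∨ (∃ i j, f = eqOne (G := G) i j) ∨
    (∃ g, f = eqTr χ g) ∨ (∃ g, f = eqDet δ g)}

section

variable {k : Type*} [CommRing k] (φ : Zbar →+* k)

/-- The matrices attached to a point. -/
def matOf (x : Var G → k) (g : G) : Matrix (Fin 2) (Fin 2) k :=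
  Matrix.of fun i j => x (g, i, j)

@[simp] theorem matOf_apply (x : Var G → k) (g : G) (i j : Fin 2) :
    matOf x g i j = x (g, i, j) := rfl

theorem eval_eqMul (x : Var G → k) (g h : G) (i j : Fin 2) :
    eval₂ φ x (eqMul g h i j) = (matOf x g * matOf x h) i j - matOf x (g * h) i j := by
  simp [eqMul, Matrix.mul_apply, Fin.sum_univ_two]

theorem eval_eqOne (x : Var G → k) (i j : Fin 2) :
    eval₂ φ x (eqOne (G := G) i j) = matOf x 1 i j - (1 : Matrix (Fin 2) (Fin 2) k) i j := by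
  simp only [eqOne, eval₂_sub, eval₂_X, eval₂_C, matOf_apply, Matrix.one_apply]
  split_ifs <;> simp

theorem eval_eqTr (x : Var G → k) (χ : G → Zbar) (g : G) :
    eval₂ φ x (eqTr χ g) = (matOf x g).trace - φ (χ g) := by
  simp [eqTr, Matrix.trace_fin_two]

theorem eval_eqDet (x : Var G → k) (δ : G → Zbar) (g : G) :
    eval₂ φ x (eqDet δ g) = (matOf x g).det - φ (δ g) := by
  simp [eqDet, Matrix.det_fin_two]

theorem isZero_of_rep (χ δ : G → Zbar) (r : G →* Matrix (Fin 2) (Fin 2) k)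
    (h : ∀ g, (r g).trace = φ (χ g) ∧ (r g).det = φ (δ g)) :
    ∀ f ∈ repSystem χ δ, eval₂ φ (fun v : Var G => r v.1 v.2.1 v.2.2) f = 0 := by
  have hm : ∀ g, matOf (fun v : Var G => r v.1 v.2.1 v.2.2) g = r g := by
    intro g; ext i j; rfl
  rintro f (⟨g, h', i, j, rfl⟩ | ⟨i, j, rfl⟩ | ⟨g, rfl⟩ | ⟨g, rfl⟩)
  · rw [eval_eqMul, hm, hm, hm, map_mul, sub_self]
  · rw [eval_eqOne, hm, map_one, sub_self]
  · rw [eval_eqTr, hm, (h g).1, sub_self]
  · rw [eval_eqDet, hm, (h g).2, sub_self]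

theorem rep_of_isZero (χ δ : G → Zbar) (x : Var G → k)
    (h : ∀ f ∈ repSystem χ δ, eval₂ φ x f = 0) :
    ∃ r : G →* Matrix (Fin 2) (Fin 2) k,
      ∀ g, (r g).trace = φ (χ g) ∧ (r g).det = φ (δ g) := by
  refine ⟨⟨⟨matOf x, ?_⟩, ?_⟩, fun g => ⟨?_, ?_⟩⟩
  · ext i j
    have := h _ (Or.inr (Or.inl ⟨i, j, rfl⟩))
    rw [eval_eqOne] at this
    exact sub_eq_zero.mp this
  · intro g h'
    ext i j
    have := h _ (Or.inl ⟨g, h', i, j, rfl⟩)
    rw [eval_eqMul] at this
    exact (sub_eq_zero.mp this).symm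
  · have := h _ (Or.inr (Or.inr (Or.inl ⟨g, rfl⟩)))
    rw [eval_eqTr] at this
    exact sub_eq_zero.mp this
  · have := h _ (Or.inr (Or.inr (Or.inr ⟨g, rfl⟩)))
    rw [eval_eqDet] at this
    exact sub_eq_zero.mp this

end

/-- **From representations in positive characteristics to a complex representation.** -/
theorem exists_complex_rep [Finite G] (χ δ : G → Zbar)
    (h : ∀ m : ℤ, m ≠ 0 → ∃ (k : Type) (_ : Field k) (φ : Zbar →+* k)
        (r : G →* Matrix (Fin 2) (Fin 2) k),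
        (m : k) ≠ 0 ∧ ∀ g, (r g).trace = φ (χ g) ∧ (r g).det = φ (δ g)) :
    ∃ ρ : G →* GL (Fin 2) ℂ,
      ∀ g, ((ρ g : GL (Fin 2) ℂ) : Matrix (Fin 2) (Fin 2) ℂ).trace = (χ g : ℂ) ∧
        ((ρ g : GL (Fin 2) ℂ) : Matrix (Fin 2) (Fin 2) ℂ).det = (δ g : ℂ) := by
  obtain ⟨x, hx⟩ := exists_complex_zero (repSystem χ δ) (by
    intro m hm
    obtain ⟨k, hk, φ, r, hmk, hr⟩ := h m hm
    exact ⟨k, hk, φ, fun v => r v.1 v.2.1 v.2.2, hmk, isZero_of_rep φ χ δ r hr⟩)
  obtain ⟨r, hr⟩ := rep_of_isZero (algebraMap Zbar ℂ) χ δ x hx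
  refine ⟨r.toHomUnits, fun g => ?_⟩
  rw [MonoidHom.coe_toHomUnits]
  exact hr g

end Fermat.Agent.H74.DS
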