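import Mathlib

/-!
# Joint eigenvectors of a commutative ring acting on a finite-dimensional space

* `exists_joint_eigenvector_set`: a set of pairwise commuting endomorphisms preserving a nonzero
  subspace has a joint eigenvector in it.
* `exists_eigencharacter_ker_le`: if a commutative ring `A` acts on a finite-dimensional space
  `V` over an algebraically closed field and `𝔭` is a prime ideal containing the kernel of the
  action, there is a joint eigenvector whose character `ψ : A →+* K` satisfies `ker ψ ≤ 𝔭`.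
-/

set_option autoImplicit false

namespace Fermat.Agent.H74

open Module

variable {K V : Type*} [Field K] [IsAlgClosed K] [AddCommGroup V] [Module K V]
  [FiniteDimensional K V]

theorem exists_joint_eigenvector_set (𝒞 : Set (End K V))
    (hcomm : ∀ S ∈ 𝒞, ∀ T ∈ 𝒞, Commute S T) :
    ∀ (d : ℕ) (W : Submodule K V), finrank K W = d → W ≠ ⊥ →
      (∀ T ∈ 𝒞, ∀ v ∈ W, T v ∈ W) →
      ∃ y ∈ W, y ≠ 0 ∧ ∀ T ∈ 𝒞, ∃ μ : K, T y = μ • y := by
  intro d
  induction d using Nat.strong_induction_on with
  | _ d ih =>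
    intro W hd hW hinv
    by_cases hsc : ∀ T ∈ 𝒞, ∃ μ : K, ∀ v ∈ W, T v = μ • v
    · obtain ⟨y, hyW, hy0⟩ := (Submodule.ne_bot_iff W).mp hW
      refine ⟨y, hyW, hy0, fun T hT => ?_⟩
      obtain ⟨μ, hμ⟩ := hsc T hT
      exact ⟨μ, hμ y hyW⟩
    · push_neg at hsc
      obtain ⟨T, hT, hTns⟩ := hsc
      -- an eigenvalue of `T` on `W`
      haveI : Nontrivial W := Submodule.nontrivial_iff_ne_bot.mpr hW
      obtain ⟨μ, hμ⟩ := Module.End.exists_eigenvalue (T.restrict (hinv T hT))
      obtain ⟨w, hw⟩ := hμ.exists_hasEigenvector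
      have hw0 : (w : V) ≠ 0 := fun h0 => hw.2 (Subtype.ext h0)
      have hwT : T (w : V) = μ • (w : V) := congrArg Subtype.val hw.apply_eq_smul
      let W' : Submodule K V := W ⊓ LinearMap.ker (T - μ • (1 : End K V))
      have hmem : ∀ v, v ∈ W' ↔ v ∈ W ∧ T v = μ • v := by
        intro v
        simp only [W', Submodule.mem_inf, LinearMap.mem_ker, LinearMap.sub_apply,
          LinearMap.smul_apply, Module.End.one_apply, sub_eq_zero]
      have hW'ne : W' ≠ ⊥ := by
        rw [Submodule.ne_bot_iff]
        exact ⟨w, (hmem w).mpr ⟨w.2, hwT⟩, hw0⟩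
      have hW'le : W' ≤ W := inf_le_left
      have hW'lt : W' < W := by
        refine lt_of_le_of_ne hW'le ?_
        intro heq
        obtain ⟨v, hvW, hv⟩ := hTns μ
        apply hv
        have : v ∈ W' := by rw [heq]; exact hvW
        exact ((hmem v).mp this).2
      have hfr : finrank K W' < d := by
        rw [← hd]
        exact Submodule.finrank_lt_finrank_of_lt hW'lt
      have hinv' : ∀ S ∈ 𝒞, ∀ v ∈ W', S v ∈ W' := by
        intro S hS v hv
        rw [hmem] at hv ⊢
        refine ⟨hinv S hS v hv.1, ?_⟩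
        have hc : T (S v) = S (T v) := by
          have := (hcomm T hT S hS).eq
          exact congrArg (fun f : End K V => f v) this
        rw [hc, hv.2, map_smul]
      obtain ⟨y, hyW', hy0, hy⟩ := ih _ hfr W' rfl hW'ne hinv'
      exact ⟨y, hW'le hyW', hy0, hy⟩

/-- The character of a joint eigenvector, as a ring homomorphism. -/
theorem exists_character_of_joint_eigenvector {A : Type*} [CommRing A]
    (ρ : A →+* End K V) (y : V) (hy0 : y ≠ 0) (hy : ∀ t : A, ∃ μ : K, ρ t y = μ • y) :
    ∃ ψ : A →+* K, ∀ t : A, ρ t y = ψ t • y := by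
  classical
  choose ψ hψ using hy
  have huniq : ∀ a b : K, a • y = b • y → a = b := by
    intro a b hab
    by_contra hne
    have : (a - b) • y = 0 := by rw [sub_smul, hab, sub_self]
    rcases smul_eq_zero.mp this with h | h
    · exact hne (sub_eq_zero.mp h)
    · exact hy0 h
  refine ⟨{ toFun := ψ, map_one' := ?_, map_mul' := ?_, map_zero' := ?_, map_add' := ?_ }, hψ⟩
  · apply huniq
    rw [← hψ 1, map_one, one_smul, Module.End.one_apply]
  · intro s t
    apply huniq
    rw [← hψ (s * t), map_mul, Module.End.mul_apply, hψ t, map_smul, hψ s, smul_smul, mul_comm]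
  · apply huniq
    rw [← hψ 0, map_zero, zero_smul, LinearMap.zero_apply]
  · intro s t
    apply huniq
    rw [← hψ (s + t), map_add, LinearMap.add_apply, hψ s, hψ t, add_smul]

theorem exists_eigencharacter_ker_le_aux {A : Type*} [CommRing A]
    (ρ : A →+* End K V) (𝔭 : Ideal A) [h𝔭 : 𝔭.IsPrime] :
    ∀ (d : ℕ) (W : Submodule K V), finrank K W = d →
      (∀ t : A, ∀ v ∈ W, ρ t v ∈ W) →
      (∀ s : A, (∀ v ∈ W, ρ s v = 0) → s ∈ 𝔭) →
      ∃ (ψ : A →+* K) (y : V), y ∈ W ∧ y ≠ 0 ∧ (∀ t : A, ρ t y = ψ t • y) ∧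
        RingHom.ker ψ ≤ 𝔭 := by
  intro d
  induction d using Nat.strong_induction_on with
  | _ d ih =>
    intro W hd hinv hann
    have hW : W ≠ ⊥ := by
      intro hbot
      have : (1 : A) ∈ 𝔭 := by
        apply hann
        intro v hv
        rw [hbot, Submodule.mem_bot] at hv
        rw [hv, map_zero]
      exact h𝔭.ne_top ((Ideal.eq_top_iff_one 𝔭).mpr this)
    -- a joint eigenvector in `W`
    obtain ⟨y₁, hy₁W, hy₁0, hy₁⟩ := exists_joint_eigenvector_set (Set.range ρ)
      (by
        rintro _ ⟨s, rfl⟩ _ ⟨t, rfl⟩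
        show ρ s * ρ t = ρ t * ρ s
        rw [← map_mul, ← map_mul, mul_comm])
      (finrank K W) W rfl hW
      (by rintro _ ⟨t, rfl⟩ v hv; exact hinv t v hv)
    obtain ⟨ψ₁, hψ₁⟩ := exists_character_of_joint_eigenvector ρ y₁ hy₁0
      (fun t => hy₁ (ρ t) ⟨t, rfl⟩)
    by_cases hker : RingHom.ker ψ₁ ≤ 𝔭
    · exact ⟨ψ₁, y₁, hy₁W, hy₁0, hψ₁, hker⟩
    · obtain ⟨t, htker, ht𝔭⟩ := Set.not_subset.mp hker
      have htψ : ψ₁ t = 0 := htker
      let W' : Submodule K V := W.map (ρ t)
      have hW'le : W' ≤ W := by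
        rintro _ ⟨v, hv, rfl⟩
        exact hinv t v hv
      have hinv' : ∀ s : A, ∀ v ∈ W', ρ s v ∈ W' := by
        rintro s _ ⟨v, hv, rfl⟩
        refine ⟨ρ s v, hinv s v hv, ?_⟩
        have : ρ t * ρ s = ρ s * ρ t := by rw [← map_mul, ← map_mul, mul_comm]
        exact congrArg (fun f : End K V => f v) this
      have hann' : ∀ s : A, (∀ v ∈ W', ρ s v = 0) → s ∈ 𝔭 := by
        intro s hs
        have hst : s * t ∈ 𝔭 := by
          apply hann
          intro v hv
          rw [map_mul, Module.End.mul_apply]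
          exact hs _ ⟨v, hv, rfl⟩
        rcases h𝔭.mem_or_mem hst with h | h
        · exact h
        · exact absurd h ht𝔭
      have hfr : finrank K W' < d := by
        rw [← hd]
        -- `ρ t` restricted to `W` is not injective, as it kills `y₁`
        have hrn := LinearMap.finrank_range_add_finrank_ker ((ρ t).domRestrict W)
        have hrange : LinearMap.range ((ρ t).domRestrict W) = W' := by
          ext v
          simp only [LinearMap.mem_range, LinearMap.domRestrict_apply, Subtype.exists,
            exists_prop, W', Submodule.mem_map]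
        have hkerpos : 0 < finrank K (LinearMap.ker ((ρ t).domRestrict W)) := by
          rw [Module.finrank_pos_iff_exists_ne_zero]
          refine ⟨⟨⟨y₁, hy₁W⟩, ?_⟩, ?_⟩
          · rw [LinearMap.mem_ker, LinearMap.domRestrict_apply]
            show ρ t y₁ = 0
            rw [hψ₁ t, htψ, zero_smul]
          · intro h0
            apply hy₁0
            have := congrArg (fun z : LinearMap.ker ((ρ t).domRestrict W) => ((z : W) : V)) h0
            exact this
        rw [hrange] at hrn
        omega
      obtain ⟨ψ, y, hyW', hy0, hy, hk⟩ := ih _ hfr W' rfl hinv' hann'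
      exact ⟨ψ, y, hW'le hyW', hy0, hy, hk⟩

/-- **Eigencharacter below a prime.** If a commutative ring `A` acts on a finite-dimensional
vector space `V` over an algebraically closed field, and `𝔭` is a prime ideal of `A` containing
the kernel of the action, then there is a joint eigenvector whose character has kernel
contained in `𝔭`. -/
theorem exists_eigencharacter_ker_le {A : Type*} [CommRing A]
    (ρ : A →+* End K V) (𝔭 : Ideal A) [h𝔭 : 𝔭.IsPrime] (h : RingHom.ker ρ ≤ 𝔭) :
    ∃ (ψ : A →+* K) (y : V), y ≠ 0 ∧ (∀ t : A, ρ t y = ψ t • y) ∧ RingHom.ker ψ ≤ 𝔭 := by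
  obtain ⟨ψ, y, -, hy0, hy, hk⟩ := exists_eigencharacter_ker_le_aux ρ 𝔭 (finrank K (⊤ : Submodule K V))
    ⊤ rfl (fun _ _ _ => Submodule.mem_top)
    (fun s hs => h (by
      rw [RingHom.mem_ker]
      ext v
      exact hs v Submodule.mem_top))
  exact ⟨ψ, y, hy0, hy, hk⟩

end Fermat.Agent.H74
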