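import Fermat.Agent.H74.HassePoint
import Fermat.Agent.H40.Hasse.Defs

/-!
# The Hasse relation for a general Weierstrass model over `ZMod ℓ` (helper74, P-S52 / WP-B→C)

`hasseRelation_zmod` : for a prime `ℓ ≥ 5` and ANY Weierstrass curve `E` over `ZMod ℓ` with
`Δ ≠ 0` (general form `a₁, …, a₆`), `Fermat.Agent.H40.HasseRelation E` holds, i.e.
`2 • (φ² P - a_ℓ φ P + ℓ P) = 0` for all points over all field extensions.

Proof: Mathlib's change of variables to short normal form is defined over `ZMod ℓ`, hence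
commutes with the coordinatewise Frobenius; point counts agree (`H46.vcPointEquiv`); then
`hassePoint_short`.
-/

set_option autoImplicit false
set_option linter.unusedSectionVars false

namespace Fermat.Agent.H74

open WeierstrassCurve WeierstrassCurve.Affine Polynomial
open Fermat.Agent.H38 Fermat.Agent.H46 Fermat.Agent.H40

section

variable {ℓ : ℕ} [Fact ℓ.Prime]

lemma natCast_ne_zero_zmod_of_lt {n : ℕ} (hn0 : 0 < n) (hn : n < ℓ) : ((n : ℕ) : ZMod ℓ) ≠ 0 := by
  intro h
  have := (ZMod.natCast_eq_zero_iff n ℓ).mp h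
  have := Nat.le_of_dvd hn0 this
  omega

lemma isShort_of_isShortNF {F : Type*} [Field F] (W : WeierstrassCurve F) [hW : W.IsShortNF] :
    IsShort W W.a₄ W.a₆ :=
  ⟨hW.a₁, hW.a₂, hW.a₃, rfl, rfl⟩

lemma IsShort.eq_shortCurve {F : Type*} [Field F] {W : WeierstrassCurve F} {a b : F}
    (hW : IsShort W a b) : W = shortCurve a b := by
  ext
  · exact hW.h₁
  · exact hW.h₂
  · exact hW.h₃
  · exact hW.h₄
  · exact hW.h₆

lemma IsShort.map {F L : Type*} [Field F] [Field L] {W : WeierstrassCurve F} {a b : F}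
    (hW : IsShort W a b) (φ : F →+* L) : IsShort (W.map φ) (φ a) (φ b) :=
  ⟨by simp [hW.h₁], by simp [hW.h₂], by simp [hW.h₃], by simp [hW.h₄], by simp [hW.h₆]⟩

variable {k : Type*} [Field k] [DecidableEq k] [Algebra (ZMod ℓ) k]

lemma pow_card_algebraMap (c : ZMod ℓ) : (algebraMap (ZMod ℓ) k c) ^ ℓ = algebraMap (ZMod ℓ) k c := by
  rw [← map_pow, ZMod.pow_card]

/-- The coordinatewise Frobenius commutes with a change of variables defined over `ZMod ℓ`. -/
lemma vcX_pow (C : VariableChange (ZMod ℓ)) (x : k) :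
    vcX (C.map (algebraMap (ZMod ℓ) k)) x ^ ℓ = vcX (C.map (algebraMap (ZMod ℓ) k)) (x ^ ℓ) := by
  have : CharP k ℓ := charP_of_injective_algebraMap (algebraMap (ZMod ℓ) k).injective ℓ
  simp only [vcX, VariableChange.map_u, VariableChange.map_r, Units.coe_map,
    MonoidHom.coe_coe]
  rw [add_pow_char, mul_pow, ← pow_mul, mul_comm 2 ℓ, pow_mul, pow_card_algebraMap,
    pow_card_algebraMap]

lemma vcY_pow (C : VariableChange (ZMod ℓ)) (x y : k) :
    vcY (C.map (algebraMap (ZMod ℓ) k)) x y ^ ℓ =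
      vcY (C.map (algebraMap (ZMod ℓ) k)) (x ^ ℓ) (y ^ ℓ) := by
  have : CharP k ℓ := charP_of_injective_algebraMap (algebraMap (ZMod ℓ) k).injective ℓ
  simp only [vcY, VariableChange.map_u, VariableChange.map_s, VariableChange.map_t,
    Units.coe_map, MonoidHom.coe_coe]
  rw [add_pow_char, add_pow_char, mul_pow, mul_pow, mul_pow, ← pow_mul, ← pow_mul,
    mul_comm 3 ℓ, mul_comm 2 ℓ, pow_mul, pow_mul, pow_card_algebraMap, pow_card_algebraMap,
    pow_card_algebraMap]

lemma pointCongr_pointCongr {K : Type*} [Field K] [DecidableEq K] {W W' : WeierstrassCurve K}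
    (h : W = W') (Q : W.toAffine.Point) : pointCongr h.symm (pointCongr h Q) = Q := by
  subst h; rfl

/-- Trace of Frobenius of a short curve in terms of the point count. -/
lemma traceOfFrobenius_of_isShort {W : WeierstrassCurve (ZMod ℓ)} {a b : ZMod ℓ}
    (hW : IsShort W a b) :
    W.traceOfFrobenius = (ℓ : ℤ) + 1 - (Nat.card (shortCurve a b).toAffine.Point : ℤ) := by
  rw [WeierstrassCurve.traceOfFrobenius, WeierstrassCurve.card, Nat.card_zmod, hW.eq_shortCurve]

/-- The Hasse relation for short curves, in `H40` vocabulary. -/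
lemma hasseOp_short_eq_zero (hℓ : ℓ ≠ 2) {W : WeierstrassCurve (ZMod ℓ)} {a b : ZMod ℓ}
    (hW : IsShort W a b) (hΔ : 4 * a ^ 3 + 27 * b ^ 2 ≠ 0) (Q : (W⁄k).Point) :
    (2 : ℤ) • hasseOp W k Q = 0 := by
  have hcard : Fintype.card (ZMod ℓ) = ℓ := ZMod.card ℓ
  cases Q with
  | zero =>
    rw [show (Point.zero : (W⁄k).Point) = 0 from rfl, map_zero, smul_zero]
  | some x y h =>
    have hS : IsShort (W.map (algebraMap (ZMod ℓ) k)) (algebraMap _ k a) (algebraMap _ k b) :=
      hW.map _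
    obtain ⟨h1, e1⟩ := frobPt_some W k h
    obtain ⟨h2, e2⟩ := frobPt_some W k h1
    rw [hcard] at h1
    have h2' : (W⁄k).Nonsingular (x ^ ℓ ^ 2) (y ^ ℓ ^ 2) := by
      have e : ∀ z : k, (z ^ Fintype.card (ZMod ℓ)) ^ Fintype.card (ZMod ℓ) = z ^ ℓ ^ 2 := by
        intro z; rw [hcard, ← pow_mul, sq]
      rw [← e x, ← e y]; exact h2
    have key := hassePoint_short hℓ (algebraMap (ZMod ℓ) k) a b hΔ hS h h1 h2'
    have eP1 : frobPt W k (Point.some x y h) = Point.some (x ^ ℓ) (y ^ ℓ) h1 := by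
      rw [e1]
      simp only [Point.some.injEq]
      exact ⟨by rw [hcard], by rw [hcard]⟩
    have eP2 : frobPt W k (frobPt W k (Point.some x y h)) =
        Point.some (x ^ ℓ ^ 2) (y ^ ℓ ^ 2) h2' := by
      rw [e1, e2]
      simp only [Point.some.injEq]
      exact ⟨by rw [hcard, ← pow_mul, sq], by rw [hcard, ← pow_mul, sq]⟩
    rw [hasseOp_apply, eP2, eP1, traceOfFrobenius_of_isShort hW, hcard]
    have : ((2 : ℕ) : ℤ) = 2 := by norm_num
    rw [← this, natCast_zsmul]
    exact key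

/-- The change of variables on points, base changed to `k`. -/
noncomputable def vcBase (C : VariableChange (ZMod ℓ)) (E : WeierstrassCurve (ZMod ℓ)) :
    ((C • E)⁄k).Point →+ (E⁄k).Point :=
  ((vcPointHom (C.map (algebraMap (ZMod ℓ) k)) (E.map (algebraMap (ZMod ℓ) k))).comp
    (pointCongr (map_variableChange E C (algebraMap (ZMod ℓ) k)).symm) :
    ((C • E).map (algebraMap (ZMod ℓ) k)).toAffine.Point →+
      (E.map (algebraMap (ZMod ℓ) k)).toAffine.Point)

lemma vcBase_zero (C : VariableChange (ZMod ℓ)) (E : WeierstrassCurve (ZMod ℓ)) :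
    vcBase (k := k) C E 0 = 0 := map_zero _

lemma vcBase_some (C : VariableChange (ZMod ℓ)) (E : WeierstrassCurve (ZMod ℓ)) {x y : k}
    (h : ((C • E)⁄k).Nonsingular x y) :
    ∃ h' : (E⁄k).Nonsingular (vcX (C.map (algebraMap (ZMod ℓ) k)) x)
        (vcY (C.map (algebraMap (ZMod ℓ) k)) x y),
      vcBase C E (Point.some x y h) = Point.some _ _ h' := by
  have h0 : ((C • E).map (algebraMap (ZMod ℓ) k)).toAffine.Nonsingular x y := h
  refine ⟨(vc_nonsingular (C.map (algebraMap (ZMod ℓ) k))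
    (E.map (algebraMap (ZMod ℓ) k)) x y).mp
      ((map_variableChange E C (algebraMap (ZMod ℓ) k)).symm ▸ h0), ?_⟩
  show (vcPointHom (C.map (algebraMap (ZMod ℓ) k)) (E.map (algebraMap (ZMod ℓ) k)))
    (pointCongr (map_variableChange E C (algebraMap (ZMod ℓ) k)).symm
      (Point.some x y h0)) = _
  rw [pointCongr_some]
  rfl

lemma vcBase_surjective (C : VariableChange (ZMod ℓ)) (E : WeierstrassCurve (ZMod ℓ)) :
    Function.Surjective (vcBase (k := k) C E) := by
  intro P
  obtain ⟨Q₀, hQ₀⟩ := vcPointFun_surjective (C.map (algebraMap (ZMod ℓ) k))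
    (E.map (algebraMap (ZMod ℓ) k)) P
  refine ⟨pointCongr (map_variableChange E C (algebraMap (ZMod ℓ) k)) Q₀, ?_⟩
  show (vcPointHom (C.map (algebraMap (ZMod ℓ) k)) (E.map (algebraMap (ZMod ℓ) k)))
    (pointCongr (map_variableChange E C (algebraMap (ZMod ℓ) k)).symm
      (pointCongr (map_variableChange E C (algebraMap (ZMod ℓ) k)) Q₀)) = _
  rw [pointCongr_pointCongr]
  exact hQ₀

lemma frobPt_vcBase (C : VariableChange (ZMod ℓ)) (E : WeierstrassCurve (ZMod ℓ))
    (Q : ((C • E)⁄k).Point) :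
    frobPt E k (vcBase C E Q) = vcBase C E (frobPt (C • E) k Q) := by
  have hcard : Fintype.card (ZMod ℓ) = ℓ := ZMod.card ℓ
  cases Q with
  | zero =>
    rw [show (Point.zero : ((C • E)⁄k).Point) = 0 from rfl, vcBase_zero, map_zero, map_zero,
      vcBase_zero]
  | some x y h =>
    obtain ⟨h1, e1⟩ := frobPt_some (C • E) k h
    obtain ⟨h2, e2⟩ := vcBase_some C E h
    obtain ⟨h3, e3⟩ := vcBase_some C E h1
    obtain ⟨h4, e4⟩ := frobPt_some E k h2
    rw [e1, e3, e2, e4]
    simp only [Point.some.injEq]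
    rw [hcard]
    exact ⟨vcX_pow C x, vcY_pow C x y⟩

/-- **The Hasse relation for an arbitrary Weierstrass model over `ZMod ℓ`, `ℓ ≥ 5`.** -/
theorem hasseRelation_zmod (hℓ : 5 ≤ ℓ) (E : WeierstrassCurve (ZMod ℓ)) (hΔ : E.Δ ≠ 0) :
    HasseRelation E := by
  intro k _ _ _ P
  have hp := (Fact.out : ℓ.Prime)
  have hℓ2 : ℓ ≠ 2 := by omega
  have h2 : (2 : ZMod ℓ) ≠ 0 := by
    have := natCast_ne_zero_zmod_of_lt (ℓ := ℓ) (n := 2) (by norm_num) (by omega)
    exact_mod_cast this
  have h3 : (3 : ZMod ℓ) ≠ 0 := by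
    have := natCast_ne_zero_zmod_of_lt (ℓ := ℓ) (n := 3) (by norm_num) (by omega)
    exact_mod_cast this
  letI : Invertible (2 : ZMod ℓ) := invertibleOfNonzero h2
  letI : Invertible (3 : ZMod ℓ) := invertibleOfNonzero h3
  obtain ⟨C, hC⟩ := E.exists_variableChange_isShortNF
  have hS : IsShort (C • E) (C • E).a₄ (C • E).a₆ := isShort_of_isShortNF (C • E)
  have hΔ' : 4 * (C • E).a₄ ^ 3 + 27 * (C • E).a₆ ^ 2 ≠ 0 := by
    intro h
    have h0 : (C • E).Δ = 0 := by
      conv_lhs => rw [hS.eq_shortCurve]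
      rw [shortCurve_Δ, h, mul_zero]
    rw [variableChange_Δ] at h0
    rcases mul_eq_zero.mp h0 with h | h
    · exact absurd h (pow_ne_zero _ (Units.ne_zero _))
    · exact hΔ h
  have htr : E.traceOfFrobenius = (C • E).traceOfFrobenius := by
    simp only [WeierstrassCurve.traceOfFrobenius, WeierstrassCurve.card]
    rw [Nat.card_congr (vcPointEquiv C E).toEquiv]
  have hop : ∀ Q : ((C • E)⁄k).Point,
      hasseOp E k (vcBase C E Q) = vcBase C E (hasseOp (C • E) k Q) := by
    intro Q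
    rw [hasseOp_apply, hasseOp_apply, frobPt_vcBase, frobPt_vcBase, map_add, map_sub,
      map_zsmul, map_zsmul, htr]
  obtain ⟨Q, rfl⟩ := vcBase_surjective C E P
  rw [hop, ← map_zsmul, hasseOp_short_eq_zero hℓ2 hS hΔ', map_zero]

end

end Fermat.Agent.H74
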