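import Fermat.Agent.H74.TwistFinal
import Fermat.Agent.H26.RatFuncSpec

/-!
# The Hasse relation on points (helper74, P-S52 / WP-B7)

For an odd prime `ℓ`, `E : y² = x³ + a x + b` over `ZMod ℓ` with `4a³ + 27b² ≠ 0`, any field
extension `L` of `ZMod ℓ` and any point `P = (x, y)` of `E(L)`:

`2 • (φ² P - a_ℓ • φ P + ℓ • P) = 0`, where `φ (x, y) = (x^ℓ, y^ℓ)`, `a_ℓ = ℓ + 1 - #E(𝔽_ℓ)`.

Proof: specialise the relation `twist_hasse_uncond` on the twist over `RatFunc (ZMod ℓ)` along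
`RatFunc (ZMod ℓ) → RatFunc L`, `t ↦ x` (helper26's `specHom`) and the change of variables
`u = y⁻¹`.
-/

set_option autoImplicit false
set_option linter.unusedSectionVars false

namespace Fermat.Agent.H74

open WeierstrassCurve WeierstrassCurve.Affine Polynomial
open Fermat.Agent.H38 Fermat.Agent.H46

section ratMap

variable {k L : Type*} [Field k] [Field L] (φ : k →+* L)

/-- The map `RatFunc k → RatFunc L` induced by a field homomorphism. -/
noncomputable def ratMap : RatFunc k →+* RatFunc L :=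
  RatFunc.liftRingHom ((algebraMap L[X] (RatFunc L)).comp (Polynomial.mapRingHom φ))
    (by
      intro p hp
      rw [Submonoid.mem_comap]
      have hp0 : p ≠ 0 := nonZeroDivisors.ne_zero hp
      apply mem_nonZeroDivisors_of_ne_zero
      simp only [RingHom.coe_comp, Function.comp_apply, Polynomial.coe_mapRingHom]
      apply RatFunc.algebraMap_ne_zero
      exact (Polynomial.map_ne_zero_iff φ.injective).mpr hp0)

lemma ratMap_algebraMap (p : k[X]) :
    ratMap φ (algebraMap k[X] (RatFunc k) p) = algebraMap L[X] (RatFunc L) (p.map φ) := by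
  simp [ratMap]

lemma ratMap_X : ratMap φ RatFunc.X = RatFunc.X := by
  have := ratMap_algebraMap φ (X : k[X])
  simpa using this

lemma ratMap_C (c : k) : ratMap φ (RatFunc.C c) = RatFunc.C (φ c) := by
  have := ratMap_algebraMap φ (C c : k[X])
  simpa using this

lemma ratMap_twF (a b : k) : ratMap φ (twF a b) = twF (φ a) (φ b) := by
  simp only [twF, map_add, map_mul, map_pow, ratMap_X, ratMap_C]

lemma map_ratMap_twCurve (a b : k) :
    (twCurve a b).map (ratMap φ) = twCurve (φ a) (φ b) := by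
  ext <;> simp [ratMap_C, ratMap_twF]

end ratMap

section congr

variable {K : Type*} [Field K]

lemma point_some_congr {W : WeierstrassCurve K} {x x' y y' : K} (hx : x = x') (hy : y = y')
    (h : W.toAffine.Nonsingular x y) :
    ∃ h' : W.toAffine.Nonsingular x' y', Point.some x y h = Point.some x' y' h' := by
  subst hx hy
  exact ⟨h, rfl⟩

end congr

section model

variable {L : Type*} [Field L] (a b : L)

/-- The cubic as a polynomial. -/
noncomputable def cubicPoly : L[X] := X ^ 3 + C a * X + C b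

lemma algebraMap_cubicPoly : algebraMap L[X] (RatFunc L) (cubicPoly a b) = twF a b := by
  simp [cubicPoly, twF]

lemma cubicPoly_eval (x : L) : (cubicPoly a b).eval x = x ^ 3 + a * x + b := by
  simp [cubicPoly]

/-- The polynomial model of the twist. -/
noncomputable def twPoly : WeierstrassCurve L[X] where
  a₁ := 0
  a₂ := 0
  a₃ := 0
  a₄ := C a * cubicPoly a b ^ 2
  a₆ := C b * cubicPoly a b ^ 3

lemma twPoly_map_algebraMap :
    (twPoly a b).map (algebraMap L[X] (RatFunc L)) = twCurve a b := by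
  ext <;> simp [twPoly, algebraMap_cubicPoly]

lemma twPoly_Δ : (twPoly a b).Δ = C (-16 * (4 * a ^ 3 + 27 * b ^ 2)) * cubicPoly a b ^ 6 := by
  simp only [WeierstrassCurve.Δ, WeierstrassCurve.b₂, WeierstrassCurve.b₄, WeierstrassCurve.b₆,
    WeierstrassCurve.b₈, twPoly, map_mul, map_neg, map_add, map_pow, map_ofNat]
  ring

/-- The change of variables `u = y⁻¹`. -/
noncomputable def specVC {y : L} (hy : y ≠ 0) : VariableChange L :=
  ⟨(Units.mk0 y hy)⁻¹, 0, 0, 0⟩

/-- A curve in short Weierstrass form `y² = x³ + a x + b`. -/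
structure IsShort (W : WeierstrassCurve L) (a b : L) : Prop where
  h₁ : W.a₁ = 0
  h₂ : W.a₂ = 0
  h₃ : W.a₃ = 0
  h₄ : W.a₄ = a
  h₆ : W.a₆ = b

lemma isShort_shortCurve : IsShort (shortCurve a b) a b := ⟨rfl, rfl, rfl, rfl, rfl⟩

lemma isShort_map {k : Type*} [Field k] (φ : k →+* L) (a b : k) :
    IsShort ((shortCurve a b).map φ) (φ a) (φ b) :=
  ⟨by simp [shortCurve], by simp [shortCurve], by simp [shortCurve], by simp [shortCurve],
    by simp [shortCurve]⟩

variable {a b}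

lemma IsShort.equation_iff {W : WeierstrassCurve L} (hW : IsShort W a b) (x y : L) :
    W.toAffine.Equation x y ↔ y ^ 2 = x ^ 3 + a * x + b := by
  rw [Affine.equation_iff, hW.h₁, hW.h₂, hW.h₃, hW.h₄, hW.h₆]
  simp

lemma IsShort.negY {W : WeierstrassCurve L} (hW : IsShort W a b) (x y : L) :
    W.toAffine.negY x y = -y := by
  simp [Affine.negY, hW.h₁, hW.h₃]

lemma twPoly_map_eval {W : WeierstrassCurve L} (hW : IsShort W a b) {x y : L} (hy : y ≠ 0)
    (hxy : y ^ 2 = x ^ 3 + a * x + b) :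
    (twPoly a b).map (Polynomial.evalRingHom x) = specVC hy • W := by
  have hf : (cubicPoly a b).eval x = y ^ 2 := by rw [cubicPoly_eval, hxy]
  ext
  · simp [twPoly, specVC, hW.h₁, variableChange_a₁]
  · simp [twPoly, specVC, hW.h₁, hW.h₂, variableChange_a₂]
  · simp [twPoly, specVC, hW.h₁, hW.h₃, variableChange_a₃]
  · simp only [map_a₄, twPoly, coe_evalRingHom, eval_mul, eval_C, eval_pow, hf,
      variableChange_a₄, specVC, hW.h₁, hW.h₂, hW.h₃, hW.h₄, inv_inv, Units.val_mk0]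
    ring
  · simp only [map_a₆, twPoly, coe_evalRingHom, eval_mul, eval_C, eval_pow, hf,
      variableChange_a₆, specVC, hW.h₁, hW.h₂, hW.h₃, hW.h₄, hW.h₆, inv_inv, Units.val_mk0]
    ring

end model

section spec

variable {ℓ : ℕ} [Fact ℓ.Prime] {L : Type*} [Field L] [DecidableEq L]
  [DecidableEq (RatFunc L)] [DecidableEq (RatFunc (ZMod ℓ))] (φ : ZMod ℓ →+* L)
  (a b : ZMod ℓ)

lemma twPoly_Δ_eval_ne_zero (hℓ : ℓ ≠ 2) (hΔ : 4 * a ^ 3 + 27 * b ^ 2 ≠ 0) {x y : L}
    (hy : y ≠ 0) (hxy : y ^ 2 = x ^ 3 + φ a * x + φ b) :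
    (twPoly (φ a) (φ b)).Δ.eval x ≠ 0 := by
  rw [twPoly_Δ, eval_mul, eval_C, eval_pow, cubicPoly_eval, ← hxy]
  refine mul_ne_zero ?_ (pow_ne_zero _ (pow_ne_zero _ hy))
  have h2 : (2 : L) ≠ 0 := by
    have := two_ne_zero_zmod hℓ
    intro h
    apply this
    apply φ.injective
    rw [map_ofNat, map_zero]; exact h
  have h16 : (16 : L) ≠ 0 := by
    have : (16 : L) = 2 ^ 4 := by norm_num
    rw [this]; exact pow_ne_zero _ h2
  have hΔ' : 4 * φ a ^ 3 + 27 * φ b ^ 2 ≠ 0 := by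
    intro h
    apply hΔ
    apply φ.injective
    rw [map_zero, ← h]
    simp only [map_add, map_mul, map_pow, map_ofNat]
  exact mul_ne_zero (neg_ne_zero.mpr h16) hΔ'

/-- The specialisation homomorphism from the twist over `RatFunc (ZMod ℓ)` to `E(L)` at the
point `(x, y)`, `y ≠ 0`. -/
noncomputable def twSpec {W : WeierstrassCurve L} (hW : IsShort W (φ a) (φ b)) (hℓ : ℓ ≠ 2)
    (hΔ : 4 * a ^ 3 + 27 * b ^ 2 ≠ 0) {x y : L}
    (hy : y ≠ 0) (hxy : y ^ 2 = x ^ 3 + φ a * x + φ b) :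
    (twCurve a b).toAffine.Point →+ W.toAffine.Point :=
  (vcPointHom (specVC hy) W).comp
    ((pointCongr (twPoly_map_eval hW hy hxy)).comp
      ((Fermat.Agent.H26.specHom (twPoly (φ a) (φ b)) x
          (twPoly_Δ_eval_ne_zero φ a b hℓ hΔ hy hxy)).comp
        ((pointCongr ((map_ratMap_twCurve φ a b).trans
            (twPoly_map_algebraMap (φ a) (φ b)).symm)).comp
          (pointMapHom (ratMap φ) (twCurve a b)))))

/-- Value of the specialisation on points with polynomial coordinates. -/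
lemma twSpec_some_poly {W : WeierstrassCurve L} (hW : IsShort W (φ a) (φ b)) (hℓ : ℓ ≠ 2)
    (hΔ : 4 * a ^ 3 + 27 * b ^ 2 ≠ 0) {x y : L}
    (hy : y ≠ 0) (hxy : y ^ 2 = x ^ 3 + φ a * x + φ b) {p q : (ZMod ℓ)[X]}
    (h : (twCurve a b).toAffine.Nonsingular (algebraMap _ (RatFunc (ZMod ℓ)) p)
      (algebraMap _ (RatFunc (ZMod ℓ)) q)) :
    ∃ h' : W.toAffine.Nonsingular ((p.map φ).eval x / y ^ 2)
        ((q.map φ).eval x / y ^ 3),
      twSpec φ a b hW hℓ hΔ hy hxy (.some _ _ h) = .some _ _ h' := by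
  simp only [twSpec, AddMonoidHom.comp_apply, pointMapHom_some, pointCongr_some]
  have hN : ((twPoly (φ a) (φ b)).map (algebraMap L[X] (RatFunc L))).toAffine.Nonsingular
      (ratMap φ (algebraMap _ (RatFunc (ZMod ℓ)) p))
      (ratMap φ (algebraMap _ (RatFunc (ZMod ℓ)) q)) := by
    have h0 := ((twCurve a b).toAffine.map_nonsingular (ratMap φ).injective _ _).mpr h
    have e : (twCurve a b).toAffine.map (ratMap φ) =
        ((twPoly (φ a) (φ b)).map (algebraMap L[X] (RatFunc L))).toAffine :=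
      (map_ratMap_twCurve φ a b).trans (twPoly_map_algebraMap (φ a) (φ b)).symm
    rw [e] at h0
    exact h0
  obtain ⟨hA, eA⟩ := point_some_congr (ratMap_algebraMap φ p) (ratMap_algebraMap φ q) hN
  rw [eA]
  obtain ⟨hB, eB⟩ := Fermat.Agent.H26.specHom_some_poly (twPoly (φ a) (φ b)) x
    (twPoly_Δ_eval_ne_zero φ a b hℓ hΔ hy hxy) hA
  rw [eB, pointCongr_some]
  have hC := (vc_nonsingular (specVC hy) W _ _).mp
    ((twPoly_map_eval hW hy hxy) ▸ hB)
  have e1 : vcX (specVC hy) ((p.map φ).eval x) = (p.map φ).eval x / y ^ 2 := by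
    simp only [vcX, specVC, Units.val_inv_eq_inv_val, Units.val_mk0, add_zero]
    field_simp
  have e2 : vcY (specVC hy) ((p.map φ).eval x) ((q.map φ).eval x) =
      (q.map φ).eval x / y ^ 3 := by
    simp only [vcY, specVC, Units.val_inv_eq_inv_val, Units.val_mk0, add_zero, mul_zero,
      zero_mul]
    field_simp
  obtain ⟨hD, eD⟩ := point_some_congr e1 e2 hC
  exact ⟨hD, eD⟩

/-- Points of the twist of the form `(r f, f^e)` with `r` a polynomial. -/
def IsPolyPoint (P : (twCurve a b).toAffine.Point) (r : (ZMod ℓ)[X]) (e : ℕ) : Prop :=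
  ∃ hns, P = Point.some (algebraMap _ (RatFunc (ZMod ℓ)) (r * cubicPoly a b))
    (algebraMap _ (RatFunc (ZMod ℓ)) (cubicPoly a b ^ e)) hns

lemma isPolyPoint_twGeneric (hℓ : ℓ ≠ 2) (hΔ : 4 * a ^ 3 + 27 * b ^ 2 ≠ 0) :
    IsPolyPoint a b (twGeneric a b (two_ne_zero_zmod hℓ) hΔ) X 2 := by
  have e1 : RatFunc.X * twF a b =
      algebraMap _ (RatFunc (ZMod ℓ)) (X * cubicPoly a b) := by
    rw [map_mul, algebraMap_cubicPoly, RatFunc.algebraMap_X]
  have e2 : twF a b ^ 2 = algebraMap _ (RatFunc (ZMod ℓ)) (cubicPoly a b ^ 2) := by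
    rw [map_pow, algebraMap_cubicPoly]
  obtain ⟨h', e⟩ := point_some_congr e1 e2
    ((equation_iff_nonsingular_of_Δ_ne_zero (W := (twCurve a b).toAffine)
      (twCurve_Δ_ne_zero a b (two_ne_zero_zmod hℓ) hΔ)).mp (twCurve_equation_generic a b))
  exact ⟨h', e⟩

lemma isPolyPoint_twFrob (hℓ : ℓ ≠ 2) {P : (twCurve a b).toAffine.Point} {r : (ZMod ℓ)[X]}
    {e e' : ℕ} (hP : IsPolyPoint a b P r e) (he : e * ℓ = 3 * ((ℓ - 1) / 2) + e') :
    IsPolyPoint a b (twFrob ℓ a b hℓ P) (r ^ ℓ) e' := by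
  obtain ⟨hns, rfl⟩ := hP
  obtain ⟨h', hF⟩ := twFrob_some hℓ hns
  have hf := twF_ne_zero a b
  have hℓ1 : ℓ = (ℓ - 1) + 1 := by
    have := (Fact.out : ℓ.Prime).one_lt
    omega
  have e1 : algebraMap _ (RatFunc (ZMod ℓ)) (r * cubicPoly a b) ^ ℓ / twF a b ^ (ℓ - 1) =
      algebraMap _ (RatFunc (ZMod ℓ)) (r ^ ℓ * cubicPoly a b) := by
    rw [map_mul, map_mul, map_pow, algebraMap_cubicPoly, mul_pow,
      div_eq_iff (pow_ne_zero _ hf)]
    have : twF a b ^ ℓ = twF a b * twF a b ^ (ℓ - 1) := by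
      rw [← pow_succ']
      exact congrArg (fun n => twF a b ^ n) hℓ1
    rw [this]; ring
  have e2 : algebraMap _ (RatFunc (ZMod ℓ)) (cubicPoly a b ^ e) ^ ℓ /
      twF a b ^ (3 * ((ℓ - 1) / 2)) = algebraMap _ (RatFunc (ZMod ℓ)) (cubicPoly a b ^ e') := by
    rw [map_pow, map_pow, algebraMap_cubicPoly, div_eq_iff (pow_ne_zero _ hf), ← pow_mul,
      ← pow_add, he, add_comm]
  obtain ⟨h'', e⟩ := point_some_congr e1 e2 h'
  exact ⟨h'', hF.trans e⟩

lemma cubicPoly_map (a b : ZMod ℓ) : (cubicPoly a b).map φ = cubicPoly (φ a) (φ b) := by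
  simp [cubicPoly]

lemma twSpec_isPolyPoint {W : WeierstrassCurve L} (hW : IsShort W (φ a) (φ b)) (hℓ : ℓ ≠ 2)
    (hΔ : 4 * a ^ 3 + 27 * b ^ 2 ≠ 0) {x y : L}
    (hy : y ≠ 0) (hxy : y ^ 2 = x ^ 3 + φ a * x + φ b)
    {P : (twCurve a b).toAffine.Point} {r : (ZMod ℓ)[X]} {e : ℕ} (hP : IsPolyPoint a b P r e)
    {x' y' : L} (hx' : (r.map φ).eval x = x') (hy' : y ^ (2 * e) = y' * y ^ 3)
    (hE : W.toAffine.Nonsingular x' y') :
    twSpec φ a b hW hℓ hΔ hy hxy P = Point.some x' y' hE := by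
  obtain ⟨hns, rfl⟩ := hP
  obtain ⟨h', hS⟩ := twSpec_some_poly φ a b hW hℓ hΔ hy hxy hns
  have hf : (cubicPoly (φ a) (φ b)).eval x = y ^ 2 := by rw [cubicPoly_eval, hxy]
  have e1 : ((r * cubicPoly a b).map φ).eval x / y ^ 2 = x' := by
    rw [Polynomial.map_mul, eval_mul, cubicPoly_map, hf, hx',
      mul_div_assoc, div_self (pow_ne_zero _ hy), mul_one]
  have e2 : ((cubicPoly a b ^ e).map φ).eval x / y ^ 3 = y' := by
    rw [Polynomial.map_pow, eval_pow, cubicPoly_map, hf, ← pow_mul, hy',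
      mul_div_assoc, div_self (pow_ne_zero _ hy), mul_one]
  obtain ⟨h'', e⟩ := point_some_congr e1 e2 h'
  exact hS.trans e

/-- **Hasse relation on points**, for any curve in short form over an extension of `ZMod ℓ`. -/
theorem hassePoint_of_isShort {W : WeierstrassCurve L} (hW : IsShort W (φ a) (φ b))
    (hℓ : ℓ ≠ 2) (hΔ : 4 * a ^ 3 + 27 * b ^ 2 ≠ 0) {x y : L}
    (h : W.toAffine.Nonsingular x y) (h1 : W.toAffine.Nonsingular (x ^ ℓ) (y ^ ℓ))
    (h2 : W.toAffine.Nonsingular (x ^ ℓ ^ 2) (y ^ ℓ ^ 2)) :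
    2 • (Point.some _ _ h2
        - ((ℓ : ℤ) + 1 - (Nat.card (shortCurve a b).toAffine.Point : ℤ)) • Point.some _ _ h1
        + (ℓ : ℤ) • Point.some _ _ h) = 0 := by
  have hp := (Fact.out : ℓ.Prime)
  by_cases hy : y = 0
  · subst hy
    have tors : ∀ {x' y' : L} (hns : W.toAffine.Nonsingular x' y'), y' = 0 →
        2 • Point.some x' y' hns = 0 := by
      intro x' y' hns hy'
      rw [two_nsmul]
      apply Point.add_self_of_Y_eq
      rw [hW.negY, hy', neg_zero]
    have hA := tors h2 (zero_pow (pow_ne_zero _ hp.ne_zero))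
    have hB := tors h1 (zero_pow hp.ne_zero)
    have hC := tors h rfl
    rw [nsmul_add, nsmul_sub, smul_comm (2 : ℕ), smul_comm (2 : ℕ) (ℓ : ℤ), hA, hB, hC]
    simp
  · have hxy : y ^ 2 = x ^ 3 + φ a * x + φ b := (hW.equation_iff x y).mp h.1
    set m := (ℓ - 1) / 2 with hm
    have hℓm : ℓ = 2 * m + 1 := by
      have := two_mul_half ℓ hℓ
      have := hp.one_lt
      omega
    have rel := congrArg (twSpec φ a b hW hℓ hΔ hy hxy)
      (twist_hasse_uncond hℓ hΔ (twGeneric a b (two_ne_zero_zmod hℓ) hΔ))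
    rw [map_nsmul, map_add, map_sub, map_zsmul, map_zsmul, map_zero] at rel
    have hP0 := isPolyPoint_twGeneric a b hℓ hΔ
    have hP1 : IsPolyPoint a b (twFrob ℓ a b hℓ (twGeneric a b (two_ne_zero_zmod hℓ) hΔ))
        (X ^ ℓ) (m + 2) := isPolyPoint_twFrob a b hℓ hP0 (by omega)
    have hP2 : IsPolyPoint a b (twFrob ℓ a b hℓ
        (twFrob ℓ a b hℓ (twGeneric a b (two_ne_zero_zmod hℓ) hΔ)))
        ((X ^ ℓ) ^ ℓ) (2 * m ^ 2 + 2 * m + 2) := by
      refine isPolyPoint_twFrob a b hℓ hP1 ?_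
      have : (m + 2) * ℓ = (m + 2) * (2 * m + 1) := congrArg (fun n => (m + 2) * n) hℓm
      rw [this, ← hm]; ring
    have e0 := twSpec_isPolyPoint φ a b hW hℓ hΔ hy hxy hP0 (x' := x) (y' := y)
      (by simp) (by ring) h
    have e1 := twSpec_isPolyPoint φ a b hW hℓ hΔ hy hxy hP1 (x' := x ^ ℓ) (y' := y ^ ℓ)
      (by simp) (by
        rw [← pow_add]
        exact congrArg (fun n => y ^ n) (by omega)) h1
    have e2 := twSpec_isPolyPoint φ a b hW hℓ hΔ hy hxy hP2 (x' := x ^ ℓ ^ 2)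
      (y' := y ^ ℓ ^ 2)
      (by
        simp only [Polynomial.map_pow, Polynomial.map_X, eval_pow, eval_X]
        rw [← pow_mul, sq])
      (by
        rw [← pow_add]
        refine congrArg (fun n => y ^ n) ?_
        have : ℓ ^ 2 = (2 * m + 1) ^ 2 := congrArg (fun n => n ^ 2) hℓm
        rw [this]; ring) h2
    rw [e0, e1, e2] at rel
    exact rel

end spec

section final

variable {ℓ : ℕ} [Fact ℓ.Prime] {L : Type*} [Field L] [DecidableEq L]

/-- **WP-B final statement: the Hasse relation on points.**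
For `E : y² = x³ + a x + b` over `ZMod ℓ` (`ℓ` odd, `4a³ + 27b² ≠ 0`), a field `L` with a
`ZMod ℓ`-algebra structure and a point `(x, y)` of `E(L)`:
`2 • (φ² P - a_ℓ • φ P + ℓ • P) = 0`. -/
theorem hassePoint (hℓ : ℓ ≠ 2) (a b : ZMod ℓ) (hΔ : 4 * a ^ 3 + 27 * b ^ 2 ≠ 0)
    [Algebra (ZMod ℓ) L] {x y : L}
    (h : ((shortCurve a b).map (algebraMap (ZMod ℓ) L)).toAffine.Nonsingular x y)
    (h1 : ((shortCurve a b).map (algebraMap (ZMod ℓ) L)).toAffine.Nonsingular (x ^ ℓ) (y ^ ℓ))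
    (h2 : ((shortCurve a b).map (algebraMap (ZMod ℓ) L)).toAffine.Nonsingular
      (x ^ ℓ ^ 2) (y ^ ℓ ^ 2)) :
    2 • (Point.some _ _ h2
        - ((ℓ : ℤ) + 1 - (Nat.card (shortCurve a b).toAffine.Point : ℤ)) • Point.some _ _ h1
        + (ℓ : ℤ) • Point.some _ _ h) = 0 := by
  classical
  exact hassePoint_of_isShort (algebraMap (ZMod ℓ) L) a b (isShort_map _ a b) hℓ hΔ h h1 h2

/-- The same for any curve over `L` in short form with coefficients coming from `ZMod ℓ`
(no `RatFunc` instances in the statement). -/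
theorem hassePoint_short (hℓ : ℓ ≠ 2) (φ : ZMod ℓ →+* L) (a b : ZMod ℓ)
    (hΔ : 4 * a ^ 3 + 27 * b ^ 2 ≠ 0) {W : WeierstrassCurve L} (hW : IsShort W (φ a) (φ b))
    {x y : L} (h : W.toAffine.Nonsingular x y) (h1 : W.toAffine.Nonsingular (x ^ ℓ) (y ^ ℓ))
    (h2 : W.toAffine.Nonsingular (x ^ ℓ ^ 2) (y ^ ℓ ^ 2)) :
    2 • (Point.some _ _ h2
        - ((ℓ : ℤ) + 1 - (Nat.card (shortCurve a b).toAffine.Point : ℤ)) • Point.some _ _ h1
        + (ℓ : ℤ) • Point.some _ _ h) = 0 := by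
  classical
  exact hassePoint_of_isShort φ a b hW hℓ hΔ h h1 h2

end final

end Fermat.Agent.H74
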