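import Mathlib

/-!
# Abstract height algebra (helper74, P-S52 / WP-B3 + WP-B6)

Pure abelian-group statements.

* `ParaLaw h` : the exact parallelogram law `h (P + Q) + h (P - Q) = 2 h P + 2 h Q`.
* `ParaLaw.pairing_add_left` etc. : the pairing `⟪P, Q⟫ = h (P + Q) - h P - h Q` is biadditive.
* `hasse_relation_of_height` : if `F` is an additive endomorphism with `h (F P) = ℓ h P` and
  `h (F P - P) = N h P`, then `h (F (F P) - a • F P + ℓ • P) = 0` for `a = ℓ + 1 - N`.
-/

set_option autoImplicit false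

namespace Fermat.Agent.H74

variable {G : Type*} [AddCommGroup G]

/-- The exact parallelogram law for an integer valued function on an abelian group. -/
def ParaLaw (h : G → ℤ) : Prop :=
  ∀ P Q : G, h (P + Q) + h (P - Q) = 2 * h P + 2 * h Q

/-- The pairing attached to a height. -/
def hpair (h : G → ℤ) (P Q : G) : ℤ := h (P + Q) - h P - h Q

namespace ParaLaw

variable {h : G → ℤ}

lemma map_zero (H : ParaLaw h) : h 0 = 0 := by
  have := H 0 0
  simp only [add_zero, sub_zero] at this
  linarith

lemma map_neg (H : ParaLaw h) (P : G) : h (-P) = h P := by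
  have := H 0 P
  simp only [zero_add, zero_sub, H.map_zero] at this
  linarith

lemma map_sub_comm (H : ParaLaw h) (P Q : G) : h (P - Q) = h (Q - P) := by
  rw [← H.map_neg (P - Q), neg_sub]

lemma hpair_comm (h : G → ℤ) (P Q : G) : hpair h P Q = hpair h Q P := by
  simp only [hpair, add_comm P Q]; ring

lemma hpair_self (H : ParaLaw h) (P : G) : hpair h P P = 2 * h P := by
  have := H P P
  simp only [sub_self, H.map_zero] at this
  simp only [hpair]; linarith

/-- Additivity of the pairing in the first variable. -/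
lemma hpair_add_left (H : ParaLaw h) (P R Q : G) :
    hpair h (P + R) Q = hpair h P Q + hpair h R Q := by
  have e1 := H (P + R) Q
  have e2 := H (P - Q) R
  have e3 := H (P + Q) R
  have e4 := H R Q
  have e5 := H P Q
  have a1 : P - Q + R = P + R - Q := by abel
  have a2 : P - Q - R = P - (R + Q) := by abel
  have a3 : P + Q + R = P + R + Q := by abel
  have a4 : P + Q - R = P - (R - Q) := by abel
  rw [a1, a2] at e2
  rw [a3, a4] at e3
  have e6 := H P (R + Q)
  have e7 := H P (R - Q)
  have a5 : P + (R + Q) = P + R + Q := by abel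
  have a6 : P + (R - Q) = P + R - Q := by abel
  rw [a5] at e6
  rw [a6] at e7
  simp only [hpair]
  linarith

lemma hpair_add_right (H : ParaLaw h) (P Q R : G) :
    hpair h P (Q + R) = hpair h P Q + hpair h P R := by
  rw [hpair_comm h P (Q + R), H.hpair_add_left, hpair_comm h Q P, hpair_comm h R P]

lemma hpair_zero_left (H : ParaLaw h) (Q : G) : hpair h 0 Q = 0 := by
  simp [hpair, H.map_zero]

lemma hpair_zero_right (H : ParaLaw h) (Q : G) : hpair h Q 0 = 0 := by
  simp [hpair, H.map_zero]

lemma hpair_neg_left (H : ParaLaw h) (P Q : G) : hpair h (-P) Q = - hpair h P Q := by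
  have := H.hpair_add_left P (-P) Q
  rw [add_neg_cancel, H.hpair_zero_left] at this
  linarith

lemma hpair_neg_right (H : ParaLaw h) (P Q : G) : hpair h P (-Q) = - hpair h P Q := by
  rw [hpair_comm h P (-Q), H.hpair_neg_left, hpair_comm h Q P]

lemma hpair_sub_left (H : ParaLaw h) (P R Q : G) :
    hpair h (P - R) Q = hpair h P Q - hpair h R Q := by
  rw [sub_eq_add_neg, H.hpair_add_left, H.hpair_neg_left]; ring

lemma hpair_sub_right (H : ParaLaw h) (P Q R : G) :
    hpair h P (Q - R) = hpair h P Q - hpair h P R := by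
  rw [sub_eq_add_neg, H.hpair_add_right, H.hpair_neg_right]; ring

/-- The pairing as a biadditive map. -/
noncomputable def pairingHom (H : ParaLaw h) : G →+ G →+ ℤ :=
  AddMonoidHom.mk' (fun P => AddMonoidHom.mk' (fun Q => hpair h P Q) (H.hpair_add_right P))
    (fun P R => by
      ext Q
      simp only [AddMonoidHom.mk'_apply, AddMonoidHom.add_apply]
      exact H.hpair_add_left P R Q)

@[simp] lemma pairingHom_apply (H : ParaLaw h) (P Q : G) : H.pairingHom P Q = hpair h P Q := rfl

lemma hpair_zsmul_left (H : ParaLaw h) (n : ℤ) (P Q : G) :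
    hpair h (n • P) Q = n * hpair h P Q := by
  calc hpair h (n • P) Q = H.pairingHom (n • P) Q := rfl
    _ = (n • H.pairingHom P) Q := by rw [map_zsmul]
    _ = n * hpair h P Q := by
      rw [AddMonoidHom.smul_apply, pairingHom_apply, smul_eq_mul]

lemma hpair_zsmul_right (H : ParaLaw h) (n : ℤ) (P Q : G) :
    hpair h P (n • Q) = n * hpair h P Q := by
  rw [hpair_comm h P (n • Q), H.hpair_zsmul_left, hpair_comm h Q P]

lemma map_add (_H : ParaLaw h) (P Q : G) : h (P + Q) = h P + h Q + hpair h P Q := by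
  simp only [hpair]; ring

lemma map_sub (H : ParaLaw h) (P Q : G) : h (P - Q) = h P + h Q - hpair h P Q := by
  have := H P Q
  simp only [hpair]; linarith

lemma map_zsmul (H : ParaLaw h) (n : ℤ) (P : G) : h (n • P) = n ^ 2 * h P := by
  have h1 := H.hpair_self (n • P)
  rw [H.hpair_zsmul_left, H.hpair_zsmul_right, H.hpair_self] at h1
  nlinarith [h1]

lemma map_nsmul (H : ParaLaw h) (n : ℕ) (P : G) : h (n • P) = (n : ℤ) ^ 2 * h P := by
  rw [← H.map_zsmul, natCast_zsmul]

end ParaLaw

/-- **Abstract Hasse relation.** Let `h` satisfy the exact parallelogram law, and let `F` be an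
additive endomorphism with `h (F P) = ℓ h P` and `h (F P - P) = N h P` for all `P`.  Then
`F² - a F + ℓ` has height zero on every point, where `a = ℓ + 1 - N`. -/
theorem height_hasse_eq_zero {h : G → ℤ} (H : ParaLaw h) (F : G →+ G) (ℓ N : ℤ)
    (hF : ∀ P, h (F P) = ℓ * h P) (hFsub : ∀ P, h (F P - P) = N * h P) (P : G) :
    h (F (F P) - (ℓ + 1 - N) • F P + ℓ • P) = 0 := by
  set a : ℤ := ℓ + 1 - N with ha
  -- `⟪F P, P⟫ = a h P`
  have hFP : ∀ Q, hpair h (F Q) Q = a * h Q := by
    intro Q
    have := H.map_sub (F Q) Q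
    rw [hFsub, hF] at this
    rw [ha]; linarith
  -- `⟪F P, F Q⟫ = ℓ ⟪P, Q⟫`
  have hFF : ∀ Q R, hpair h (F Q) (F R) = ℓ * hpair h Q R := by
    intro Q R
    simp only [hpair, ← map_add, hF]; ring
  -- polarisation
  have hpol : ∀ Q R, hpair h (F Q) R + hpair h (F R) Q = a * hpair h Q R := by
    intro Q R
    have := hFP (Q + R)
    rw [map_add, H.hpair_add_left, H.hpair_add_right, H.hpair_add_right, hFP, hFP,
      H.map_add] at this
    linarith
  have e1 : hpair h (F (F P)) P = a * (a * h P) - 2 * (ℓ * h P) := by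
    have := hpol (F P) P
    rw [hFP, H.hpair_self, hF] at this
    linarith
  have e2 : hpair h (F (F P)) (F P) = ℓ * (a * h P) := by rw [hFF, hFP]
  have e3 : h (F (F P)) = ℓ * (ℓ * h P) := by rw [hF, hF]
  have e4 : h (F (F P) - a • F P + ℓ • P) =
      h (F (F P)) + a ^ 2 * h (F P) + ℓ ^ 2 * h P - a * hpair h (F (F P)) (F P)
        + ℓ * hpair h (F (F P)) P - a * ℓ * hpair h (F P) P := by
    rw [H.map_add, H.map_sub, H.map_zsmul, H.map_zsmul, H.hpair_sub_left,
      H.hpair_zsmul_right, H.hpair_zsmul_right, H.hpair_zsmul_left, H.hpair_zsmul_right]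
    ring
  rw [e4, e3, e2, e1, hFP, hF]
  ring

/-- Version giving the `2`-torsion conclusion. -/
theorem two_nsmul_hasse_eq_zero {h : G → ℤ} (H : ParaLaw h) (F : G →+ G) (ℓ N : ℤ)
    (hF : ∀ P, h (F P) = ℓ * h P) (hFsub : ∀ P, h (F P - P) = N * h P)
    (h0 : ∀ P, h P = 0 → 2 • P = 0) (P : G) :
    2 • (F (F P) - (ℓ + 1 - N) • F P + ℓ • P) = 0 :=
  h0 _ (height_hasse_eq_zero H F ℓ N hF hFsub P)

end Fermat.Agent.H74
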