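import Mathlib
import Fermat.Prelude.Def_CuspForm_IntegralLattice
import Fermat.Prelude.Def_CuspForm_IntegralStructure
import Fermat.Prelude.Def_FormalHecke_Eigensystem
import Fermat.Prelude.Def_ModularForm_EisensteinChiNegThree
import Fermat.Prelude.Def_FLTPrelim_Modularity
import Fermat.Agent.H74.QCoeffBasics

/-!
# Preparations for the Deligne–Serre lifting lemma: congruences mod 3 and the integral lattice
-/

set_option autoImplicit false

namespace Fermat.Agent.H74

open CongruenceSubgroup UpperHalfPlane EisensteinWeightOne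
open scoped MatrixGroups

/-- `ℓ ≡ χ₋₃(ℓ) mod 3`. -/
theorem three_dvd_sub_chiNegThree (ℓ : ℕ) : (3 : ℤ) ∣ (ℓ : ℤ) - chiNegThree ℓ := by
  unfold chiNegThree
  have h := Nat.mod_lt ℓ (show 0 < 3 by norm_num)
  have hdiv := Nat.div_add_mod ℓ 3
  rcases Nat.lt_succ_iff_lt_or_eq.mp h with h2 | h2
  · rcases Nat.lt_succ_iff_lt_or_eq.mp h2 with h1 | h1
    · have h0 : ℓ % 3 = 0 := by omega
      rw [if_neg (by omega), if_neg (by omega)]
      omega
    · rw [if_pos h1]
      omega
  · rw [if_neg (by omega), if_pos h2]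
    omega

/-- The coefficients of `bridgeProduct a` are congruent to those of `a` modulo `3`. -/
theorem three_dvd_bridgeProduct_coeff_sub (a : ℕ → ℤ) (n : ℕ) :
    (3 : ℤ) ∣ PowerSeries.coeff n (bridgeProduct a) - a n := by
  have hE : e1Chi3In ℤ = 1 + PowerSeries.C (3 : ℤ) *
      PowerSeries.mk (fun n => if n = 0 then 0 else 2 * sigmaChi n) := by
    ext m
    simp only [e1Chi3In, e1Chi3, PowerSeries.coeff_map, PowerSeries.coeff_mk, map_add,
      PowerSeries.coeff_one, PowerSeries.coeff_C_mul, Int.coe_castRingHom, Int.cast_id]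
    by_cases hm : m = 0
    · simp [hm]
    · simp only [hm, if_false]
      ring
  unfold bridgeProduct
  rw [hE, mul_add, mul_one, map_add, PowerSeries.coeff_mk, add_sub_cancel_left,
    mul_left_comm, PowerSeries.coeff_C_mul]
  exact dvd_mul_right _ _

variable {N : ℕ}

/-- A cusp form has integral `q`-expansion. -/
def IntCoeff (f : CuspForm (Gamma0 N) 2) : Prop :=
  ∀ n : ℕ, ∃ m : ℤ, ModularFormClass.qCoeff f n = (m : ℂ)

theorem mem_intLattice_of_intCoeff {f : CuspForm (Gamma0 N) 2} (hf : IntCoeff f) :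
    f ∈ CuspForm.intLattice N 2 :=
  Submodule.subset_span hf

theorem intCoeff_of_mem_intLattice {f : CuspForm (Gamma0 N) 2}
    (hf : f ∈ CuspForm.intLattice N 2) : IntCoeff f := by
  unfold CuspForm.intLattice at hf
  induction hf using Submodule.span_induction with
  | mem x hx => exact hx
  | zero =>
    intro n
    refine ⟨0, ?_⟩
    have := qCoeff_smul_cusp (0 : ℂ) (0 : CuspForm (Gamma0 N) 2) n
    rw [zero_smul, zero_mul] at this
    rw [this, Int.cast_zero]
  | add x y _ _ hx hy =>
    intro n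
    obtain ⟨a, ha⟩ := hx n
    obtain ⟨b, hb⟩ := hy n
    refine ⟨a + b, ?_⟩
    rw [qCoeff_add_cusp, ha, hb, Int.cast_add]
  | smul c x _ hx =>
    intro n
    obtain ⟨a, ha⟩ := hx n
    refine ⟨c * a, ?_⟩
    have h1 : (c • x : CuspForm (Gamma0 N) 2) = (c : ℂ) • x := (Int.cast_smul_eq_zsmul ℂ c x).symm
    rw [h1, qCoeff_smul_cusp, ha, Int.cast_mul]

theorem intCoeff_of_mem_qIntegralSet {f : CuspForm (Gamma0 N) 2}
    (hf : f ∈ CuspForm.qIntegralSet N) : IntCoeff f := by
  intro n
  obtain ⟨m, hm⟩ := Subring.mem_bot.mp (hf n)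
  exact ⟨m, hm.symm⟩

theorem mem_qIntegralSet_of_intCoeff {f : CuspForm (Gamma0 N) 2}
    (hf : IntCoeff f) : f ∈ CuspForm.qIntegralSet N := by
  intro n
  obtain ⟨m, hm⟩ := hf n
  exact Subring.mem_bot.mpr ⟨m, hm.symm⟩

/-- `HasIntegralBasis N` implies the prelude's `HasIntegralStructure N 2`. -/
theorem hasIntegralStructure_of_hasIntegralBasis (h : CuspForm.HasIntegralBasis N) :
    CuspForm.HasIntegralStructure N 2 := by
  unfold CuspForm.HasIntegralStructure
  unfold CuspForm.HasIntegralBasis at h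
  rw [eq_top_iff, ← h]
  apply Submodule.span_mono
  intro f hf
  exact mem_intLattice_of_intCoeff (intCoeff_of_mem_qIntegralSet hf)

end Fermat.Agent.H74
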