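import Mathlib
import Fermat.Prelude.Def_CuspForm_HeckeLocal
import Fermat.Agent.H74.NormalizedEigenform
import Fermat.Agent.H74.EigenCharacter
import Fermat.Agent.H74.LiftPrep

/-!
# The mod-3 eigenvector and the prime ideal of the Hecke algebra it defines
-/

set_option autoImplicit false

namespace Fermat.Agent.H74

open CongruenceSubgroup UpperHalfPlane EisensteinWeightOne Module
open scoped MatrixGroups

variable {N : ℕ}

/-- The excluded set: all divisors of `N`. -/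
def levelSet (N : ℕ) : Set ℕ := {q | q ∣ N}

/-- Membership in `3 • L`, `L` the integral lattice. -/
def InThreeL (x : CuspForm (Gamma0 N) 2) : Prop :=
  ∃ g ∈ CuspForm.intLattice N 2, x = (3 : ℂ) • g

theorem InThreeL.add {x y : CuspForm (Gamma0 N) 2} (hx : InThreeL x) (hy : InThreeL y) :
    InThreeL (x + y) := by
  obtain ⟨g, hg, rfl⟩ := hx
  obtain ⟨g', hg', rfl⟩ := hy
  exact ⟨g + g', add_mem hg hg', (smul_add _ _ _).symm⟩

theorem InThreeL.zero : InThreeL (0 : CuspForm (Gamma0 N) 2) :=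
  ⟨0, zero_mem _, (smul_zero _).symm⟩

theorem InThreeL.int_smul {x : CuspForm (Gamma0 N) 2} (hx : InThreeL x) (c : ℤ) :
    InThreeL ((c : ℂ) • x) := by
  obtain ⟨g, hg, rfl⟩ := hx
  refine ⟨c • g, Submodule.smul_mem _ c hg, ?_⟩
  rw [← Int.cast_smul_eq_zsmul ℂ c g, smul_comm]

theorem InThreeL.neg {x : CuspForm (Gamma0 N) 2} (hx : InThreeL x) : InThreeL (-x) := by
  have := hx.int_smul (-1)
  simpa using this

theorem InThreeL.sub {x y : CuspForm (Gamma0 N) 2} (hx : InThreeL x) (hy : InThreeL y) :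
    InThreeL (x - y) := by
  rw [sub_eq_add_neg]
  exact hx.add hy.neg

theorem InThreeL.three_smul {g : CuspForm (Gamma0 N) 2} (hg : g ∈ CuspForm.intLattice N 2) :
    InThreeL ((3 : ℂ) • g) := ⟨g, hg, rfl⟩

theorem InThreeL.hecke [NeZero N] {S : Set ℕ} {x : CuspForm (Gamma0 N) 2} (hx : InThreeL x)
    {T : End ℂ (CuspForm (Gamma0 N) 2)} (hT : T ∈ CuspForm.heckeAlgebra N 2 S) :
    InThreeL (T x) := by
  obtain ⟨g, hg, rfl⟩ := hx
  exact ⟨T g, CuspForm.mem_intLattice_of_mem_heckeAlgebra one_le_two hT hg, map_smul _ _ _⟩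

end Fermat.Agent.H74

namespace Fermat.Agent.H74

open CongruenceSubgroup UpperHalfPlane EisensteinWeightOne Module
open scoped MatrixGroups

variable {N : ℕ}

theorem qCoeff_sub_cusp (f g : CuspForm (Gamma0 N) 2) (n : ℕ) :
    ModularFormClass.qCoeff (⇑(f - g : CuspForm (Gamma0 N) 2)) n =
      ModularFormClass.qCoeff f n - ModularFormClass.qCoeff g n := by
  have h : f - g = f + (-1 : ℂ) • g := by rw [neg_one_smul, sub_eq_add_neg]
  rw [h, qCoeff_add_cusp, qCoeff_smul_cusp]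
  ring

section data

variable {a : ℕ → ℤ} (f₀ : CuspForm (Gamma0 N) 2) (af : ℕ → ℤ)

/-- If `c • f₀ ∈ 3L` and `a₁(f₀) ≡ 1 mod 3` then `3 ∣ c`. -/
theorem three_dvd_of_inThreeL_smul
    (haf : ∀ n, (af n : ℂ) = ModularFormClass.qCoeff f₀ n)
    (h1 : (3 : ℤ) ∣ af 1 - 1) (c : ℤ) (hc : InThreeL ((c : ℂ) • f₀)) : (3 : ℤ) ∣ c := by
  obtain ⟨g, hg, hcg⟩ := hc
  obtain ⟨m, hm⟩ := intCoeff_of_mem_intLattice hg 1
  have h2 : ModularFormClass.qCoeff (⇑(((c : ℂ) • f₀ : CuspForm (Gamma0 N) 2))) 1 =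
      ModularFormClass.qCoeff (⇑(((3 : ℂ) • g : CuspForm (Gamma0 N) 2))) 1 := by rw [hcg]
  rw [qCoeff_smul_cusp, qCoeff_smul_cusp, ← haf 1, hm] at h2
  have h3 : c * af 1 = 3 * m := by exact_mod_cast h2
  obtain ⟨u, hu⟩ := h1
  refine ⟨m - c * u, ?_⟩
  have : af 1 = 1 + 3 * u := by linarith
  rw [this] at h3
  linarith

/-- The key congruence: `T_ℓ f₀ ≡ a_ℓ f₀ mod 3L`. -/
theorem inThreeL_heckeT_sub
    (heig : FormalHecke.IsEigensystem
      (fun ℓ => if ℓ ∣ N then 0 else ((chiNegThree ℓ : ℤ) : ℤ)) a)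
    (haf : ∀ n, (af n : ℂ) = ModularFormClass.qCoeff f₀ n)
    (hcong : ∀ n, (3 : ℤ) ∣ af n - a n)
    {ℓ : ℕ} (hℓ : ℓ.Prime) (hℓN : ¬ ℓ ∣ N) :
    InThreeL (CuspForm.heckeTLin 2 hℓ hℓN f₀ - ((a ℓ : ℤ) : ℂ) • f₀) := by
  set x := CuspForm.heckeTLin 2 hℓ hℓN f₀ - ((a ℓ : ℤ) : ℂ) • f₀ with hx
  -- the integer coefficients of `x`
  have hD : ∀ n : ℕ, ∃ m : ℤ, ModularFormClass.qCoeff x n = ((3 * m : ℤ) : ℂ) := by
    intro n
    have hq : ModularFormClass.qCoeff x n =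
        ((af (n * ℓ) + (if ℓ ∣ n then (ℓ : ℤ) * af (n / ℓ) else 0) - a ℓ * af n : ℤ) : ℂ) := by
      rw [hx, qCoeff_sub_cusp, qCoeff_heckeTLin, qCoeff_smul_cusp]
      have hpow : ((ℓ : ℂ)) ^ ((2 : ℤ) - 1) = (ℓ : ℂ) := by norm_num
      rw [hpow]
      simp only [← haf]
      by_cases hd : ℓ ∣ n
      · rw [if_pos hd, if_pos hd]
        push_cast
        ring
      · rw [if_neg hd, if_neg hd]
        push_cast
        ring
    have hrel := heig.2 ℓ hℓ n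
    simp only [if_neg hℓN] at hrel
    obtain ⟨u1, hu1⟩ := hcong (n * ℓ)
    obtain ⟨u2, hu2⟩ := hcong n
    obtain ⟨u3, hu3⟩ := hcong (n / ℓ)
    obtain ⟨u4, hu4⟩ := three_dvd_sub_chiNegThree ℓ
    rw [mul_comm ℓ n] at hrel
    by_cases hd : ℓ ∣ n
    · rw [if_pos hd] at hrel
      refine ⟨u1 + (ℓ : ℤ) * u3 + u4 * a (n / ℓ) - a ℓ * u2, ?_⟩
      rw [hq, if_pos hd]
      congr 1
      linear_combination hu1 + (ℓ : ℤ) * hu3 - a ℓ * hu2 + a (n / ℓ) * hu4 + hrel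
    · rw [if_neg hd] at hrel
      refine ⟨u1 - a ℓ * u2, ?_⟩
      rw [hq, if_neg hd]
      congr 1
      linear_combination hu1 - a ℓ * hu2 + hrel
  refine ⟨(3 : ℂ)⁻¹ • x, ?_, ?_⟩
  · apply mem_intLattice_of_intCoeff
    intro n
    obtain ⟨m, hm⟩ := hD n
    refine ⟨m, ?_⟩
    rw [qCoeff_smul_cusp, hm]
    push_cast
    field_simp
  · rw [smul_smul, mul_inv_cancel₀ (by norm_num : (3 : ℂ) ≠ 0), one_smul]

end data

end Fermat.Agent.H74
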