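import Mathlib
import Fermat.Prelude.Def_CuspForm_HeckeLocal
import Fermat.Agent.H74.NormalizedEigenform
import Fermat.Agent.H74.EigenCharacter
import Fermat.Agent.H74.LiftPrep
import Fermat.Agent.H74.LiftLattice

/-!
# The Deligne–Serre lifting lemma (statement S49)
-/

set_option autoImplicit false

namespace Fermat.Agent.H74

open CongruenceSubgroup UpperHalfPlane EisensteinWeightOne Module
open scoped MatrixGroups

variable {N : ℕ} [NeZero N]

section data

variable {a : ℕ → ℤ} (f₀ : CuspForm (Gamma0 N) 2) (af : ℕ → ℤ)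

/-- Congruence of the action on `f₀` to an integer multiple, modulo `3L`. -/
def ActsBy (T : End ℂ (CuspForm (Gamma0 N) 2)) (c : ℤ) : Prop :=
  InThreeL (T f₀ - (c : ℂ) • f₀)

omit [NeZero N] in
theorem ActsBy.add {S T : End ℂ (CuspForm (Gamma0 N) 2)} {c d : ℤ}
    (hS : ActsBy f₀ S c) (hT : ActsBy f₀ T d) : ActsBy f₀ (S + T) (c + d) := by
  unfold ActsBy at *
  have : (S + T) f₀ - ((c + d : ℤ) : ℂ) • f₀ =
      (S f₀ - (c : ℂ) • f₀) + (T f₀ - (d : ℂ) • f₀) := by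
    rw [LinearMap.add_apply, Int.cast_add, add_smul]
    abel
  rw [this]
  exact InThreeL.add hS hT

theorem ActsBy.mul {S T : End ℂ (CuspForm (Gamma0 N) 2)} {c d : ℤ}
    (hS : ActsBy f₀ S c) (hT : ActsBy f₀ T d)
    (hSmem : S ∈ CuspForm.heckeAlgebra N 2 (levelSet N)) : ActsBy f₀ (S * T) (c * d) := by
  unfold ActsBy at *
  have : (S * T) f₀ - ((c * d : ℤ) : ℂ) • f₀ =
      S (T f₀ - (d : ℂ) • f₀) + (d : ℂ) • (S f₀ - (c : ℂ) • f₀) := by
    rw [Module.End.mul_apply, map_sub, map_smul, smul_sub, smul_smul, Int.cast_mul,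
      mul_comm (d : ℂ) (c : ℂ)]
    abel
  rw [this]
  exact InThreeL.add (InThreeL.hecke hT hSmem) (InThreeL.int_smul hS d)

theorem exists_actsBy
    (heig : FormalHecke.IsEigensystem
      (fun ℓ => if ℓ ∣ N then 0 else ((chiNegThree ℓ : ℤ) : ℤ)) a)
    (haf : ∀ n, (af n : ℂ) = ModularFormClass.qCoeff f₀ n)
    (hcong : ∀ n, (3 : ℤ) ∣ af n - a n)
    {T : End ℂ (CuspForm (Gamma0 N) 2)} (hT : T ∈ CuspForm.heckeAlgebra N 2 (levelSet N)) :
    ∃ c : ℤ, ActsBy f₀ T c := by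
  unfold CuspForm.heckeAlgebra at hT
  induction hT using Algebra.adjoin_induction with
  | mem x hx =>
    rcases hx with ⟨ℓ, hℓ, hℓN, -, rfl⟩ | ⟨q, hqN, -, hqS, -⟩
    · exact ⟨a ℓ, inThreeL_heckeT_sub f₀ af heig haf hcong hℓ hℓN⟩
    · exact absurd hqN hqS
  | algebraMap r =>
    refine ⟨r, ?_⟩
    unfold ActsBy
    have : (algebraMap ℤ (End ℂ (CuspForm (Gamma0 N) 2)) r) f₀ - (r : ℂ) • f₀ = 0 := by
      rw [Algebra.algebraMap_eq_smul_one, LinearMap.smul_apply, Module.End.one_apply,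
        Int.cast_smul_eq_zsmul, sub_self]
    rw [this]
    exact InThreeL.zero
  | add x y hx hy ihx ihy =>
    obtain ⟨c, hc⟩ := ihx
    obtain ⟨d, hd⟩ := ihy
    exact ⟨c + d, hc.add f₀ hd⟩
  | mul x y hx hy ihx ihy =>
    obtain ⟨c, hc⟩ := ihx
    obtain ⟨d, hd⟩ := ihy
    exact ⟨c * d, hc.mul f₀ hd hx⟩

omit [NeZero N] in
/-- Under `ActsBy f₀ T c`: `T f₀ ∈ 3L` iff `3 ∣ c`. -/
theorem ActsBy.inThreeL_iff
    (haf : ∀ n, (af n : ℂ) = ModularFormClass.qCoeff f₀ n)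
    (h1 : (3 : ℤ) ∣ af 1 - 1)
    {T : End ℂ (CuspForm (Gamma0 N) 2)} {c : ℤ} (hT : ActsBy f₀ T c) :
    InThreeL (T f₀) ↔ (3 : ℤ) ∣ c := by
  have hf₀ : f₀ ∈ CuspForm.intLattice N 2 :=
    mem_intLattice_of_intCoeff (fun n => ⟨af n, (haf n).symm⟩)
  constructor
  · intro h
    apply three_dvd_of_inThreeL_smul f₀ af haf h1
    have := InThreeL.sub h hT
    rwa [sub_sub_cancel] at this
  · rintro ⟨u, rfl⟩
    have h2 : InThreeL (((3 * u : ℤ) : ℂ) • f₀) := by
      refine ⟨u • f₀, Submodule.smul_mem _ u hf₀, ?_⟩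
      rw [← Int.cast_smul_eq_zsmul ℂ u f₀, smul_smul]
      push_cast
      rfl
    have := InThreeL.add hT h2
    rwa [sub_add_cancel] at this

/-- The prime ideal of the Hecke algebra cut out by the mod-3 eigenvector `f₀`. -/
def mIdeal : Ideal ↥(CuspForm.heckeAlgebra N 2 (levelSet N)) where
  carrier := {T | InThreeL ((T : End ℂ (CuspForm (Gamma0 N) 2)) f₀)}
  add_mem' := by
    intro S T hS hT
    exact InThreeL.add hS hT
  zero_mem' := by
    show InThreeL ((0 : End ℂ (CuspForm (Gamma0 N) 2)) f₀)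
    rw [LinearMap.zero_apply]
    exact InThreeL.zero
  smul_mem' := by
    intro S T hT
    show InThreeL (((S : End ℂ (CuspForm (Gamma0 N) 2)) * (T : End ℂ (CuspForm (Gamma0 N) 2))) f₀)
    rw [Module.End.mul_apply]
    exact InThreeL.hecke hT S.2

theorem mem_mIdeal (T : ↥(CuspForm.heckeAlgebra N 2 (levelSet N))) :
    T ∈ mIdeal f₀ ↔ InThreeL ((T : End ℂ (CuspForm (Gamma0 N) 2)) f₀) := Iff.rfl

theorem mIdeal_isPrime
    (heig : FormalHecke.IsEigensystem
      (fun ℓ => if ℓ ∣ N then 0 else ((chiNegThree ℓ : ℤ) : ℤ)) a)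
    (haf : ∀ n, (af n : ℂ) = ModularFormClass.qCoeff f₀ n)
    (hcong : ∀ n, (3 : ℤ) ∣ af n - a n) : (mIdeal f₀).IsPrime := by
  have h1 : (3 : ℤ) ∣ af 1 - 1 := by
    have := hcong 1
    rwa [heig.1] at this
  refine ⟨?_, ?_⟩
  · intro htop
    have h1mem : (1 : ↥(CuspForm.heckeAlgebra N 2 (levelSet N))) ∈ mIdeal f₀ := by
      rw [htop]; exact Submodule.mem_top
    rw [mem_mIdeal] at h1mem
    have hact : ActsBy f₀ (1 : End ℂ (CuspForm (Gamma0 N) 2)) 1 := by
      unfold ActsBy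
      rw [Module.End.one_apply, Int.cast_one, one_smul, sub_self]
      exact InThreeL.zero
    have := (hact.inThreeL_iff f₀ af haf h1).mp h1mem
    norm_num at this
  · intro S T hST
    obtain ⟨c, hc⟩ := exists_actsBy f₀ af heig haf hcong S.2
    obtain ⟨d, hd⟩ := exists_actsBy f₀ af heig haf hcong T.2
    have hcd := hc.mul f₀ hd S.2
    rw [mem_mIdeal] at hST
    have h3 : (3 : ℤ) ∣ c * d := (hcd.inThreeL_iff f₀ af haf h1).mp hST
    rcases (Int.prime_three.dvd_mul).mp h3 with h | h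
    · left
      exact (hc.inThreeL_iff f₀ af haf h1).mpr h
    · right
      exact (hd.inThreeL_iff f₀ af haf h1).mpr h

end data

end Fermat.Agent.H74
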