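import Mathlib
import Fermat.Prelude.Def_CuspForm_HeckeLocal
import Fermat.Agent.H74.NormalizedEigenform
import Fermat.Agent.H74.EigenCharacter
import Fermat.Agent.H74.LiftPrep
import Fermat.Agent.H74.LiftLattice
import Fermat.Agent.H74.LiftingLemma

/-!
# The Deligne–Serre lifting lemma: final assembly
-/

set_option autoImplicit false

namespace Fermat.Agent.H74

open CongruenceSubgroup UpperHalfPlane EisensteinWeightOne Module
open scoped MatrixGroups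

variable {N : ℕ} [NeZero N]

/-- Under an integral structure, the Hecke algebra is a finite `ℤ`-module. -/
theorem heckeAlgebra_moduleFinite_of_hasIntegralStructure (S : Set ℕ)
    (hint : CuspForm.HasIntegralStructure N 2) :
    Module.Finite ℤ ↥(CuspForm.heckeAlgebra N 2 S) :=
  Module.Finite.of_injective (CuspForm.latticeRestrictHom N S).toLinearMap
    (CuspForm.latticeRestrictHom_bijective N S hint).1

theorem coe_intCast_apply_hecke (S : Set ℕ) (c : ℤ) (x : CuspForm (Gamma0 N) 2) :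
    (((c : ↥(CuspForm.heckeAlgebra N 2 S)) : End ℂ (CuspForm (Gamma0 N) 2))) x = (c : ℂ) • x := by
  have h1 : ((c : ↥(CuspForm.heckeAlgebra N 2 S)) : End ℂ (CuspForm (Gamma0 N) 2)) =
      (c : End ℂ (CuspForm (Gamma0 N) 2)) := rfl
  rw [h1, Module.End.intCast_apply, Int.cast_smul_eq_zsmul]

theorem coe_natCast_apply_hecke (S : Set ℕ) (c : ℕ) (x : CuspForm (Gamma0 N) 2) :
    (((c : ↥(CuspForm.heckeAlgebra N 2 S)) : End ℂ (CuspForm (Gamma0 N) 2))) x = (c : ℂ) • x := by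
  have h1 : ((c : ↥(CuspForm.heckeAlgebra N 2 S)) : End ℂ (CuspForm (Gamma0 N) 2)) =
      (c : End ℂ (CuspForm (Gamma0 N) 2)) := rfl
  rw [h1, Module.End.natCast_apply, Nat.cast_smul_eq_nsmul]

theorem deligneSerre_lifting (h : CuspForm.HasIntegralBasis N) {a : ℕ → ℤ}
    (heig : FormalHecke.IsEigensystem
      (fun ℓ => if ℓ ∣ N then 0 else ((chiNegThree ℓ : ℤ) : ℤ)) a)
    (hreal : CuspForm.IsLatticeRealized N a) :
    ∃ (f : CuspForm (Gamma0 N) 2) (_ : f.IsNormalizedEigenform)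
      (𝔪' : Ideal (integralClosure ℤ ℂ)), 𝔪'.IsMaximal ∧
      ((3 : ℕ) : integralClosure ℤ ℂ) ∈ 𝔪' ∧
      ∀ (ℓ : ℕ) (_ : ℓ.Prime) (_ : ¬ ℓ ∣ N),
        ∃ c : integralClosure ℤ ℂ, (c : ℂ) = ModularFormClass.qCoeff f ℓ ∧
          c - (a ℓ : integralClosure ℤ ℂ) ∈ 𝔪' := by
  classical
  obtain ⟨f₀, hf₀, af, haf, hbr⟩ := hreal
  have hcong : ∀ n, (3 : ℤ) ∣ af n - a n := fun n => by
    have h1 := hbr n
    have h2 := three_dvd_bridgeProduct_coeff_sub a n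
    have := dvd_add h1 h2
    rwa [sub_add_sub_cancel] at this
  haveI := finiteDimensional_cuspForm_Gamma0 N 2
  haveI hprime : (mIdeal f₀).IsPrime := mIdeal_isPrime f₀ af heig haf hcong
  -- the action
  let ρ : ↥(CuspForm.heckeAlgebra N 2 (levelSet N)) →+* End ℂ (CuspForm (Gamma0 N) 2) :=
    (Subalgebra.val (CuspForm.heckeAlgebra N 2 (levelSet N))).toRingHom
  have hρ : ∀ t, ρ t = (t : End ℂ (CuspForm (Gamma0 N) 2)) := fun _ => rfl
  have hkerρ : RingHom.ker ρ ≤ mIdeal f₀ := by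
    intro t ht
    rw [RingHom.mem_ker, hρ] at ht
    rw [mem_mIdeal, ht, LinearMap.zero_apply]
    exact InThreeL.zero
  obtain ⟨ψ, y, hy0, hy, hker⟩ := exists_eigencharacter_ker_le ρ (mIdeal f₀) hkerρ
  -- integrality of the eigenvalues
  haveI hfin : Module.Finite ℤ ↥(CuspForm.heckeAlgebra N 2 (levelSet N)) :=
    heckeAlgebra_moduleFinite_of_hasIntegralStructure (levelSet N)
      (hasIntegralStructure_of_hasIntegralBasis h)
  have hint : ∀ t : ↥(CuspForm.heckeAlgebra N 2 (levelSet N)),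
      ψ t ∈ integralClosure ℤ ℂ := by
    intro t
    have ht : IsIntegral ℤ t := IsIntegral.of_finite ℤ t
    exact IsIntegral.map_of_comp_eq (RingHom.id ℤ) ψ (RingHom.ext_int _ _) ht
  let ψ' : ↥(CuspForm.heckeAlgebra N 2 (levelSet N)) →+* ↥(integralClosure ℤ ℂ) :=
    ψ.codRestrict (integralClosure ℤ ℂ) hint
  have hψ' : ∀ t, ((ψ' t : integralClosure ℤ ℂ) : ℂ) = ψ t := fun _ => rfl
  have hkerψ' : RingHom.ker ψ' ≤ mIdeal f₀ := by
    intro t ht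
    apply hker
    rw [RingHom.mem_ker] at ht ⊢
    rw [← hψ', ht]
    rfl
  have hψ'int : ψ'.IsIntegral := by
    apply RingHom.IsIntegral.tower_top (Int.castRingHom _) ψ'
    have : ψ'.comp (Int.castRingHom _) = algebraMap ℤ ↥(integralClosure ℤ ℂ) :=
      RingHom.ext_int _ _
    rw [this, algebraMap_isIntegral_iff]
    infer_instance
  have hJ : (mIdeal f₀).map ψ' ≠ ⊤ := by
    rw [Ne, Ideal.map_eq_top_iff_of_ker_le ψ' hkerψ' hψ'int]
    exact hprime.ne_top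
  obtain ⟨𝔪', hmax, hle⟩ := Ideal.exists_le_maximal _ hJ
  have hmem : ∀ t ∈ mIdeal f₀, ψ' t ∈ 𝔪' := fun t ht => hle (Ideal.mem_map_of_mem ψ' ht)
  -- the eigenvalues
  let Tℓ : ∀ (ℓ : ℕ) (hℓ : ℓ.Prime) (hℓN : ¬ ℓ ∣ N), ↥(CuspForm.heckeAlgebra N 2 (levelSet N)) :=
    fun ℓ hℓ hℓN => ⟨CuspForm.heckeTLin 2 hℓ hℓN,
      CuspForm.heckeTLin_mem_heckeAlgebra hℓ hℓN (fun hmem => hℓN hmem)⟩
  let lam : ℕ → ℂ := fun ℓ =>
    if hℓ : ℓ.Prime ∧ ¬ ℓ ∣ N then ψ (Tℓ ℓ hℓ.1 hℓ.2) else 0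
  have hlam : ∀ (ℓ : ℕ) (hℓ : ℓ.Prime) (hℓN : ¬ ℓ ∣ N), lam ℓ = ψ (Tℓ ℓ hℓ hℓN) := by
    intro ℓ hℓ hℓN
    simp only [lam, dif_pos (And.intro hℓ hℓN)]
  obtain ⟨f, hf, hfl⟩ := exists_isNormalizedEigenform_of_eigenvector lam y hy0 (by
    intro ℓ hℓ hℓN
    rw [hlam ℓ hℓ hℓN]
    exact hy (Tℓ ℓ hℓ hℓN))
  refine ⟨f, hf, 𝔪', hmax, ?_, ?_⟩
  · -- `3 ∈ 𝔪'`
    have h3 : ((3 : ℕ) : ↥(CuspForm.heckeAlgebra N 2 (levelSet N))) ∈ mIdeal f₀ := by
      rw [mem_mIdeal]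
      have hf₀L : f₀ ∈ CuspForm.intLattice N 2 :=
        mem_intLattice_of_intCoeff (intCoeff_of_mem_qIntegralSet hf₀)
      refine ⟨f₀, hf₀L, ?_⟩
      rw [coe_natCast_apply_hecke]
      norm_num
    have := hmem _ h3
    rwa [map_natCast] at this
  · intro ℓ hℓ hℓN
    refine ⟨ψ' (Tℓ ℓ hℓ hℓN), ?_, ?_⟩
    · rw [hψ', hfl ℓ hℓ hℓN, hlam ℓ hℓ hℓN]
    · have hmemT : Tℓ ℓ hℓ hℓN - (a ℓ : ↥(CuspForm.heckeAlgebra N 2 (levelSet N))) ∈
          mIdeal f₀ := by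
        rw [mem_mIdeal]
        have := inThreeL_heckeT_sub f₀ af heig haf hcong hℓ hℓN
        have hcoe : ((Tℓ ℓ hℓ hℓN - (a ℓ : ↥(CuspForm.heckeAlgebra N 2 (levelSet N))) :
            ↥(CuspForm.heckeAlgebra N 2 (levelSet N))) : End ℂ (CuspForm (Gamma0 N) 2)) f₀ =
            CuspForm.heckeTLin 2 hℓ hℓN f₀ - ((a ℓ : ℤ) : ℂ) • f₀ := by
          rw [← coe_intCast_apply_hecke (levelSet N) (a ℓ) f₀]
          rfl
        rw [hcoe]
        exact this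
      have := hmem _ hmemT
      rwa [map_sub, map_intCast] at this

end Fermat.Agent.H74
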