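import Mathlib

/-!
# The height of a rational function (helper74, P-S52 / WP-B)

`hdeg r = max (natDegree (num r)) (natDegree (denom r))` for `r : RatFunc k`, i.e. the degree of
`r` as a map `ℙ¹ → ℙ¹`.  Basic API: computation on coprime fractions, constants, powers.
-/

set_option autoImplicit false

namespace Fermat.Agent.H74

open Polynomial

variable {k : Type*} [Field k]

/-- The height (degree as a self-map of the projective line) of a rational function. -/
noncomputable def hdeg (r : RatFunc k) : ℕ := max r.num.natDegree r.denom.natDegree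

lemma hdeg_def (r : RatFunc k) : hdeg r = max r.num.natDegree r.denom.natDegree := rfl

/-- Numerator and denominator of a coprime fraction agree with `num`, `denom` up to a
common nonzero constant. -/
lemma exists_num_denom_of_isCoprime {p q : k[X]} (hq : q ≠ 0) (h : IsCoprime p q) :
    ∃ c : k, c ≠ 0 ∧ p = C c * (algebraMap k[X] (RatFunc k) p / algebraMap k[X] (RatFunc k) q).num
      ∧ q = C c * (algebraMap k[X] (RatFunc k) p / algebraMap k[X] (RatFunc k) q).denom := by
  set x : RatFunc k := algebraMap k[X] (RatFunc k) p / algebraMap k[X] (RatFunc k) q with hx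
  have hd : x.denom ≠ 0 := x.denom_ne_zero
  have hxq : algebraMap k[X] (RatFunc k) q ≠ 0 := RatFunc.algebraMap_ne_zero hq
  have hxd : algebraMap k[X] (RatFunc k) x.denom ≠ 0 := RatFunc.algebraMap_ne_zero hd
  have key : p * x.denom = x.num * q := by
    have h1 : algebraMap k[X] (RatFunc k) x.num / algebraMap k[X] (RatFunc k) x.denom =
        algebraMap k[X] (RatFunc k) p / algebraMap k[X] (RatFunc k) q := by
      rw [RatFunc.num_div_denom]
    rw [div_eq_div_iff hxd hxq] at h1
    have h2 : algebraMap k[X] (RatFunc k) (p * x.denom) =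
        algebraMap k[X] (RatFunc k) (x.num * q) := by
      rw [map_mul, map_mul]; exact h1.symm
    exact IsFractionRing.injective k[X] (RatFunc k) h2
  have hqd : q ∣ x.denom := by
    have : q ∣ p * x.denom := ⟨x.num, by rw [key]; ring⟩
    exact h.symm.dvd_of_dvd_mul_left this
  have hdq : x.denom ∣ q := by
    have : x.denom ∣ x.num * q := ⟨p, by rw [← key]; ring⟩
    exact (RatFunc.isCoprime_num_denom x).symm.dvd_of_dvd_mul_left this
  obtain ⟨u, hu⟩ := hdq
  have hu0 : u ≠ 0 := by
    rintro rfl
    exact hq (by rw [hu, mul_zero])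
  have hudeg : u.natDegree = 0 := by
    have h1 : q.natDegree = x.denom.natDegree + u.natDegree := by
      rw [hu, natDegree_mul hd hu0]
    have h2 : q.natDegree ≤ x.denom.natDegree := natDegree_le_of_dvd hqd hd
    omega
  obtain ⟨c, hc⟩ := natDegree_eq_zero.mp hudeg
  have hc0 : c ≠ 0 := by
    rintro rfl
    apply hu0
    rw [← hc, map_zero]
  refine ⟨c, hc0, ?_, ?_⟩
  · have : p * x.denom = (C c * x.num) * x.denom := by
      rw [key, hu, ← hc]; ring
    exact mul_right_cancel₀ hd this
  · rw [hu, ← hc]; ring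

lemma hdeg_div_of_isCoprime {p q : k[X]} (hq : q ≠ 0) (h : IsCoprime p q) :
    hdeg (algebraMap k[X] (RatFunc k) p / algebraMap k[X] (RatFunc k) q) =
      max p.natDegree q.natDegree := by
  obtain ⟨c, hc0, hp, hq'⟩ := exists_num_denom_of_isCoprime hq h
  have e1 : p.natDegree =
      (algebraMap k[X] (RatFunc k) p / algebraMap k[X] (RatFunc k) q).num.natDegree := by
    conv_lhs => rw [hp, natDegree_C_mul hc0]
  have e2 : q.natDegree =
      (algebraMap k[X] (RatFunc k) p / algebraMap k[X] (RatFunc k) q).denom.natDegree := by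
    conv_lhs => rw [hq', natDegree_C_mul hc0]
  rw [hdeg_def, ← e1, ← e2]

@[simp] lemma hdeg_zero : hdeg (0 : RatFunc k) = 0 := by simp [hdeg_def]

@[simp] lemma hdeg_one : hdeg (1 : RatFunc k) = 0 := by simp [hdeg_def]

@[simp] lemma hdeg_C (c : k) : hdeg (RatFunc.C c) = 0 := by simp [hdeg_def]

lemma hdeg_algebraMap (p : k[X]) : hdeg (algebraMap k[X] (RatFunc k) p) = p.natDegree := by
  simp [hdeg_def]

@[simp] lemma hdeg_X : hdeg (RatFunc.X : RatFunc k) = 1 := by
  simp [hdeg_def]

lemma hdeg_eq_zero_iff (r : RatFunc k) : hdeg r = 0 ↔ ∃ c : k, r = RatFunc.C c := by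
  constructor
  · intro h
    rw [hdeg_def] at h
    have h1 : r.num.natDegree = 0 := by omega
    have h2 : r.denom.natDegree = 0 := by omega
    obtain ⟨c, hc⟩ := natDegree_eq_zero.mp h1
    have hd : r.denom = 1 := by
      have := r.monic_denom
      exact (Polynomial.Monic.natDegree_eq_zero this).mp h2
    refine ⟨c, ?_⟩
    rw [← RatFunc.num_div_denom r, hd, ← hc, map_one, div_one]
    rfl
  · rintro ⟨c, rfl⟩
    exact hdeg_C c

lemma hdeg_pow (r : RatFunc k) (n : ℕ) : hdeg (r ^ n) = n * hdeg r := by
  have hd : r.denom ^ n ≠ 0 := pow_ne_zero _ r.denom_ne_zero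
  have hcop : IsCoprime (r.num ^ n) (r.denom ^ n) := (RatFunc.isCoprime_num_denom r).pow
  have hr : r ^ n = algebraMap k[X] (RatFunc k) (r.num ^ n) /
      algebraMap k[X] (RatFunc k) (r.denom ^ n) := by
    rw [map_pow, map_pow, ← div_pow, RatFunc.num_div_denom]
  rw [hr, hdeg_div_of_isCoprime hd hcop, natDegree_pow, natDegree_pow, hdeg_def,
    Nat.mul_max_mul_left]

lemma hdeg_neg (r : RatFunc k) : hdeg (-r) = hdeg r := by
  have hd : r.denom ≠ 0 := r.denom_ne_zero
  have hcop : IsCoprime (-r.num) r.denom := (RatFunc.isCoprime_num_denom r).neg_left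
  have hr : -r = algebraMap k[X] (RatFunc k) (-r.num) / algebraMap k[X] (RatFunc k) r.denom := by
    rw [map_neg, neg_div, RatFunc.num_div_denom]
  rw [hr, hdeg_div_of_isCoprime hd hcop, natDegree_neg, hdeg_def]

end Fermat.Agent.H74
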