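import Fermat.Agent.H74.TwistInterfaces
import Fermat.Agent.H74.HeightAbstract
import Fermat.Agent.H70.AddSub

/-!
# The quadratic twist of `y² = x³ + a x + b` by `f(t)` over `RatFunc k` (helper74, P-S52 / WP-B)

`twF a b = t³ + a t + b`, `twCurve a b : Y² = X³ + a f² X + b f³` over `RatFunc k`.
The untwisted `x`-coordinate of a point `(X, Y)` is `ξ = X / f`, and the height of the point is
`hdeg ξ` (`0` at the origin).

Main result of this file: `paraLaw_hpt` -- the exact parallelogram law for the height on the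
points of the twist, from the pure `RatFunc` statements B2a, B2b and the cubic case of B4.
-/

set_option autoImplicit false
set_option linter.unusedSectionVars false

namespace Fermat.Agent.H74

open WeierstrassCurve WeierstrassCurve.Affine
open Fermat.Agent.H38 Fermat.Agent.H70

variable {k : Type*} [Field k]

/-- `f(t) = t³ + a t + b` as a rational function. -/
noncomputable def twF (a b : k) : RatFunc k :=
  RatFunc.X ^ 3 + RatFunc.C a * RatFunc.X + RatFunc.C b

/-- `f` evaluated at a rational function. -/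
noncomputable def cubicAt (a b : k) (ξ : RatFunc k) : RatFunc k :=
  ξ ^ 3 + RatFunc.C a * ξ + RatFunc.C b

lemma twF_eq_cubicAt (a b : k) : twF a b = cubicAt a b RatFunc.X := rfl

lemma twF_eq_algebraMap (a b : k) : twF a b = algebraMap (Polynomial k) (RatFunc k)
    (Polynomial.X ^ 3 + Polynomial.C a * Polynomial.X + Polynomial.C b) := by
  simp [twF]

lemma cubicPoly_natDegree (a b : k) :
    (Polynomial.X ^ 3 + Polynomial.C a * Polynomial.X + Polynomial.C b :
      Polynomial k).natDegree = 3 := by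
  compute_degree!

lemma twF_ne_zero (a b : k) : twF a b ≠ 0 := by
  rw [twF_eq_algebraMap]
  apply RatFunc.algebraMap_ne_zero
  intro h
  have := cubicPoly_natDegree a b
  rw [h, Polynomial.natDegree_zero] at this
  omega

lemma twF_intDegree (a b : k) : (twF a b).intDegree = 3 := by
  rw [twF_eq_algebraMap, RatFunc.intDegree_polynomial, cubicPoly_natDegree]
  rfl

/-- The quadratic twist of `y² = x³ + a x + b` by `f(t)`, as a Weierstrass curve over
`RatFunc k`. -/
noncomputable def twCurve (a b : k) : WeierstrassCurve (RatFunc k) where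
  a₁ := 0
  a₂ := 0
  a₃ := 0
  a₄ := RatFunc.C a * twF a b ^ 2
  a₆ := RatFunc.C b * twF a b ^ 3

section coeffs

variable (a b : k)

@[simp] lemma twCurve_a₁ : (twCurve a b).a₁ = 0 := rfl
@[simp] lemma twCurve_a₂ : (twCurve a b).a₂ = 0 := rfl
@[simp] lemma twCurve_a₃ : (twCurve a b).a₃ = 0 := rfl
@[simp] lemma twCurve_a₄ : (twCurve a b).a₄ = RatFunc.C a * twF a b ^ 2 := rfl
@[simp] lemma twCurve_a₆ : (twCurve a b).a₆ = RatFunc.C b * twF a b ^ 3 := rfl

lemma twCurve_b₂ : (twCurve a b).b₂ = 0 := by simp [WeierstrassCurve.b₂]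
lemma twCurve_b₄ : (twCurve a b).b₄ = 2 * (RatFunc.C a * twF a b ^ 2) := by
  simp [WeierstrassCurve.b₄]
lemma twCurve_b₆ : (twCurve a b).b₆ = 4 * (RatFunc.C b * twF a b ^ 3) := by
  simp [WeierstrassCurve.b₆]
lemma twCurve_b₈ : (twCurve a b).b₈ = -(RatFunc.C a * twF a b ^ 2) ^ 2 := by
  simp [WeierstrassCurve.b₈]

lemma twCurve_Δ : (twCurve a b).Δ =
    RatFunc.C (-16 * (4 * a ^ 3 + 27 * b ^ 2)) * twF a b ^ 6 := by
  simp only [WeierstrassCurve.Δ, twCurve_b₂, twCurve_b₄, twCurve_b₆, twCurve_b₈, map_mul,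
    map_neg, map_add, map_pow, map_ofNat]
  ring

lemma twCurve_equation_iff (X Y : RatFunc k) :
    (twCurve a b).toAffine.Equation X Y ↔
      Y ^ 2 = X ^ 3 + RatFunc.C a * twF a b ^ 2 * X + RatFunc.C b * twF a b ^ 3 := by
  rw [Affine.equation_iff]
  simp

lemma twCurve_negY (X Y : RatFunc k) : (twCurve a b).toAffine.negY X Y = -Y := by
  simp [Affine.negY]

end coeffs

end Fermat.Agent.H74

namespace Fermat.Agent.H74

open WeierstrassCurve WeierstrassCurve.Affine
open Fermat.Agent.H38 Fermat.Agent.H70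

variable {k : Type*} [Field k] [DecidableEq (RatFunc k)]

/-- The untwisted `x`-coordinate `ξ = X / f` of a point of the twist (junk value `0` at the
origin). -/
noncomputable def xiPt (a b : k) (P : (twCurve a b).toAffine.Point) : RatFunc k :=
  xc (twCurve a b) P / twF a b

/-- The height of a point of the twist. -/
noncomputable def hpt (a b : k) (P : (twCurve a b).toAffine.Point) : ℕ :=
  if P = 0 then 0 else hdeg (xiPt a b P)

section

variable {a b : k}

@[simp] lemma hpt_zero : hpt a b 0 = 0 := by simp [hpt]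

lemma hpt_of_ne_zero {P : (twCurve a b).toAffine.Point} (hP : P ≠ 0) :
    hpt a b P = hdeg (xiPt a b P) := by simp [hpt, hP]

lemma xiPt_neg (P : (twCurve a b).toAffine.Point) : xiPt a b (-P) = xiPt a b P := by
  simp only [xiPt, xc_neg]

lemma hpt_neg (P : (twCurve a b).toAffine.Point) : hpt a b (-P) = hpt a b P := by
  by_cases hP : P = 0
  · subst hP; simp
  · rw [hpt_of_ne_zero hP, hpt_of_ne_zero (neg_ne_zero.mpr hP), xiPt_neg]

lemma xc_eq_xiPt_mul (P : (twCurve a b).toAffine.Point) :
    xc (twCurve a b) P = twF a b * xiPt a b P := by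
  rw [xiPt, mul_div_cancel₀ _ (twF_ne_zero a b)]

lemma dblDen_twCurve (P : (twCurve a b).toAffine.Point) :
    dblDen (twCurve a b) (xc (twCurve a b) P) =
      4 * twF a b ^ 3 * cubicAt a b (xiPt a b P) := by
  rw [dblDen, twCurve_b₂, twCurve_b₄, twCurve_b₆, xc_eq_xiPt_mul, cubicAt]
  ring

lemma dblNum_twCurve (P : (twCurve a b).toAffine.Point) :
    dblNum (twCurve a b) (xc (twCurve a b) P) =
      twF a b ^ 4 * ((xiPt a b P ^ 2 - RatFunc.C a) ^ 2 - 8 * RatFunc.C b * xiPt a b P) := by
  rw [dblNum, twCurve_b₄, twCurve_b₆, twCurve_b₈, xc_eq_xiPt_mul]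
  ring

lemma ratFunc_two_ne_zero (h2 : (2 : k) ≠ 0) : (2 : RatFunc k) ≠ 0 := by
  have : (2 : RatFunc k) = RatFunc.C (2 : k) := (map_ofNat RatFunc.C 2).symm
  rw [this]
  intro h
  exact h2 (RatFunc.C_injective (h.trans (map_zero _).symm))

/-- Points of height `0` come from roots... here: `2 • P = 0` forces height `0`. -/
lemma hpt_eq_zero_of_two_nsmul (h2 : (2 : k) ≠ 0) (hc : CubicStatement a b)
    {P : (twCurve a b).toAffine.Point} (h : 2 • P = 0) : hpt a b P = 0 := by
  by_cases hP : P = 0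
  · subst hP; simp
  have hf := twF_ne_zero a b
  rw [two_nsmul_eq_zero_iff _ hP, dblDen_twCurve] at h
  have h4 : (4 : RatFunc k) ≠ 0 := by
    have : (4 : RatFunc k) = 2 * 2 := by norm_num
    rw [this]; exact mul_ne_zero (ratFunc_two_ne_zero h2) (ratFunc_two_ne_zero h2)
  have h0 : cubicAt a b (xiPt a b P) = 0 := by
    rcases mul_eq_zero.mp h with h | h
    · exact absurd h (mul_ne_zero h4 (pow_ne_zero _ hf))
    · exact h
  have := hc (xiPt a b P)
  rw [show xiPt a b P ^ 3 + RatFunc.C a * xiPt a b P + RatFunc.C b = cubicAt a b (xiPt a b P)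
    from rfl, h0, hdeg_zero] at this
  rw [hpt_of_ne_zero hP]
  omega

/-- Exact duplication law on points. -/
lemma hpt_add_self (h2 : (2 : k) ≠ 0) (hc : CubicStatement a b)
    (hd : ParaDoubleStatement a b) (P : (twCurve a b).toAffine.Point) :
    hpt a b (P + P) = 4 * hpt a b P := by
  by_cases hP : P = 0
  · subst hP; simp
  have hf := twF_ne_zero a b
  by_cases h2P : 2 • P = 0
  · rw [hpt_eq_zero_of_two_nsmul h2 hc h2P, ← two_nsmul, h2P, hpt_zero]
  · have hden : dblDen (twCurve a b) (xc (twCurve a b) P) ≠ 0 := by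
      rwa [Ne, ← two_nsmul_eq_zero_iff _ hP]
    have key := xc_two_nsmul (twCurve a b) hP h2P
    rw [dblDen_twCurve] at hden
    rw [dblDen_twCurve, dblNum_twCurve, xc_eq_xiPt_mul (2 • P)] at key
    have hcub : cubicAt a b (xiPt a b P) ≠ 0 := right_ne_zero_of_mul hden
    have key' : xiPt a b (2 • P) * (4 * cubicAt a b (xiPt a b P)) =
        (xiPt a b P ^ 2 - RatFunc.C a) ^ 2 - 8 * RatFunc.C b * xiPt a b P := by
      have hf4 : twF a b ^ 4 ≠ 0 := pow_ne_zero _ hf
      apply mul_left_cancel₀ hf4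
      rw [← key]; ring
    rw [← two_nsmul, hpt_of_ne_zero h2P, hpt_of_ne_zero hP]
    exact hd _ _ hcub key'

/-- **(H1)** The exact parallelogram law for the height on the twist. -/
theorem paraLaw_hpt (h2 : (2 : k) ≠ 0) (hc : CubicStatement a b)
    (hg : ParaGenericStatement a b) (hd : ParaDoubleStatement a b) :
    ParaLaw (fun P : (twCurve a b).toAffine.Point => (hpt a b P : ℤ)) := by
  intro P Q
  show (hpt a b (P + Q) : ℤ) + hpt a b (P - Q) = 2 * hpt a b P + 2 * hpt a b Q
  have hf := twF_ne_zero a b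
  by_cases hP : P = 0
  · subst hP
    rw [zero_add, zero_sub, hpt_neg, hpt_zero]; push_cast; ring
  by_cases hQ : Q = 0
  · subst hQ
    rw [add_zero, sub_zero, hpt_zero]; push_cast; ring
  by_cases hx : xc (twCurve a b) P = xc (twCurve a b) Q
  · rcases eq_or_eq_neg_of_xc_eq _ hP hQ hx with h | h
    · subst h
      rw [sub_self, hpt_zero, hpt_add_self h2 hc hd]; push_cast; ring
    · subst h
      rw [neg_add_cancel, hpt_zero, ← neg_add', hpt_neg, hpt_add_self h2 hc hd, hpt_neg]
      push_cast; ring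
  · have hs := xc_add_add_xc_sub (twCurve a b) hP hQ hx
    have hp := xc_add_mul_xc_sub (twCurve a b) hP hQ hx
    have hadd : Q + P ≠ 0 := xc_ne_imp_add_ne_zero _ hx
    have hsub : Q - P ≠ 0 := xc_ne_imp_sub_ne_zero _ hx
    simp only [spSum, spProd, twCurve_b₂, twCurve_b₄, twCurve_b₆, twCurve_b₈] at hs hp
    rw [xc_eq_xiPt_mul (Q + P), xc_eq_xiPt_mul (Q - P), xc_eq_xiPt_mul P,
      xc_eq_xiPt_mul Q] at hs hp
    have hne : xiPt a b P ≠ xiPt a b Q := by
      intro h
      apply hx
      rw [xc_eq_xiPt_mul P, xc_eq_xiPt_mul Q, h]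
    have hf3 : twF a b ^ 3 ≠ 0 := pow_ne_zero _ hf
    have hf4 : twF a b ^ 4 ≠ 0 := pow_ne_zero _ hf
    have e1 : (xiPt a b (Q + P) + xiPt a b (Q - P)) * (xiPt a b P - xiPt a b Q) ^ 2 =
        2 * (xiPt a b P * xiPt a b Q + RatFunc.C a) * (xiPt a b P + xiPt a b Q)
          + 4 * RatFunc.C b := by
      apply mul_left_cancel₀ hf3
      linear_combination hs
    have e2 : xiPt a b (Q + P) * xiPt a b (Q - P) * (xiPt a b P - xiPt a b Q) ^ 2 =
        (xiPt a b P * xiPt a b Q - RatFunc.C a) ^ 2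
          - 4 * RatFunc.C b * (xiPt a b P + xiPt a b Q) := by
      apply mul_left_cancel₀ hf4
      linear_combination hp
    have := hg _ _ _ _ hne e1 e2
    rw [add_comm P Q, ← hpt_neg (P - Q), neg_sub, hpt_of_ne_zero hadd, hpt_of_ne_zero hsub,
      hpt_of_ne_zero hP, hpt_of_ne_zero hQ]
    exact_mod_cast this

/-- **(H4)** A point of height `0` on the twist is `2`-torsion. -/
theorem two_nsmul_eq_zero_of_hpt_eq_zero
    {P : (twCurve a b).toAffine.Point} (h : hpt a b P = 0) : 2 • P = 0 := by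
  by_cases hP : P = 0
  · subst hP; simp
  have hf := twF_ne_zero a b
  obtain ⟨X, Y, hXY, rfl⟩ := exists_some_of_ne_zero _ hP
  rw [hpt_of_ne_zero hP, hdeg_eq_zero_iff] at h
  obtain ⟨c, hc'⟩ := h
  have hX : X = twF a b * RatFunc.C c := by
    have := xc_eq_xiPt_mul (Point.some X Y hXY)
    rw [hc', xc_some] at this
    exact this
  have heq := (twCurve_equation_iff a b X Y).mp hXY.1
  -- `Y² = f³ · f(c)` with `f(c)` constant
  have hY : Y ^ 2 = twF a b ^ 3 * RatFunc.C (c ^ 3 + a * c + b) := by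
    rw [heq, hX]; simp only [map_add, map_mul, map_pow]; ring
  -- parity of degrees forces `f(c) = 0`
  have hfc : c ^ 3 + a * c + b = 0 := by
    by_contra hne
    have hY0 : Y ≠ 0 := by
      rintro rfl
      have : twF a b ^ 3 * RatFunc.C (c ^ 3 + a * c + b) = 0 := by rw [← hY]; ring
      rcases mul_eq_zero.mp this with h | h
      · exact pow_ne_zero _ hf h
      · exact hne (RatFunc.C_injective (h.trans (map_zero _).symm))
    have hC0 : RatFunc.C (c ^ 3 + a * c + b) ≠ 0 := fun h =>
      hne (RatFunc.C_injective (h.trans (map_zero _).symm))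
    have hd := congrArg RatFunc.intDegree hY
    rw [pow_two, RatFunc.intDegree_mul hY0 hY0,
      RatFunc.intDegree_mul (pow_ne_zero _ hf) hC0, RatFunc.intDegree_C, add_zero,
      pow_succ, pow_two, RatFunc.intDegree_mul (mul_ne_zero hf hf) hf,
      RatFunc.intDegree_mul hf hf] at hd
    rw [twF_intDegree] at hd
    omega
  have hY0 : Y = 0 := by
    rw [hfc, map_zero, mul_zero] at hY
    exact pow_eq_zero_iff (two_ne_zero) |>.mp hY
  rw [two_nsmul]
  apply Point.add_self_of_Y_eq
  rw [twCurve_negY, hY0, neg_zero]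

end

end Fermat.Agent.H74
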