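import Fermat.Agent.H74.TwistHasse
import Fermat.Agent.H70.HeightZero
import Fermat.Agent.H12.ManinFrobSub
import Fermat.Agent.H47.S52Cubic

/-!
# The Hasse relation on the twist, unconditionally (helper74, P-S52 / WP-B6)

`twist_hasse_uncond` : for an odd prime `ℓ` and `a b : ZMod ℓ` with `4a³ + 27b² ≠ 0`, every
point `P` of the twist of `y² = x³ + a x + b` over `RatFunc (ZMod ℓ)` satisfies
`2 • (F² P - a_ℓ • F P + ℓ • P) = 0`, `a_ℓ = ℓ + 1 - #E(𝔽_ℓ)`.

Inputs: `H70.hgt_parallelogram` (helper70), `H12.frobSubStatement` (helper12, using helper77's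
composition lemma), `H74` assembly.
-/

set_option autoImplicit false
set_option linter.unusedSectionVars false

namespace Fermat.Agent.H74

open WeierstrassCurve WeierstrassCurve.Affine
open Fermat.Agent.H38 Fermat.Agent.H70

section

variable {k : Type*} [Field k] [DecidableEq (RatFunc k)] (a b : k)

lemma shortCurve_Δ {R : Type*} [CommRing R] (a b : R) :
    (shortCurve a b).Δ = -16 * (4 * a ^ 3 + 27 * b ^ 2) := by
  simp only [WeierstrassCurve.Δ, WeierstrassCurve.b₂, WeierstrassCurve.b₄, WeierstrassCurve.b₆,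
    WeierstrassCurve.b₈, shortCurve]
  ring

lemma shortCurve_Δ_ne_zero (h2 : (2 : k) ≠ 0) (hΔ : 4 * a ^ 3 + 27 * b ^ 2 ≠ 0) :
    (shortCurve a b).Δ ≠ 0 := by
  rw [shortCurve_Δ]
  have h16 : (16 : k) ≠ 0 := by
    have : (16 : k) = 2 ^ 4 := by norm_num
    rw [this]; exact pow_ne_zero _ h2
  exact mul_ne_zero (neg_ne_zero.mpr h16) hΔ

lemma isConstTwist_twCurve : IsConstTwist (shortCurve a b) (twCurve a b) (twF a b) where
  c_ne := twF_ne_zero a b
  hb₂ := by simp [WeierstrassCurve.b₂, shortCurve]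
  hb₄ := by
    simp only [WeierstrassCurve.b₄, shortCurve, twCurve_a₁, twCurve_a₃, twCurve_a₄, map_add,
      map_mul, map_zero, map_ofNat]
    ring
  hb₆ := by
    simp only [WeierstrassCurve.b₆, shortCurve, twCurve_a₃, twCurve_a₆, map_add,
      map_mul, map_zero, map_ofNat, map_pow]
    ring
  hb₈ := by
    simp only [WeierstrassCurve.b₈, shortCurve, twCurve_a₁, twCurve_a₂, twCurve_a₃, twCurve_a₄,
      twCurve_a₆, map_add, map_sub, map_mul, map_zero, map_ofNat, map_pow]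
    ring

lemma hpt_eq_hgt (P : (twCurve a b).toAffine.Point) :
    hpt a b P = hgt (twCurve a b) (twF a b) P := by
  cases P with
  | zero => exact hpt_zero
  | some x y h =>
    rw [hpt_of_ne_zero (Point.some_ne_zero h), hgt_some]
    rfl

/-- **(H1)** The exact parallelogram law on the twist, unconditionally. -/
theorem paraLaw_hpt_uncond (h2 : (2 : k) ≠ 0) (hΔ : 4 * a ^ 3 + 27 * b ^ 2 ≠ 0) :
    ParaLaw (fun P : (twCurve a b).toAffine.Point => (hpt a b P : ℤ)) := by
  intro P Q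
  show (hpt a b (P + Q) : ℤ) + hpt a b (P - Q) = 2 * hpt a b P + 2 * hpt a b Q
  have := hgt_parallelogram (isConstTwist_twCurve a b) (shortCurve_Δ_ne_zero a b h2 hΔ) P Q
  simp only [← hpt_eq_hgt] at this
  exact_mod_cast this

end

section

variable {ℓ : ℕ} [Fact ℓ.Prime] [DecidableEq (RatFunc (ZMod ℓ))] {a b : ZMod ℓ}

/-- **Hasse relation on the twist** (unconditional). -/
theorem twist_hasse_uncond (hℓ : ℓ ≠ 2) (hΔ : 4 * a ^ 3 + 27 * b ^ 2 ≠ 0)
    (P : (twCurve a b).toAffine.Point) :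
    2 • (twFrob ℓ a b hℓ (twFrob ℓ a b hℓ P)
        - ((ℓ : ℤ) + 1 - (Nat.card (shortCurve a b).toAffine.Point : ℤ)) • twFrob ℓ a b hℓ P
        + (ℓ : ℤ) • P) = 0 := by
  have h2 := two_ne_zero_zmod hℓ
  have hpara := paraLaw_hpt_uncond a b h2 hΔ
  have hfs := Fermat.Agent.H12.frobSubStatement ℓ hℓ a b (shortCurve_Δ_ne_zero a b h2 hΔ)
  refine two_nsmul_hasse_eq_zero hpara (twFrob ℓ a b hℓ) (ℓ : ℤ)
    (Nat.card (shortCurve a b).toAffine.Point : ℤ) ?_ ?_ ?_ P
  · intro Q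
    show (hpt a b (twFrob ℓ a b hℓ Q) : ℤ) = ℓ * hpt a b Q
    rw [hpt_twFrob]; push_cast; ring
  · intro Q
    show (hpt a b (twFrob ℓ a b hℓ Q - Q) : ℤ) = _ * hpt a b Q
    rw [hpt_twFrob_sub_of_paraLaw hℓ hpara hfs]; push_cast; ring
  · intro Q hQ
    exact two_nsmul_eq_zero_of_hpt_eq_zero (by exact_mod_cast hQ)

end

end Fermat.Agent.H74
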