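import Fermat.Agent.H74.TwistCurve
import Fermat.Agent.H46.VariableChangePoint

/-!
# The Frobenius endomorphism of the twist (helper74, P-S52 / WP-B)

Over `K = RatFunc (ZMod ℓ)` the twist `Y² = X³ + a f² X + b f³` carries the additive
endomorphism `F (X, Y) = (X^ℓ / f^(ℓ-1), Y^ℓ / f^(3(ℓ-1)/2))`, i.e. `ξ ↦ ξ^ℓ` on untwisted
`x`-coordinates.
-/

set_option autoImplicit false
set_option linter.unusedSectionVars false

namespace Fermat.Agent.H74

open WeierstrassCurve WeierstrassCurve.Affine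
open Fermat.Agent.H38 Fermat.Agent.H70 Fermat.Agent.H46

section general

variable {K L : Type*} [Field K] [Field L] [DecidableEq K] [DecidableEq L]

/-- The map on points induced by a ring homomorphism of fields. -/
noncomputable def pointMapHom (φ : K →+* L) (W : WeierstrassCurve K) :
    W.toAffine.Point →+ (W.map φ).toAffine.Point where
  toFun P := match P with
    | .zero => 0
    | .some x y h => .some (φ x) (φ y) ((W.toAffine.map_nonsingular φ.injective x y).mpr h)
  map_zero' := rfl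
  map_add' := by
    rintro (_ | ⟨x₁, y₁, h₁⟩) (_ | ⟨x₂, y₂, h₂⟩)
    any_goals rfl
    by_cases hxy : x₁ = x₂ ∧ y₁ = W.toAffine.negY x₂ y₂
    · rw [Point.add_of_Y_eq hxy.left hxy.right]
      exact (Point.add_of_Y_eq (congr_arg _ hxy.left) <| by
        rw [hxy.right, Affine.map_negY]).symm
    · rw [Point.add_some hxy]
      have hxy' : ¬(φ x₁ = φ x₂ ∧ φ y₁ = (W.map φ).toAffine.negY (φ x₂) (φ y₂)) := by
        rintro ⟨h1, h2⟩
        rw [Affine.map_negY] at h2
        exact hxy ⟨φ.injective h1, φ.injective h2⟩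
      refine (Point.add_some hxy').symm ▸ ?_
      simp only [← Affine.map_addX, ← Affine.map_addY, ← Affine.map_slope]

@[simp] lemma pointMapHom_zero (φ : K →+* L) (W : WeierstrassCurve K) :
    pointMapHom φ W 0 = 0 := rfl

lemma pointMapHom_some (φ : K →+* L) (W : WeierstrassCurve K) {x y : K}
    (h : W.toAffine.Nonsingular x y) :
    pointMapHom φ W (.some x y h) =
      .some (φ x) (φ y) ((W.toAffine.map_nonsingular φ.injective x y).mpr h) := rfl

lemma xc_pointMapHom (φ : K →+* L) (W : WeierstrassCurve K) (P : W.toAffine.Point) :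
    xc (W.map φ) (pointMapHom φ W P) = φ (xc W P) := by
  cases P with
  | zero => exact (map_zero φ).symm
  | some x y h => rfl

lemma pointMapHom_eq_zero_iff (φ : K →+* L) (W : WeierstrassCurve K) (P : W.toAffine.Point) :
    pointMapHom φ W P = 0 ↔ P = 0 := by
  cases P with
  | zero => exact ⟨fun _ => rfl, fun _ => rfl⟩
  | some x y h =>
    rw [pointMapHom_some]
    constructor <;> intro h' <;> exact absurd h' (Point.some_ne_zero _)

/-- Transport of points along an equality of curves. -/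
noncomputable def pointCongr {W W' : WeierstrassCurve K} (h : W = W') :
    W.toAffine.Point →+ W'.toAffine.Point := by
  subst h
  exact AddMonoidHom.id _

lemma xc_pointCongr {W W' : WeierstrassCurve K} (h : W = W') (P : W.toAffine.Point) :
    xc W' (pointCongr h P) = xc W P := by
  subst h; rfl

lemma pointCongr_eq_zero_iff {W W' : WeierstrassCurve K} (h : W = W') (P : W.toAffine.Point) :
    pointCongr h P = 0 ↔ P = 0 := by
  subst h; rfl

lemma pointCongr_some {W W' : WeierstrassCurve K} (h : W = W') {x y : K}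
    (hxy : W.toAffine.Nonsingular x y) :
    pointCongr h (.some x y hxy) = .some x y (h ▸ hxy) := by
  subst h; rfl

lemma xc_vcPointHom (C : VariableChange K) (W : WeierstrassCurve K)
    {P : (C • W).toAffine.Point} (hP : P ≠ 0) :
    xc W (vcPointHom C W P) = vcX C (xc (C • W) P) := by
  cases P with
  | zero => exact absurd rfl hP
  | some x y h => rfl

lemma vcPointHom_eq_zero_iff (C : VariableChange K) (W : WeierstrassCurve K)
    (P : (C • W).toAffine.Point) : vcPointHom C W P = 0 ↔ P = 0 := by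
  constructor
  · intro h
    exact vcPointFun_injective C W (h : vcPointFun C W P = vcPointFun C W 0)
  · rintro rfl; rfl

end general

section frob

variable (ℓ : ℕ) [Fact ℓ.Prime] [DecidableEq (RatFunc (ZMod ℓ))] (a b : ZMod ℓ)

/-- The unit `u = (f^((ℓ-1)/2))⁻¹` of the change of variables from the Frobenius twist. -/
noncomputable def frobUnit : (RatFunc (ZMod ℓ))ˣ :=
  (Units.mk0 (twF a b ^ ((ℓ - 1) / 2)) (pow_ne_zero _ (twF_ne_zero a b)))⁻¹

lemma frobUnit_inv_val : ((frobUnit ℓ a b)⁻¹ : (RatFunc (ZMod ℓ))ˣ).val =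
    twF a b ^ ((ℓ - 1) / 2) := by
  simp [frobUnit]

lemma frobUnit_val : (frobUnit ℓ a b).val = (twF a b ^ ((ℓ - 1) / 2))⁻¹ := by
  simp [frobUnit]

/-- The change of variables identifying the Frobenius twist of the twist with the twist. -/
noncomputable def frobVC : VariableChange (RatFunc (ZMod ℓ)) := ⟨frobUnit ℓ a b, 0, 0, 0⟩

lemma ratFuncC_pow_card (c : ZMod ℓ) :
    (RatFunc.C c : RatFunc (ZMod ℓ)) ^ ℓ = RatFunc.C c := by
  rw [← map_pow, ZMod.pow_card]

lemma two_mul_half (hℓ : ℓ ≠ 2) : 2 * ((ℓ - 1) / 2) = ℓ - 1 := by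
  have hp := (Fact.out : ℓ.Prime)
  rcases hp.eq_two_or_odd with h | h
  · exact absurd h hℓ
  · omega

lemma map_frob_twCurve (hℓ : ℓ ≠ 2) :
    (twCurve a b).map (frobenius (RatFunc (ZMod ℓ)) ℓ) = frobVC ℓ a b • twCurve a b := by
  have hm := two_mul_half ℓ hℓ
  have hℓ1 : 1 ≤ ℓ := (Fact.out : ℓ.Prime).one_lt.le
  ext
  · simp [variableChange_a₁, frobVC]
  · simp [variableChange_a₂, frobVC]
  · simp [variableChange_a₃, frobVC]
  · simp only [map_a₄, variableChange_a₄, frobVC, twCurve_a₁, twCurve_a₂, twCurve_a₃,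
      twCurve_a₄, frobUnit_inv_val, frobenius_def, mul_pow, ratFuncC_pow_card]
    rw [← pow_mul, ← pow_mul]
    have e : twF a b ^ ((ℓ - 1) / 2 * 4) * twF a b ^ 2 = twF a b ^ (2 * ℓ) := by
      rw [← pow_add]; congr 1; omega
    linear_combination (-RatFunc.C a) * e
  · simp only [map_a₆, variableChange_a₆, frobVC, twCurve_a₁, twCurve_a₂, twCurve_a₃,
      twCurve_a₄, twCurve_a₆, frobUnit_inv_val, frobenius_def, mul_pow, ratFuncC_pow_card]
    rw [← pow_mul, ← pow_mul]
    have e : twF a b ^ ((ℓ - 1) / 2 * 6) * twF a b ^ 3 = twF a b ^ (3 * ℓ) := by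
      rw [← pow_add]; congr 1; omega
    linear_combination (-RatFunc.C b) * e

/-- **The Frobenius endomorphism of the twist.** -/
noncomputable def twFrob (hℓ : ℓ ≠ 2) :
    (twCurve a b).toAffine.Point →+ (twCurve a b).toAffine.Point :=
  (vcPointHom (frobVC ℓ a b) (twCurve a b)).comp
    ((pointCongr (map_frob_twCurve ℓ a b hℓ)).comp
      (pointMapHom (frobenius (RatFunc (ZMod ℓ)) ℓ) (twCurve a b)))

variable {ℓ a b}

lemma twFrob_eq_zero_iff (hℓ : ℓ ≠ 2) (P : (twCurve a b).toAffine.Point) :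
    twFrob ℓ a b hℓ P = 0 ↔ P = 0 := by
  simp only [twFrob, AddMonoidHom.comp_apply]
  rw [vcPointHom_eq_zero_iff, pointCongr_eq_zero_iff, pointMapHom_eq_zero_iff]

lemma xc_twFrob (hℓ : ℓ ≠ 2) (P : (twCurve a b).toAffine.Point) :
    xc (twCurve a b) (twFrob ℓ a b hℓ P) = xc (twCurve a b) P ^ ℓ / twF a b ^ (ℓ - 1) := by
  by_cases hP : P = 0
  · subst hP
    have h0 : (0 : RatFunc (ZMod ℓ)) ^ ℓ = 0 := zero_pow (Fact.out : ℓ.Prime).ne_zero
    simp only [map_zero]
    show (0 : RatFunc (ZMod ℓ)) = 0 ^ ℓ / _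
    rw [h0, zero_div]
  · have h1 : (pointCongr (map_frob_twCurve ℓ a b hℓ))
        (pointMapHom (frobenius (RatFunc (ZMod ℓ)) ℓ) (twCurve a b) P) ≠ 0 := by
      rw [Ne, pointCongr_eq_zero_iff, pointMapHom_eq_zero_iff]; exact hP
    simp only [twFrob, AddMonoidHom.comp_apply]
    rw [xc_vcPointHom _ _ h1, xc_pointCongr, xc_pointMapHom, vcX, frobenius_def]
    simp only [frobVC, frobUnit_val, add_zero]
    rw [inv_pow, ← pow_mul, mul_comm _ 2, two_mul_half ℓ hℓ]
    field_simp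

/-- **Frobenius raises the untwisted `x`-coordinate to the `ℓ`-th power.** -/
lemma xiPt_twFrob (hℓ : ℓ ≠ 2) (P : (twCurve a b).toAffine.Point) :
    xiPt a b (twFrob ℓ a b hℓ P) = xiPt a b P ^ ℓ := by
  have hf := twF_ne_zero a b
  have hℓ1 : 1 ≤ ℓ := (Fact.out : ℓ.Prime).one_lt.le
  rw [xiPt, xc_twFrob, xiPt, div_pow, div_div]
  congr 1
  rw [← pow_succ]
  congr 1
  omega

/-- **(H2)** `h (F P) = ℓ h P`. -/
theorem hpt_twFrob (hℓ : ℓ ≠ 2) (P : (twCurve a b).toAffine.Point) :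
    hpt a b (twFrob ℓ a b hℓ P) = ℓ * hpt a b P := by
  by_cases hP : P = 0
  · subst hP; simp
  · rw [hpt_of_ne_zero hP, hpt_of_ne_zero (by rwa [Ne, twFrob_eq_zero_iff]), xiPt_twFrob,
      hdeg_pow]

/-- Explicit form of the Frobenius endomorphism on affine points. -/
lemma twFrob_some (hℓ : ℓ ≠ 2) {X Y : RatFunc (ZMod ℓ)}
    (h : (twCurve a b).toAffine.Nonsingular X Y) :
    ∃ h' : (twCurve a b).toAffine.Nonsingular (X ^ ℓ / twF a b ^ (ℓ - 1))
        (Y ^ ℓ / twF a b ^ (3 * ((ℓ - 1) / 2))),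
      twFrob ℓ a b hℓ (.some X Y h) = .some _ _ h' := by
  have hf := twF_ne_zero a b
  have e1 : vcX (frobVC ℓ a b) (X ^ ℓ) = X ^ ℓ / twF a b ^ (ℓ - 1) := by
    simp only [vcX, frobVC, frobUnit_val, add_zero]
    rw [inv_pow, ← pow_mul, mul_comm _ 2, two_mul_half ℓ hℓ]
    field_simp
  have e2 : vcY (frobVC ℓ a b) (X ^ ℓ) (Y ^ ℓ) = Y ^ ℓ / twF a b ^ (3 * ((ℓ - 1) / 2)) := by
    simp only [vcY, frobVC, frobUnit_val, add_zero, mul_zero, zero_mul]
    rw [inv_pow, ← pow_mul, mul_comm _ 3]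
    field_simp
  simp only [twFrob, AddMonoidHom.comp_apply, pointMapHom_some, pointCongr_some, frobenius_def]
  have hns := (vc_nonsingular (frobVC ℓ a b) (twCurve a b) (X ^ ℓ) (Y ^ ℓ)).mp
    ((map_frob_twCurve ℓ a b hℓ) ▸
      ((twCurve a b).toAffine.map_nonsingular
        (frobenius (RatFunc (ZMod ℓ)) ℓ).injective X Y).mpr h)
  refine ⟨by rw [← e1, ← e2]; exact hns, ?_⟩
  show Point.some (vcX (frobVC ℓ a b) (X ^ ℓ)) (vcY (frobVC ℓ a b) (X ^ ℓ) (Y ^ ℓ)) hns = _
  congr 1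

/-- **(H3)** `h (F P - P) = #E(𝔽_ℓ) · h P`, given the parallelogram law. -/
theorem hpt_twFrob_sub_of_paraLaw (hℓ : ℓ ≠ 2)
    (hpara : ParaLaw (fun P : (twCurve a b).toAffine.Point => (hpt a b P : ℤ)))
    (hfs : FrobSubStatement ℓ a b) (P : (twCurve a b).toAffine.Point) :
    hpt a b (twFrob ℓ a b hℓ P - P) =
      Nat.card (shortCurve a b).toAffine.Point * hpt a b P := by
  have hp := (Fact.out : ℓ.Prime)
  have hf := twF_ne_zero a b
  by_cases hP : P = 0
  · subst hP; simp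
  by_cases hξ : xiPt a b P ^ ℓ = xiPt a b P
  · -- `ξ` is constant, everything has height `0`
    have h0 : hdeg (xiPt a b P) = 0 := by
      have := hdeg_pow (xiPt a b P) ℓ
      rw [hξ] at this
      have h2le := hp.two_le
      by_contra hne
      have hpos : 0 < hdeg (xiPt a b P) := Nat.pos_of_ne_zero hne
      nlinarith
    have hP0 : hpt a b P = 0 := by rw [hpt_of_ne_zero hP, h0]
    have hFP0 : hpt a b (twFrob ℓ a b hℓ P) = 0 := by rw [hpt_twFrob, hP0, mul_zero]
    have := hpara (twFrob ℓ a b hℓ P) P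
    simp only [hP0, hFP0] at this
    have h3 : (hpt a b (twFrob ℓ a b hℓ P - P) : ℤ) = 0 := by
      have n1 : (0 : ℤ) ≤ hpt a b (twFrob ℓ a b hℓ P + P) := Int.natCast_nonneg _
      have n2 : (0 : ℤ) ≤ hpt a b (twFrob ℓ a b hℓ P - P) := Int.natCast_nonneg _
      push_cast at this
      linarith
    rw [hP0, mul_zero]
    exact_mod_cast h3
  · obtain ⟨X, Y, hXY, rfl⟩ := exists_some_of_ne_zero _ hP
    obtain ⟨h', hF⟩ := twFrob_some hℓ hXY
    set ξ := xiPt a b (Point.some X Y hXY) with hξdef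
    have hXξ : X = twF a b * ξ := by
      have := xc_eq_xiPt_mul (Point.some X Y hXY)
      rwa [xc_some] at this
    have hX'ξ : X ^ ℓ / twF a b ^ (ℓ - 1) = twF a b * ξ ^ ℓ := by
      have := xc_eq_xiPt_mul (twFrob ℓ a b hℓ (Point.some X Y hXY))
      rw [xiPt_twFrob, hF, xc_some] at this
      exact this
    have hne : X ^ ℓ / twF a b ^ (ℓ - 1) ≠ X := by
      rw [hX'ξ, hXξ]
      intro h
      exact hξ (mul_left_cancel₀ hf h)
    have heq := (twCurve_equation_iff a b X Y).mp hXY.1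
    have hY2 : Y ^ 2 = twF a b ^ 3 * cubicAt a b ξ := by
      rw [heq, hXξ, cubicAt]; ring
    set m := (ℓ - 1) / 2 with hm
    have hℓm : ℓ = 2 * m + 1 := by
      have := two_mul_half ℓ hℓ
      have := hp.one_lt
      omega
    have hY' : Y ^ ℓ / twF a b ^ (3 * m) = Y * cubicAt a b ξ ^ m := by
      rw [div_eq_iff (pow_ne_zero _ hf)]
      have e0 : Y ^ ℓ = Y ^ (2 * m + 1) := congrArg (fun n => Y ^ n) hℓm
      rw [e0, pow_succ, pow_mul, hY2, mul_pow, ← pow_mul]
      ring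
    have hsub : xc (twCurve a b) (twFrob ℓ a b hℓ (Point.some X Y hXY) - Point.some X Y hXY) =
        (twCurve a b).toAffine.addX (X ^ ℓ / twF a b ^ (ℓ - 1)) X
          ((twCurve a b).toAffine.slope (X ^ ℓ / twF a b ^ (ℓ - 1)) X
            (Y ^ ℓ / twF a b ^ (3 * m)) ((twCurve a b).toAffine.negY X Y)) := by
      rw [hF, sub_eq_add_neg, Point.neg_some, Point.add_of_X_ne hne, xc_some]
    have hsubne : twFrob ℓ a b hℓ (Point.some X Y hXY) - Point.some X Y hXY ≠ 0 := by
      rw [hF, sub_eq_add_neg, Point.neg_some, Point.add_of_X_ne hne]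
      exact Point.some_ne_zero _
    have key := addX_slope_mul_sq (twCurve a b) (Y ^ ℓ / twF a b ^ (3 * m))
      ((twCurve a b).toAffine.negY X Y) hne
    rw [twCurve_negY, twCurve_a₁, twCurve_a₂, hY', hX'ξ] at key
    have hxi3 : xiPt a b (twFrob ℓ a b hℓ (Point.some X Y hXY) - Point.some X Y hXY) =
        ((ξ ^ 3 + RatFunc.C a * ξ + RatFunc.C b) *
          ((ξ ^ 3 + RatFunc.C a * ξ + RatFunc.C b) ^ ((ℓ - 1) / 2) + 1) ^ 2 -
        (ξ ^ ℓ + ξ) * (ξ ^ ℓ - ξ) ^ 2) / (ξ ^ ℓ - ξ) ^ 2 := by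
      have hd0 : (ξ ^ ℓ - ξ) ^ 2 ≠ 0 := pow_ne_zero _ (sub_ne_zero.mpr hξ)
      rw [eq_div_iff hd0, xiPt, hsub, twCurve_negY, hY', hX'ξ, div_mul_eq_mul_div,
        div_eq_iff hf]
      generalize (twCurve a b).toAffine.addX (twF a b * ξ ^ ℓ) X
        ((twCurve a b).toAffine.slope (twF a b * ξ ^ ℓ) X (Y * cubicAt a b ξ ^ m) (-Y)) = A
        at key ⊢
      rw [hXξ] at key
      have hf2 : twF a b ^ 2 ≠ 0 := pow_ne_zero _ hf
      apply mul_left_cancel₀ hf2
      have hc3 : ξ ^ 3 + RatFunc.C a * ξ + RatFunc.C b = cubicAt a b ξ := rfl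
      rw [hc3]
      linear_combination key + (cubicAt a b ξ ^ m + 1) ^ 2 * hY2
    rw [hpt_of_ne_zero hsubne, hpt_of_ne_zero hP, hxi3]
    exact hfs ξ hξ

/-- **(H3)** `h (F P - P) = #E(𝔽_ℓ) · h P`, from the interface statements. -/
theorem hpt_twFrob_sub (hℓ : ℓ ≠ 2) (hc : CubicStatement a b)
    (hg : ParaGenericStatement a b) (hd : ParaDoubleStatement a b)
    (hfs : FrobSubStatement ℓ a b) (P : (twCurve a b).toAffine.Point) :
    hpt a b (twFrob ℓ a b hℓ P - P) =
      Nat.card (shortCurve a b).toAffine.Point * hpt a b P := by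
  have hp := (Fact.out : ℓ.Prime)
  have h2 : (2 : ZMod ℓ) ≠ 0 := by
    intro h
    have : (ℓ : ℕ) ∣ 2 := (ZMod.natCast_eq_zero_iff 2 ℓ).mp (by exact_mod_cast h)
    exact hℓ ((Nat.prime_dvd_prime_iff_eq hp Nat.prime_two).mp this)
  exact hpt_twFrob_sub_of_paraLaw hℓ (paraLaw_hpt h2 hc hg hd) hfs P

end frob

end Fermat.Agent.H74
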