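import Fermat.Agent.H74.TwistFrob

/-!
# The Hasse relation on the twist (helper74, P-S52 / WP-B6)

`2 • (F² P - a_ℓ • F P + ℓ • P) = 0` for every point `P` of the twist of
`E : y² = x³ + a x + b` over `RatFunc (ZMod ℓ)`, where `a_ℓ = ℓ + 1 - #E(𝔽_ℓ)`, from the pure
`RatFunc` statements of `Fermat.Agent.H74.TwistInterfaces`.  Also the generic point
`P₀ = (t f, f²)`.
-/

set_option autoImplicit false
set_option linter.unusedSectionVars false

namespace Fermat.Agent.H74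

open WeierstrassCurve WeierstrassCurve.Affine
open Fermat.Agent.H38 Fermat.Agent.H70 Fermat.Agent.H46

section

variable {ℓ : ℕ} [Fact ℓ.Prime] [DecidableEq (RatFunc (ZMod ℓ))] {a b : ZMod ℓ}

lemma two_ne_zero_zmod (hℓ : ℓ ≠ 2) : (2 : ZMod ℓ) ≠ 0 := by
  have hp := (Fact.out : ℓ.Prime)
  intro h
  have : (ℓ : ℕ) ∣ 2 := (ZMod.natCast_eq_zero_iff 2 ℓ).mp (by exact_mod_cast h)
  exact hℓ ((Nat.prime_dvd_prime_iff_eq hp Nat.prime_two).mp this)

/-- **Hasse relation on the twist.** -/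
theorem twist_hasse (hℓ : ℓ ≠ 2) (hc : CubicStatement a b)
    (hg : ParaGenericStatement a b) (hd : ParaDoubleStatement a b)
    (hfs : FrobSubStatement ℓ a b) (P : (twCurve a b).toAffine.Point) :
    2 • (twFrob ℓ a b hℓ (twFrob ℓ a b hℓ P)
        - ((ℓ : ℤ) + 1 - (Nat.card (shortCurve a b).toAffine.Point : ℤ)) • twFrob ℓ a b hℓ P
        + (ℓ : ℤ) • P) = 0 := by
  have hpara := paraLaw_hpt (two_ne_zero_zmod hℓ) hc hg hd
  refine two_nsmul_hasse_eq_zero hpara (twFrob ℓ a b hℓ) (ℓ : ℤ)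
    (Nat.card (shortCurve a b).toAffine.Point : ℤ) ?_ ?_ ?_ P
  · intro Q
    show (hpt a b (twFrob ℓ a b hℓ Q) : ℤ) = ℓ * hpt a b Q
    rw [hpt_twFrob]; push_cast; ring
  · intro Q
    show (hpt a b (twFrob ℓ a b hℓ Q - Q) : ℤ) = _ * hpt a b Q
    rw [hpt_twFrob_sub hℓ hc hg hd hfs]; push_cast; ring
  · intro Q hQ
    exact two_nsmul_eq_zero_of_hpt_eq_zero (by exact_mod_cast hQ)

end

section generic

variable {k : Type*} [Field k] [DecidableEq (RatFunc k)] (a b : k)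

lemma twCurve_Δ_ne_zero (h2 : (2 : k) ≠ 0) (hΔ : 4 * a ^ 3 + 27 * b ^ 2 ≠ 0) :
    (twCurve a b).Δ ≠ 0 := by
  rw [twCurve_Δ]
  refine mul_ne_zero ?_ (pow_ne_zero _ (twF_ne_zero a b))
  intro h
  have h0 := RatFunc.C_injective (h.trans (map_zero _).symm)
  have h16 : (16 : k) ≠ 0 := by
    have : (16 : k) = 2 ^ 4 := by norm_num
    rw [this]; exact pow_ne_zero _ h2
  rcases mul_eq_zero.mp h0 with h | h
  · exact h16 (neg_eq_zero.mp h)
  · exact hΔ h

lemma twCurve_equation_generic :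
    (twCurve a b).toAffine.Equation (RatFunc.X * twF a b) (twF a b ^ 2) := by
  rw [twCurve_equation_iff]
  have : twF a b = RatFunc.X ^ 3 + RatFunc.C a * RatFunc.X + RatFunc.C b := rfl
  linear_combination (twF a b ^ 3) * this

/-- The generic point `P₀ = (t f, f²)` of the twist. -/
noncomputable def twGeneric (h2 : (2 : k) ≠ 0) (hΔ : 4 * a ^ 3 + 27 * b ^ 2 ≠ 0) :
    (twCurve a b).toAffine.Point :=
  .some (RatFunc.X * twF a b) (twF a b ^ 2)
    ((equation_iff_nonsingular_of_Δ_ne_zero (W := (twCurve a b).toAffine)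
      (twCurve_Δ_ne_zero a b h2 hΔ)).mp (twCurve_equation_generic a b))

lemma xiPt_twGeneric (h2 : (2 : k) ≠ 0) (hΔ : 4 * a ^ 3 + 27 * b ^ 2 ≠ 0) :
    xiPt a b (twGeneric a b h2 hΔ) = RatFunc.X := by
  rw [xiPt, twGeneric, xc_some, mul_div_assoc, div_self (twF_ne_zero a b), mul_one]

lemma hpt_twGeneric (h2 : (2 : k) ≠ 0) (hΔ : 4 * a ^ 3 + 27 * b ^ 2 ≠ 0) :
    hpt a b (twGeneric a b h2 hΔ) = 1 := by
  have hne : twGeneric a b h2 hΔ ≠ 0 := Point.some_ne_zero _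
  rw [hpt_of_ne_zero hne, xiPt_twGeneric, hdeg_X]

end generic

end Fermat.Agent.H74
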